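/-
Null divisors on a `Model`: near every point of the special fibre they are cut out by a function of
order zero with residue one on every branch through the point.

Interfaces for level lowering from `q² L` to `q L`:
* `Pts`: specialisation of the geometric points to the standard points of the two charts;
* `Op`, `OldOp`: operators on divisors and functions, with their locality;
* `Geom`: the facts on the special fibre not recorded in `Model`.
-/
import Fermat.Agent.Carayol.Coherent
import Fermat.Prelude.Def_AlgebraicCurve_DivisorClassGroup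

set_option autoImplicit false
set_option linter.unusedSectionVars false

noncomputable section

open AlgebraicCurve

namespace Fermat.Agent.LowerSq.Null

open Carayol

variable {W F k C : Type} [CommRing W] [IsDomain W] [IsDiscreteValuationRing W] [Field F]
  [Algebra W F] [Field k] [Field C] [Algebra k C] (M : Model W F k C)

/-- A point of the special fibre in its standard chart: the second chart is used for `x = ∞`. -/
def Std (c : Fin 2) (y : Ideal (M.R c)) : Prop :=
  y.IsMaximal ∧ M.qR c ∈ y ∧ (c = 1 → ∀ r : M.R c, (r : F) = M.x⁻¹ → r ∈ y)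

/-- `O` is the point `y` on the branch `i`. -/
def BranchPt (c : Fin 2) (y : Ideal (M.R c)) (i : Fin 3) (O : Place k C) : Prop :=
  ∀ r : M.R c, M.red i (r : F) ∈ O.toValuationSubring ∧ (r ∉ y → O.ord (M.red i (r : F)) = 0)

/-- A point on all three branches. -/
def AllBranches (c : Fin 2) (y : Ideal (M.R c)) : Prop := ∀ i, M.OnBranch c y i

/-- Facts on the special fibre. -/
structure Geom : Prop where
  /-- every place of the reduced curve is a point on every branch -/
  cover : ∀ (i : Fin 3) (O : Place k C), ∃ c y, Std M c y ∧ M.OnBranch c y i ∧ BranchPt M c y i O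
  /-- a point on a branch is a place there -/
  exists_branchPt : ∀ (i : Fin 3) (c : Fin 2) (y : Ideal (M.R c)), Std M c y → M.OnBranch c y i →
    ∃ O, BranchPt M c y i O
  /-- the same place on two branches is seen in the same chart -/
  same_chart : ∀ (i j : Fin 3) (O : Place k C) (c c' : Fin 2) (y : Ideal (M.R c))
    (y' : Ideal (M.R c')), Std M c y → Std M c' y' → M.OnBranch c y i → M.OnBranch c' y' j →
      BranchPt M c y i O → BranchPt M c' y' j O → c = c'
  /-- cusps are ordinary -/
  cusp : ∀ y : Ideal (M.R 1), Std M 1 y → ¬ AllBranches M 1 y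
  /-- there are finitely many supersingular points -/
  finite_ss : {y : Ideal (M.R 0) | Std M 0 y ∧ AllBranches M 0 y}.Finite

variable {L E : Type} [Field L] [Field E] [Algebra L E]

variable (L) in
/-- Specialisation of the places of the geometric generic fibre. -/
structure Pts (ι : F →+* E) where
  /-- `Cen c y P`: the place `P` specialises to `y` -/
  Cen : ∀ c : Fin 2, Ideal (M.R c) → Place L E → Prop
  exists_cen : ∀ P, ∃ c y, Std M c y ∧ Cen c y P
  eq_of_cen : ∀ (c c' : Fin 2) (y : Ideal (M.R c)) (y' : Ideal (M.R c')) (P : Place L E),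
    Std M c y → Std M c' y' → Cen c y P → Cen c' y' P →
      (⟨c, y⟩ : Σ c, Ideal (M.R c)) = ⟨c', y'⟩
  mem : ∀ (c : Fin 2) (y : Ideal (M.R c)) (P : Place L E), Std M c y → Cen c y P →
    ∀ r : M.R c, ι (r : F) ∈ P.toValuationSubring ∧ (r ∉ y → P.ord (ι (r : F)) = 0)
  /-- a function vanishing at a point and not at another one -/
  sep : ∀ (c : Fin 2) (y z : Ideal (M.R c)) (P : Place L E), Std M c y → Std M c z → y ≠ z →
    Cen c z P → ∃ s : M.R c, s ∉ y ∧ 0 < P.ord (ι (s : F))
  /-- functions without poles at a point are regular there -/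
  regular : ∀ (c : Fin 2) (y : Ideal (M.R c)) (f : F), Std M c y → f ≠ 0 →
    (∀ i, M.OnBranch c y i → 0 ≤ M.ord i f) → (∀ P, Cen c y P → 0 ≤ P.ord (ι f)) →
      ∃ r : M.R c, r ∉ y ∧ f * (r : F) ∈ M.R c

variable {M} {ι : F →+* E} (X : Pts M L ι)

/-- `D` vanishes on the places of a set of points. -/
def VanishesOn (c : Fin 2) (S : Set (Ideal (M.R c))) (D : Divisor L E) : Prop :=
  ∀ y ∈ S, ∀ P, X.Cen c y P → D P = 0

/-- A local equation of a divisor at a point. -/
structure IsEq (D : Divisor L E) (c : Fin 2) (y : Ideal (M.R c)) (g : F) : Prop where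
  ne_zero : g ≠ 0
  ord_eq : ∀ i, M.OnBranch c y i → M.ord i g = 0
  apply_eq : ∀ P, X.Cen c y P → D P = P.ord (ι g)

/-- Local equations exist. -/
def HasEqs (D : Divisor L E) : Prop := ∀ c y, Std M c y → ∃ g, IsEq X D c y g

/-- Local equations with residue one exist. -/
def IsNull (D : Divisor L E) : Prop :=
  ∀ c y, Std M c y → ∃ g, IsEq X D c y g ∧ ∀ i, M.OnBranch c y i → M.red i g = 1

/-- An operator on divisors together with its action on functions. -/
structure Op where
  fn : F →* F
  div : Divisor L E →+ Divisor L E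
  fn_ne_zero : ∀ h, h ≠ 0 → fn h ≠ 0
  ord_eq : ∀ (D : Divisor L E) (h : F), h ≠ 0 → (∀ P, D P = P.ord (ι h)) →
    ∀ P, div D P = P.ord (ι (fn h))
  locality : ∀ (c : Fin 2) (x : Ideal (M.R c)), Std M c x → ∃ S : Finset (Ideal (M.R c)),
    (∀ y ∈ S, Std M c y) ∧
      ∀ D, VanishesOn X c (S : Set (Ideal (M.R c))) D → ∀ P, X.Cen c x P → div D P = 0
  ord_fn : ∀ h, h ≠ 0 → (∀ i, M.ord i h = 0) → ∀ i, M.ord i (fn h) = 0
  red_one : ∀ h, h ≠ 0 → (∀ i, M.ord i h = 0) → (∀ i, M.red i h = 1) → ∀ i, M.red i (fn h) = 1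

/-- The composite `π* π_*` of a degeneracy map to level `q L`: `o` is the branch meeting the middle
one, `p` the other. -/
structure OldOp (o p : Fin 3) extends Op X where
  red_o : ∀ h, h ≠ 0 → (∀ i, M.ord i h = 0) →
    M.red o (fn h) = M.red o h * M.red 1 h ^ (M.q - 1)
  red_mid : ∀ h, h ≠ 0 → (∀ i, M.ord i h = 0) → M.red 1 (fn h) = M.red o (fn h)
  red_p : ∀ h, h ≠ 0 → (∀ i, M.ord i h = 0) → M.red p (fn h) = M.red p h ^ M.q
  regular : ∀ (c : Fin 2) (y : Ideal (M.R c)), Std M c y → AllBranches M c y → ∀ a ∈ M.R c,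
    ∃ r : M.R c, r ∉ y ∧ (r : F) * fn a ∈ M.R c

end Fermat.Agent.LowerSq.Null
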