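/-
The facts on the special fibre used for null divisors, from the `Model` and three facts of the
instance: the chart at the cusps is integral over `W[x⁻¹]`, the residue of `x` on every branch is a
positive power of one transcendental element, and the cusps are not supersingular.
-/
import Fermat.Agent.LowerSq.Null.Defs
import Fermat.Agent.Carayol.OrdCongr
import Fermat.Agent.Carayol.OldSide

set_option autoImplicit false
set_option linter.unusedSectionVars false

noncomputable section

open AlgebraicCurve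

namespace Fermat.Agent.LowerSq.Null

open Carayol

variable {W F k C : Type} [CommRing W] [IsDomain W] [IsDiscreteValuationRing W] [Field F]
  [Algebra W F] [Field k] [Field C] [Algebra k C] (M : Model W F k C)

/-- The nonunits at a place are the functions vanishing there. -/
theorem mem_nonunits_place_iff [FF.IsFunctionField k C] (P : Place k C) (z : C) :
    z ∈ P.toValuationSubring.nonunits ↔ z = 0 ∨ 0 < P.ord z := by
  rcases eq_or_ne z 0 with rfl | hz
  · simp
  · rw [or_iff_right hz, ValuationSubring.mem_nonunits_iff, ← not_le,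
      ← inv_le_one₀ ((Valuation.pos_iff _).mpr hz), ← map_inv₀, ValuationSubring.valuation_le_one_iff,
      FF.mem_iff_ord_nonneg P, P.ord_inv]
    omega

/-- The residues of a chart on a branch lie in a valuation ring containing the residue of the
coordinate, when the chart is integral over that coordinate. -/
theorem red_mem_of_isIntegral_on (i : Fin 3) (P : Place k C) {c : Fin 2} {z : F} (hz : z ∈ M.R c)
    (hzP : M.red i z ∈ P.toValuationSubring) {a : F} (ha : a ∈ M.R c)
    (hint : IsIntegral (Algebra.adjoin W ({z} : Set F)) a) :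
    M.red i a ∈ P.toValuationSubring := by
  classical
  have hle : Algebra.adjoin W ({z} : Set F) ≤ M.R c :=
    Algebra.adjoin_le (Set.singleton_subset_iff.mpr hz)
  have hO : ∀ b : Algebra.adjoin W ({z} : Set F), M.red i (b : F) ∈ P.toValuationSubring := by
    rintro ⟨b, hb⟩
    induction hb using Algebra.adjoin_induction with
    | mem x hx =>
      obtain rfl : x = z := hx
      exact hzP
    | algebraMap w =>
      show M.red i (algebraMap W F w) ∈ _
      rw [M.red_const]
      exact P.algebraMap_mem' _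
    | add x x' hx hx' ihx ihx' =>
      show M.red i (x + x') ∈ _
      rw [M.red_add (M.mem_of_mem (hle hx) i) (M.mem_of_mem (hle hx') i)]
      exact add_mem ihx ihx'
    | mul x x' hx hx' ihx ihx' =>
      show M.red i (x * x') ∈ _
      rw [M.red_mul (M.mem_of_mem (hle hx) i) (M.mem_of_mem (hle hx') i)]
      exact mul_mem ihx ihx'
  let φ : M.R c →+* C := chartRes M.Br (M.chart c) i
  have hφ : ∀ r, φ r = M.red i (r : F) :=
    fun r => (Model.red_of_mem M (M.mem_of_mem r.2 i)).symm
  let ι : Algebra.adjoin W ({z} : Set F) →+* M.R c := (Subalgebra.inclusion hle).toRingHom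
  let ψ : Algebra.adjoin W ({z} : Set F) →+* P.toValuationSubring :=
    (φ.comp ι).codRestrict P.toValuationSubring fun b => by
      show φ (ι b) ∈ _
      rw [hφ]
      exact hO b
  obtain ⟨p, hp, hp0⟩ := hint
  have hi : IsIntegral P.toValuationSubring (M.red i a) := by
    refine ⟨p.map ψ, hp.map ψ, ?_⟩
    rw [Polynomial.eval₂_map]
    have hcomp : (algebraMap P.toValuationSubring C).comp ψ = φ.comp ι := RingHom.ext fun _ => rfl
    rw [hcomp, ← hφ ⟨a, ha⟩, ← Polynomial.hom_eval₂, show Polynomial.eval₂ ι (⟨a, ha⟩ : M.R c) p = 0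
      from Subtype.ext ?_, map_zero]
    have e := Polynomial.hom_eval₂ p ι ((M.R c).val.toRingHom) (⟨a, ha⟩ : M.R c)
    exact e.trans hp0
  obtain ⟨b, hb⟩ := IsIntegrallyClosed.algebraMap_eq_of_integral hi
  rw [← hb]
  exact b.2

/-- The finite chart is integral over `W[x]`. -/
theorem isIntegral_chart_zero {a : F} (ha : a ∈ M.R 0) :
    IsIntegral (Algebra.adjoin W ({M.x} : Set F)) a := by
  classical
  let B : Subalgebra (Algebra.adjoin W ({M.x} : Set F)) F :=
    { (M.R 0).toSubsemiring with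
      algebraMap_mem' := fun b =>
        (Algebra.adjoin_le (Set.singleton_subset_iff.mpr M.x_mem)) b.2 }
  obtain ⟨s₀, hs₀, hspan⟩ := M.finite₀
  refine IsIntegral.of_mem_of_fg B ⟨s₀, le_antisymm ?_ fun b hb => hspan b hb⟩ a ha
  exact Submodule.span_le.mpr fun b hb => hs₀ hb

theorem red_x_mul_red_inv (i : Fin 3) : M.red i M.x * M.red i M.x⁻¹ = 1 := by
  rw [← M.red_mul (M.mem_of_mem M.x_mem i) (M.mem_of_mem M.x_inv_mem i),
    mul_inv_cancel₀ M.x_ne_zero, M.red_one]

/-- The residue in a place of the residue of a chart element. -/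
theorem ord_pos_or_zero_of_mem {c : Fin 2} {y : Ideal (M.R c)} {i : Fin 3} {O : Place k C}
    [FF.IsFunctionField k C] (hy : y ≠ ⊤) (hon : M.OnBranch c y i) (h : BranchPt M c y i O)
    {r : M.R c} (hr : r ∈ y) : M.red i (r : F) = 0 ∨ 0 < O.ord (M.red i (r : F)) := by
  by_contra hcon
  push Not at hcon
  have := M.algClosed
  let e := IsAlgClosed.algebraMap_bijective_of_isIntegral (k := k) (K := O.ResidueField)
  obtain ⟨t, ht⟩ := e.2 (IsLocalRing.residue O.toValuationSubring ⟨_, (h r).1⟩)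
  obtain ⟨w, rfl⟩ := M.ρ_surjective t
  have hd : M.red i (((r - algebraMap W (M.R c) w : M.R c)) : F) =
      M.red i (r : F) - algebraMap k C (M.ρ w) := by
    have h1 := M.red_add (i := i) (M.mem_of_mem (r - algebraMap W (M.R c) w).2 i)
      (M.mem_of_mem (algebraMap W (M.R c) w).2 i)
    rw [← AddMemClass.coe_add, sub_add_cancel] at h1
    rw [eq_sub_iff_add_eq, h1]
    congr 1
    exact (M.red_const i w).symm
  -- `r - w` vanishes at `O`, so lies in the point, and so does `w`
  have hnu : M.red i (r : F) - algebraMap k C (M.ρ w) ∈ O.toValuationSubring.nonunits := by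
    rw [ValuationSubring.mem_nonunits_iff_exists_mem_maximalIdeal]
    refine ⟨sub_mem (h r).1 (O.algebraMap_mem' _),
      (IsLocalRing.residue_eq_zero_iff _).mp ?_⟩
    rw [show (⟨M.red i (r : F) - algebraMap k C (M.ρ w), _⟩ : O.toValuationSubring) =
      ⟨_, (h r).1⟩ - algebraMap k O.toValuationSubring (M.ρ w) from rfl, map_sub, ← ht, sub_eq_zero]
    rfl
  have hmem : r - algebraMap W (M.R c) w ∈ y := by
    by_contra hmem
    have h0 := (h _).2 hmem
    rw [hd] at h0
    rcases eq_or_ne (M.red i (r : F) - algebraMap k C (M.ρ w)) 0 with h1 | h1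
    · exact hmem (hon _ (M.mem_of_mem (r - algebraMap W (M.R c) w).2 i)
        (by rw [← Model.red_of_mem M, hd, h1]))
    · have := ((mem_nonunits_place_iff O _).mp hnu).resolve_left h1
      omega
  have hwy : algebraMap W (M.R c) w ∈ y := by simpa using y.sub_mem hr hmem
  by_cases hw : IsUnit w
  · exact hy (Ideal.eq_top_of_isUnit_mem _ hwy (hw.map _))
  · have hρ : M.ρ w = 0 := by
      have hw' : w ∈ IsLocalRing.maximalIdeal W := hw
      rw [M.irreducible_q.maximalIdeal_eq, Ideal.mem_span_singleton] at hw'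
      obtain ⟨v, rfl⟩ := hw'
      have hq : M.ρ (M.q : W) = 0 := (algebraMap k C).injective (by
        rw [map_natCast M.ρ, map_natCast, map_zero]; exact M.natCast_q_eq_zero)
      rw [map_mul, hq, zero_mul]
    rw [hρ, map_zero, sub_zero] at hnu
    have := ((mem_nonunits_place_iff O _).mp hnu).resolve_left hcon.1
    omega

/-- A point on a branch is a place there. -/
theorem exists_branchPt [FF.IsFunctionField k C] {i : Fin 3}
    (hx : ∃ O : Place k C, M.red i M.x ≠ 0 ∧ 0 < O.ord (M.red i M.x))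
    (hint0 : ∀ a ∈ M.R 0, IsIntegral (Algebra.adjoin W ({M.x} : Set F)) a)
    {c : Fin 2} {y : Ideal (M.R c)} (hy : Std M c y) (hon : M.OnBranch c y i) :
    ∃ O : Place k C, BranchPt M c y i O := by
  classical
  obtain ⟨hymax, hq, hinf⟩ := hy
  let φ : M.R c →+* C := chartRes M.Br (M.chart c) i
  have hφ : ∀ a, φ a = M.red i (a : F) :=
    fun a => (Model.red_of_mem M (M.mem_of_mem a.2 i)).symm
  obtain ⟨O, hO, hrep⟩ := M.branchValue c y hq i hon
  have hOφ : ∀ a, φ a ∈ O := fun a => hO a _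
  have hk : ∀ t : k, algebraMap k C t ∈ O := fun t => by
    obtain ⟨w, rfl⟩ := M.ρ_surjective t
    have := hOφ (algebraMap W (M.R c) w)
    rwa [hφ, show ((algebraMap W (M.R c) w : M.R c) : F) = algebraMap W F w from rfl,
      M.red_const] at this
  have hnu : ∀ a ∈ y, ∀ z ∈ O, φ a * z ≠ 1 := by
    intro a ha z hz h1
    obtain ⟨b, r, hr, hbr⟩ := hrep z hz
    refine hr ?_
    have h2 : φ (a * b - r) = 0 := by
      have h3 : z * φ r = φ b := hbr (M.mem_of_mem b.2 i) (M.mem_of_mem r.2 i)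
      rw [map_sub, map_mul, ← h3, ← mul_assoc, h1, one_mul, sub_self]
    have h4 := hon _ (M.mem_of_mem (a * b - r).2 i) h2
    simpa using sub_mem (y.mul_mem_right b ha) h4
  -- the point is not the whole branch
  obtain ⟨e, hey, he0⟩ : ∃ e ∈ y, φ e ≠ 0 := by
    have hxne : M.red i M.x ≠ 0 := left_ne_zero_of_mul_eq_one (red_x_mul_red_inv M i)
    obtain rfl | rfl : c = 0 ∨ c = 1 := by fin_cases c <;> simp
    · by_cases hxy : (⟨M.x, M.x_mem⟩ : M.R 0) ∈ y
      · exact ⟨_, hxy, by rw [hφ]; exact hxne⟩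
      obtain ⟨b, t, ht, hbt⟩ := hymax.exists_inv hxy
      refine ⟨t, ht, fun h0 => ?_⟩
      obtain ⟨P, -, hP⟩ := hx
      have h1 : φ b * φ ⟨M.x, M.x_mem⟩ = 1 := by
        rw [← map_mul, ← add_zero (φ (b * _)), ← h0, ← map_add, hbt, map_one]
      have hbP : φ b ∈ P.toValuationSubring := by
        rw [hφ]
        exact red_mem_of_isIntegral_on M i P M.x_mem ((FF.mem_iff_ord_nonneg P).mpr hP.le) b.2
          (hint0 _ b.2)
      have hb := (FF.mem_iff_ord_nonneg P).mp hbP
      have := congrArg P.ord h1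
      rw [P.ord_mul (left_ne_zero_of_mul_eq_one h1) (by rw [hφ]; exact hxne), P.ord_one, hφ ⟨M.x, _⟩]
        at this
      change P.ord (φ b) + P.ord (M.red i M.x) = 0 at this
      omega
    · exact ⟨_, hinf rfl ⟨M.x⁻¹, M.x_inv_mem⟩ rfl, by
        rw [hφ]; exact right_ne_zero_of_mul_eq_one (red_x_mul_red_inv M i)⟩
  have hOtop : O ≠ ⊤ := fun h => hnu e hey (φ e)⁻¹ (h ▸ ValuationSubring.mem_top _)
    (mul_inv_cancel₀ he0)
  refine ⟨FF.placeOfValuationSubring O hk hOtop, fun r => ⟨hφ r ▸ hOφ r, fun hr => ?_⟩⟩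
  set P : Place k C := FF.placeOfValuationSubring O hk hOtop
  -- units outside the point
  obtain ⟨b, t, ht, hbt⟩ := hymax.exists_inv hr
  have hbP : 0 ≤ P.ord (φ b) := (FF.mem_iff_ord_nonneg P).mp (hOφ b)
  have hrP : 0 ≤ P.ord (φ r) := (FF.mem_iff_ord_nonneg P).mp (hOφ r)
  have h1 : φ b * φ r + φ t = 1 := by rw [← map_mul, ← map_add, hbt, map_one]
  rw [← hφ r]
  rcases eq_or_ne (φ r) 0 with h0 | h0
  · rw [h0, P.ord_zero]
  by_contra hne
  have hm1 : ∀ z : C, z = 0 ∨ 0 < P.ord z → z ∈ FF.ordGE P 1 := fun z hz => by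
    rcases hz with rfl | hz
    · exact Submodule.zero_mem _
    · exact FF.mem_ordGE_of_le P hz
  have hbr : φ b * φ r = 0 ∨ 0 < P.ord (φ b * φ r) := by
    rcases eq_or_ne (φ b) 0 with hb0 | hb0
    · exact Or.inl (by rw [hb0, zero_mul])
    · exact Or.inr (by rw [P.ord_mul hb0 h0]; omega)
  have htP : φ t = 0 ∨ 0 < P.ord (φ t) := by
    rcases eq_or_ne (φ t) 0 with ht0 | ht0
    · exact Or.inl ht0
    refine Or.inr (lt_of_le_of_ne ((FF.mem_iff_ord_nonneg P).mp (hOφ t)) fun h => ?_)
    refine hnu t ht (φ t)⁻¹ ?_ (mul_inv_cancel₀ ht0)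
    show (φ t)⁻¹ ∈ P.toValuationSubring
    rw [FF.mem_iff_ord_nonneg P, P.ord_inv, ← h, neg_zero]
  have h2 := Submodule.add_mem _ (hm1 _ hbr) (hm1 _ htP)
  rw [h1] at h2
  have h3 := FF.le_ord_of_mem_ordGE P h2 one_ne_zero
  rw [P.ord_one] at h3
  omega

/-- Every place of the reduced curve is a point on every branch. -/
theorem exists_point [FF.IsFunctionField k C] (i : Fin 3)
    (hint : ∀ a ∈ M.R 1, IsIntegral (Algebra.adjoin W ({M.x⁻¹} : Set F)) a) (P : Place k C) :
    ∃ c y, Std M c y ∧ M.OnBranch c y i ∧ BranchPt M c y i P := by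
  classical
  obtain ⟨c, hc, hinf⟩ : ∃ c : Fin 2, (∀ a : M.R c, M.red i (a : F) ∈ P.toValuationSubring) ∧
      (c = 1 → 0 < P.ord (M.red i M.x⁻¹)) := by
    have hxne : M.red i M.x ≠ 0 := left_ne_zero_of_mul_eq_one (red_x_mul_red_inv M i)
    by_cases h : M.red i M.x ∈ P.toValuationSubring
    · exact ⟨0, fun a => red_mem_of_isIntegral_on M i P M.x_mem h a.2 (isIntegral_chart_zero M a.2),
        fun h => absurd h (by decide)⟩
    · rw [FF.mem_iff_ord_nonneg P, not_le] at h
      have e : M.red i M.x⁻¹ = (M.red i M.x)⁻¹ :=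
        eq_inv_of_mul_eq_one_right (red_x_mul_red_inv M i)
      have hpos : 0 < P.ord (M.red i M.x⁻¹) := by rw [e, P.ord_inv]; omega
      exact ⟨1, fun a => red_mem_of_isIntegral_on M i P M.x_inv_mem
        ((FF.mem_iff_ord_nonneg P).mpr hpos.le) a.2 (hint a a.2), fun _ => hpos⟩
  let φ : M.R c →+* P.toValuationSubring :=
    (chartRes M.Br (M.chart c) i).codRestrict P.toValuationSubring fun a => by
      show M.Br.res i ⟨(a : F), _⟩ ∈ _
      rw [← Model.red_of_mem M]
      exact hc a
  have hφ : ∀ a, ((φ a : P.toValuationSubring) : C) = M.red i (a : F) := fun a =>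
    (Model.red_of_mem M (M.mem_of_mem a.2 i)).symm
  let ψ : M.R c →+* P.ResidueField := (IsLocalRing.residue P.toValuationSubring).comp φ
  have hψ : Function.Surjective ψ := by
    intro z
    obtain ⟨t, rfl⟩ := M.ρ_surjective_residue P z
    obtain ⟨w, rfl⟩ := M.ρ_surjective t
    refine ⟨algebraMap W (M.R c) w, ?_⟩
    show IsLocalRing.residue _ (φ _) = _
    rw [show φ (algebraMap W (M.R c) w) = algebraMap k P.toValuationSubring (M.ρ w) from
      Subtype.ext ((hφ _).trans (M.red_const i w))]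
    rfl
  have hker : ∀ a, ψ a = 0 ↔ (φ a : C) ∈ P.toValuationSubring.nonunits := fun a => by
    rw [ValuationSubring.mem_nonunits_iff_exists_mem_maximalIdeal]
    show IsLocalRing.residue _ (φ a) = 0 ↔ _
    rw [IsLocalRing.residue_eq_zero_iff]
    exact ⟨fun h => ⟨(φ a).2, h⟩, fun ⟨_, h⟩ => h⟩
  have hz : ∀ a : M.R c, M.red i (a : F) = 0 → a ∈ RingHom.ker ψ := fun a ha => by
    show ψ a = 0
    rw [show ψ a = IsLocalRing.residue _ (φ a) from rfl,
      show φ a = 0 from Subtype.ext ((hφ a).trans ha), map_zero]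
  refine ⟨c, RingHom.ker ψ, ⟨RingHom.ker_isMaximal_of_surjective ψ hψ, hz _ ?_, fun h1 r hr => ?_⟩,
    fun a ha h0 => hz a (by rw [Model.red_of_mem M ha, h0]), fun a => ⟨hc a, fun ha => ?_⟩⟩
  · rw [Model.red_of_mem M (M.mem_of_mem (M.qR c).2 i)]
    exact (M.chart c).res_π i _
  · refine RingHom.mem_ker.mpr ((hker r).mpr ?_)
    rw [hφ, hr]
    exact (mem_nonunits_place_iff P _).mpr (Or.inr (hinf h1))
  · by_contra hne
    have h0 := (FF.mem_iff_ord_nonneg P).mp (hc a)
    exact ha (RingHom.mem_ker.mpr ((hker a).mpr (by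
      rw [hφ]; exact (mem_nonunits_place_iff P _).mpr (Or.inr (by omega)))))

/-- Finitely many points lie on all branches. -/
theorem finite_allBranches [FF.IsFunctionField k C]
    (hpt : ∀ y : Ideal (M.R 0), Std M 0 y → M.OnBranch 0 y 0 → ∃ O, BranchPt M 0 y 0 O) :
    {y : Ideal (M.R 0) | Std M 0 y ∧ AllBranches M 0 y}.Finite := by
  classical
  obtain ⟨e, he0, he⟩ := M.exists_sep_chart 0 0
  obtain ⟨D, hD, -⟩ := HasPrincipalDivisors.exists_divisor (K := k) (M.red 0 (e : F)) he0
  choose O hO using fun y : {y : Ideal (M.R 0) | Std M 0 y ∧ AllBranches M 0 y} =>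
    hpt y.1 y.2.1 (y.2.2 0)
  have hmem : ∀ y, O y ∈ D.support := fun y => by
    have hey : e ∈ y.1 := y.2.2 1 _ (M.mem_of_mem e.2 1)
      (by rw [← Model.red_of_mem M]; exact he 1 (by decide))
    have := (ord_pos_or_zero_of_mem M y.2.1.1.ne_top (y.2.2 0) (hO y) hey).resolve_left he0
    rw [Finsupp.mem_support_iff, hD]
    exact this.ne'
  refine Set.finite_coe_iff.mp
    (Finite.of_injective (fun y => (⟨O y, hmem y⟩ : D.support)) fun y z hyz => Subtype.ext ?_)
  have hOyz : O y = O z := congrArg Subtype.val hyz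
  refine y.2.1.1.eq_of_le z.2.1.1.ne_top fun r hr => ?_
  by_contra hrz
  rcases ord_pos_or_zero_of_mem M y.2.1.1.ne_top (y.2.2 0) (hO y) hr with h | h
  · exact hrz (z.2.2 0 _ (M.mem_of_mem r.2 0) (by rw [← Model.red_of_mem M, h]))
  · rw [hOyz, (hO z r).2 hrz] at h
    exact lt_irrefl _ h

/-- **The facts on the special fibre.** -/
theorem geom_of [FF.IsFunctionField k C]
    (hint : ∀ a ∈ M.R 1, IsIntegral (Algebra.adjoin W ({M.x⁻¹} : Set F)) a)
    {jb : C} (hjb : Transcendental k jb) {n : Fin 3 → ℕ} (hn : ∀ i, 0 < n i)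
    (hred : ∀ i, M.red i M.x = jb ^ n i)
    (hcusp : ∃ e : M.R 1, M.red 1 (e : F) = 0 ∧
      ∀ O : Place k C, O.ord jb < 0 → M.red 0 (e : F) ≠ 0 ∧ O.ord (M.red 0 (e : F)) = 0) :
    Geom M := by
  classical
  have hne : jb ≠ 0 := fun h => hjb (h ▸ isAlgebraic_zero)
  have hord : ∀ i (O : Place k C), O.ord (M.red i M.x) = (n i : ℤ) * O.ord jb := fun i O => by
    rw [hred, ← zpow_natCast, O.ord_zpow]
  obtain ⟨P, hP⟩ := FF.exists_place_ord_pos hjb
  have hpt : ∀ (i : Fin 3) (c : Fin 2) (y : Ideal (M.R c)), Std M c y → M.OnBranch c y i →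
      ∃ O, BranchPt M c y i O := fun i c y hy hon =>
    exists_branchPt M ⟨P, by rw [hred]; exact pow_ne_zero _ hne,
      by rw [hord]; exact mul_pos (by exact_mod_cast hn i) hP⟩
      (fun a ha => isIntegral_chart_zero M ha) hy hon
  -- the chart is decided by the place
  have h0 : ∀ i (O : Place k C) (y : Ideal (M.R 0)), BranchPt M 0 y i O → 0 ≤ O.ord jb := by
    intro i O y h
    have h1 := (FF.mem_iff_ord_nonneg O).mp (h ⟨M.x, M.x_mem⟩).1
    change 0 ≤ O.ord (M.red i M.x) at h1
    rw [hord] at h1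
    exact (mul_nonneg_iff_of_pos_left (by exact_mod_cast hn i)).mp h1
  have h1 : ∀ i (O : Place k C) (y : Ideal (M.R 1)), Std M 1 y → M.OnBranch 1 y i →
      BranchPt M 1 y i O → O.ord jb < 0 := by
    intro i O y hy hon h
    have e : M.red i M.x⁻¹ = (M.red i M.x)⁻¹ :=
      eq_inv_of_mul_eq_one_right (red_x_mul_red_inv M i)
    have h2 := ord_pos_or_zero_of_mem M hy.1.ne_top hon h (hy.2.2 rfl ⟨M.x⁻¹, M.x_inv_mem⟩ rfl)
    change M.red i M.x⁻¹ = 0 ∨ 0 < O.ord (M.red i M.x⁻¹) at h2
    rw [e, O.ord_inv, hord] at h2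
    rcases h2 with h2 | h2
    · exact absurd h2 (inv_ne_zero (by rw [hred]; exact pow_ne_zero _ hne))
    · by_contra hge
      have := mul_nonneg (Int.natCast_nonneg (n i)) (not_lt.mp hge)
      omega
  refine ⟨fun i O => exists_point M i hint O, hpt, ?_, ?_, finite_allBranches M (hpt 0 0)⟩
  · intro i j O c c' y y' hy hy' hon hon' hb hb'
    fin_cases c <;> fin_cases c' <;> first
      | rfl
      | (exfalso; exact absurd (h0 i O y hb) (not_le.mpr (h1 j O y' hy' hon' hb')))
      | (exfalso; exact absurd (h0 j O y' hb') (not_le.mpr (h1 i O y hy hon hb)))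
  · intro y hy hall
    obtain ⟨O, hO⟩ := hpt 0 1 y hy (hall 0)
    obtain ⟨e, he1, he⟩ := hcusp
    obtain ⟨he0, heord⟩ := he O (h1 0 O y hy (hall 0) hO)
    have hey : e ∈ y := hall 1 _ (M.mem_of_mem e.2 1) (by rw [← Model.red_of_mem M]; exact he1)
    have := (ord_pos_or_zero_of_mem M hy.1.ne_top (hall 0) hO hey).resolve_left he0
    omega

end Fermat.Agent.LowerSq.Null
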