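/-
The facts on the special fibre for null divisors at `X₀(q² L₀)`: `Δ^(1-q)` is a monic polynomial
in `j` modulo `q`, so the separator at infinity is a unit at the cusps.
-/
import Fermat.Agent.LowerSq.Null.GeomExists
import Fermat.Agent.Carayol.BranchElementsInf
import Fermat.Agent.Igusa.Descent
import Fermat.Agent.RED.X0Red
import Fermat.Agent.Carayol.ModelInst

set_option autoImplicit false
set_option linter.unusedSectionVars false

noncomputable section

open ModularCurve Polynomial AlgebraicCurve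
open Fermat.Agent.Igusa Fermat.Agent.HK.Corr
open scoped MatrixGroups

namespace Fermat.Agent.LowerSq.Null

open Carayol

section Hasse

variable (k : Type) [Field k] (q : ℕ) [NeZero q] [Fact q.Prime] [CharP k q]

/-- The leading term of a polynomial in `j`. -/
theorem hasLead_eval_jqModC {p : k[X]} :
    HasLead (p.eval₂ HahnSeries.C (jqModC k) * jInvSeries k ^ p.natDegree) 0 p.leadingCoeff := by
  rw [← eval₂_reflect_of_mul_eq_one HahnSeries.C (jqModC_mul_inv k) p le_rfl]
  obtain ⟨w, hw, hw0⟩ := hasLead_jInvSeries k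
  let wq : PowerSeries k := PowerSeries.X * w
  have hu : jInvSeries k = HahnSeries.ofPowerSeries ℤ k wq := by
    rw [hw, map_mul, HahnSeries.ofPowerSeries_X]
  refine ⟨(p.reflect p.natDegree).eval₂ PowerSeries.C wq, ?_, ?_⟩
  · rw [HahnSeries.single_zero_one, one_mul, hom_eval₂, hu]
    congr 1
    exact RingHom.ext fun a => (HahnSeries.ofPowerSeries_C a).symm
  · rw [hom_eval₂, show PowerSeries.constantCoeff wq = 0 by simp [wq], eval₂_at_zero]
    simp [coeff_reflect, Polynomial.revAt_le]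

/-- `Δ^(1-q)` modulo `q` is a polynomial of degree `q - 1` in `j`. -/
theorem exists_poly_dRes [IsAlgClosed k] (hq : q.Prime) :
    ∃ p : k[X], p ≠ 0 ∧ p.natDegree = q - 1 ∧ p.eval₂ HahnSeries.C (jqModC k) = dRes k q := by
  classical
  obtain ⟨φ⟩ := exists_hom_R0 k
  letI := Fintype.ofFinite (Coset q)
  have hd : 1 ∣ q := one_dvd q
  have hf := conjugable_vPair (d₁ := 1) hd (dvd_refl q)
  obtain ⟨P, -, -, hP⟩ := exists_charPoly_k φ hf
  set c₀ : Coset q := ((1 : SL(2, ℤ)) : Coset q)
  have hone : coeffMap φ (expHom q (hf.conj c₀)) = qExpand k q (dRes k q) := by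
    have h0 : expHom q (hf.conj c₀) = qExpand R0 q (pairV R0 1 q) :=
      Igusa.coeffMap_injective valC_injective (by
        rw [coeffMap_conj_one hf (hasExp_vPair 1 q), coeffMap_qExpand, coeffMap_pairV])
    rw [h0, coeffMap_qExpand, coeffMap_pairV]
    have h1 := pairV_char (k := k) (q := q) 1
    rw [qExpand_one_apply] at h1
    simp only [one_mul] at h1
    rw [h1, dRes]
  have hoff : ∀ c, c ≠ c₀ → coeffMap φ (expHom q (hf.conj c)) = 0 := by
    intro c hc
    rw [expHom_conj_vPair hd (dvd_refl q), vPairSer, map_mul, coeffMap_single, map_pow, map_natCast]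
    have ha : (tri c (dvd_refl q)).a = 1 := by
      rw [tri_a]
      refine (hq.eq_one_or_self_of_dvd _ ?_).resolve_right fun h => hc ((dvd_lowerLeft_iff c).mp ?_)
      · exact_mod_cast Int.gcd_dvd_left (q : ℤ) (lowerLeft c)
      · have h2 := Int.gcd_dvd_right (q : ℤ) (lowerLeft c)
        rwa [h] at h2
    have he : (tri c (dvd_refl q)).e = q := by
      have := tri_mul c (dvd_refl q)
      rwa [ha, one_mul] at this
    have he1 : (tri c (hd.trans (dvd_refl q))).e = 1 :=
      Nat.eq_one_of_mul_eq_one_left (tri_mul c (hd.trans (dvd_refl q)))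
    rw [he, he1, Nat.div_one, CharP.cast_eq_zero, zero_pow (by norm_num), map_zero, zero_mul]
  have hnext := congrArg nextCoeff hP
  rw [nextCoeff_map psi0_injective, prod_X_sub_C_nextCoeff,
    Finset.sum_eq_single c₀ (fun c _ hc => hoff c hc) (fun h => absurd (Finset.mem_univ _) h),
    hone] at hnext
  refine ⟨-P.nextCoeff, ?_⟩
  have hev : (-P.nextCoeff).eval₂ HahnSeries.C (jqModC k) = dRes k q := by
    apply qExpand_injective (R := k) q
    have : (qExpand k q).comp (eval₂RingHom HahnSeries.C (jqModC k)) = psi0 q k :=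
      Polynomial.ringHom_ext (fun a => by simp [psi0, qExpand_C]) (by simp [psi0, jQ])
    rw [← neg_neg (qExpand k q (dRes k q)), ← hnext, ← map_neg, ← this]
    rfl
  have hp : -P.nextCoeff ≠ 0 := fun h => by
    rw [h, eval₂_zero] at hev
    have := dRes_mul_deltaSeries k q
    rw [← hev, zero_mul] at this
    exact zero_ne_one this
  refine ⟨hp, ?_, hev⟩
  have h1 := hasLead_eval_jqModC k (p := -P.nextCoeff)
  rw [hev] at h1
  have h2 := (HasLead.pow' (hasLead_deltaInvSeries (R := k)) (q - 1)).mul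
    (HasLead.pow' (hasLead_jInvSeries k) (-P.nextCoeff).natDegree)
  rw [← dRes, one_pow, one_pow, mul_one] at h2
  have := (h1.ext h2 (leadingCoeff_ne_zero.mpr hp) (by simp)).1
  omega

end Hasse

/-- The residue of a polynomial at a pole of the variable. -/
theorem ord_aeval_of_neg {k C : Type} [Field k] [Field C] [Algebra k C] [FF.IsFunctionField k C]
    (O : Place k C) {j : C} (hj : O.ord j < 0) {p : k[X]} (hp : p ≠ 0) :
    aeval j p ≠ 0 ∧ O.ord (aeval j p) = p.natDegree * O.ord j := by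
  have hne : j ≠ 0 := fun h => by simp [h, O.ord_zero] at hj
  have hu : 0 < O.ord j⁻¹ := by rw [O.ord_inv]; omega
  let u : O.toValuationSubring := ⟨j⁻¹, (FF.mem_iff_ord_nonneg O).mpr hu.le⟩
  let z : O.toValuationSubring :=
    (p.reflect p.natDegree).eval₂ (algebraMap k O.toValuationSubring) u
  have hres : IsLocalRing.residue _ u = 0 := by
    rw [IsLocalRing.residue_eq_zero_iff]
    have hnu : j⁻¹ ∈ O.toValuationSubring.nonunits :=
      (mem_nonunits_place_iff O _).mpr (Or.inr hu)
    rw [ValuationSubring.mem_nonunits_iff_exists_mem_maximalIdeal] at hnu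
    exact hnu.2
  have hz : IsUnit z := by
    refine (IsLocalRing.residue_ne_zero_iff_isUnit z).mp ?_
    rw [hom_eval₂, hres, eval₂_at_zero]
    refine (map_ne_zero_iff _ (RingHom.injective _)).mpr ?_
    rw [coeff_reflect, Polynomial.revAt_le (Nat.zero_le _), Nat.sub_zero]
    exact leadingCoeff_ne_zero.mpr hp
  have hzc : (z : C) = aeval j p * j⁻¹ ^ p.natDegree := by
    rw [aeval_def, ← eval₂_reflect_of_mul_eq_one (algebraMap k C) (mul_inv_cancel₀ hne) p le_rfl]
    exact hom_eval₂ _ _ O.toValuationSubring.subtype _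
  obtain ⟨v, hv⟩ := isUnit_iff_exists_inv.mp hz
  have hzv : (z : C) * (v : C) = 1 := congrArg Subtype.val hv
  have hz0 : (z : C) ≠ 0 := left_ne_zero_of_mul_eq_one hzv
  have hord : O.ord (z : C) = 0 := by
    have h1 := congrArg O.ord hzv
    rw [O.ord_mul hz0 (right_ne_zero_of_mul_eq_one hzv), O.ord_one] at h1
    have := (FF.mem_iff_ord_nonneg O).mp z.2
    have := (FF.mem_iff_ord_nonneg O).mp v.2
    omega
  have ha : aeval j p ≠ 0 := fun h => hz0 (by rw [hzc, h, zero_mul])
  refine ⟨ha, ?_⟩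
  rw [hzc, O.ord_mul ha (pow_ne_zero _ (inv_ne_zero hne)), ← zpow_natCast, O.ord_zpow,
    O.ord_inv] at hord
  linarith

section Instance

variable {K : Type} [Field K] [Algebra ℚ K] {K' : Type} [Field K'] [Algebra ℚ K']
  {Oc : ValuationSubring K'} {k : Type} [Field k] {π : Oc →+* k}
  {L₀ q : ℕ} [NeZero L₀] [NeZero q] {hq : q.Prime} {hqL : ¬ q ∣ L₀}
  {κ : K →+* K'} {z η : K'ˣ} {e0 e02 : modField K (L₀ * q ^ 2) →+* LaurentSeries K'}
  {ez : Fin (q - 1) → modField K (L₀ * q ^ 2) →+* LaurentSeries K'}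
  {A : ValuationSubring K} [IsDiscreteValuationRing A] {k₀ : Fin (q - 1)}
  (M : Model A (modField K (L₀ * q ^ 2)) k (modularFunctionFieldFullC k L₀))
  (D : ChartData hq hqL π κ z e0 e02 ez η A M.Br (modularFunctionFieldFullC k L₀).val.toRingHom k₀)

include D

theorem red_eq_of_isGauss {i : Fin 3} {a : modField K (L₀ * q ^ 2)} {r : LaurentSeries k}
    (h : IsGauss π (branchTriple e0 e02 ez k₀ i a) r) :
    a ∈ M.Br.V i ∧ ((M.red i a : modularFunctionFieldFullC k L₀) : LaurentSeries k) = r := by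
  obtain ⟨hm, he⟩ := (D.isGauss_iff i a r).mp h
  exact ⟨hm, by rw [Model.red_of_mem M hm]; exact he⟩

variable (hx : M.x = jTop K L₀ q)

include hx

/-- The residues of the coordinate. -/
theorem red_x_eq (i : Fin 3) :
    M.red i M.x = RED.jSpecial (k := k) L₀ ^ (if i = 2 then q ^ 2 else 1) := by
  haveI := Fact.mk hq
  haveI := D.charP
  obtain ⟨-, he⟩ := red_eq_of_isGauss M D (D.branches.isGauss_jTop_inv π k₀ i)
  rw [← hx] at he
  apply Subtype.ext
  rw [show M.red i M.x = (M.red i M.x⁻¹)⁻¹ from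
    eq_inv_of_mul_eq_one_left (red_x_mul_red_inv M i)]
  rw [IntermediateField.coe_inv, he, SubmonoidClass.coe_pow, RED.coe_jSpecial, ← inv_pow,
    inv_eq_of_mul_eq_one_left (jqModC_mul_inv k)]

/-- The coordinate has order zero on every branch. -/
theorem ord_x_eq_zero (i : Fin 3) : M.ord i M.x = 0 :=
  (M.ord_eq_zero_of_red (M.mem_of_mem M.x_mem i)
    (left_ne_zero_of_mul_eq_one (red_x_mul_red_inv M i))).2

/-- **The facts on the special fibre, for `X₀(q² L₀)`.** -/
theorem geom_inst [FF.IsFunctionField k (modularFunctionFieldFullC k L₀)] (ι : K' →+* ℂ)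
    (hR : M.R 1 = chartRing A (jTop K L₀ q)⁻¹) : Geom M := by
  haveI := Fact.mk hq
  haveI := D.charP
  haveI := M.algClosed
  refine geom_of M (fun a ha => ?_) (RED.transcendental_jSpecial (k := k) (N := L₀))
    (n := fun i => if i = 2 then q ^ 2 else 1)
    (fun i => by have := hq.pos; split_ifs <;> positivity) (red_x_eq M D hx) ?_
  · rw [hR] at ha
    rw [hx]
    exact ha
  refine ⟨⟨sepInfElem (ι.comp κ) L₀ q 0, hR ▸ sepInfElem_mem_chartRing _ hq 0⟩, ?_, fun O hO => ?_⟩
  · obtain ⟨-, he⟩ := red_eq_of_isGauss M D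
      (D.branches.isGauss_sepInf_off π ι k₀ (i := 0) (j := 1) (by decide))
    exact Subtype.ext he
  obtain ⟨-, he⟩ := red_eq_of_isGauss M D (D.branches.isGauss_sepInf π ι k₀ 0)
  obtain ⟨p, hp, hdeg, hev⟩ := exists_poly_dRes k q hq
  set jb : modularFunctionFieldFullC k L₀ := RED.jSpecial (k := k) L₀
  have hw : M.red 0 (sepInfElem (ι.comp κ) L₀ q 0) = (aeval jb p * jb⁻¹ ^ (q - 1)) ^ q := by
    apply Subtype.ext
    rw [he, show sepInfRes k q 0 = wRes k q ^ q from rfl, SubmonoidClass.coe_pow,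
      MulMemClass.coe_mul, SubmonoidClass.coe_pow, IntermediateField.coe_inv, RED.coe_jSpecial,
      inv_eq_of_mul_eq_one_right (jqModC_mul_inv k), wRes]
    congr 2
    rw [← hev, ← IntermediateField.aeval_coe, aeval_def, RED.coe_jSpecial]
    congr 1
    exact RingHom.ext fun c => by simp [HahnSeries.algebraMap_apply', HahnSeries.C_apply]
  obtain ⟨ha, hord⟩ := ord_aeval_of_neg O hO hp
  have hjb : jb⁻¹ ≠ 0 := inv_ne_zero fun h => by simp [h, O.ord_zero] at hO
  have hne : aeval jb p * jb⁻¹ ^ (q - 1) ≠ 0 := mul_ne_zero ha (pow_ne_zero _ hjb)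
  rw [hw]
  refine ⟨pow_ne_zero _ hne, ?_⟩
  rw [← zpow_natCast _ q, O.ord_zpow, O.ord_mul ha (pow_ne_zero _ hjb), hord, ← zpow_natCast,
    O.ord_zpow, O.ord_inv, hdeg]
  ring

end Instance

section Concrete

local notation "Qb" => AlgebraicClosure ℚ

variable {A₀ : ValuationSubring Qb} {K K' k : Type} [Field K] [Algebra ℚ K] [Algebra K Qb]
  [Field K'] [Algebra ℚ K'] [Field k] {q L₀ : ℕ} [NeZero q] [NeZero L₀]
  [IsDiscreteValuationRing (constA A₀ K)] {hq : q.Prime} {hqL : ¬ q ∣ L₀} {π₀ : A₀ →+* k}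
  {κ : K →+* K'} {ι : K' →+* Qb} {η : K'ˣ}
  {e0 e02 : modField K (L₀ * q ^ 2) →+* LaurentSeries K'}
  {ez : Fin (q - 1) → modField K (L₀ * q ^ 2) →+* LaurentSeries K'} {k₀ : Fin (q - 1)}

/-- The facts on the special fibre of the model given by branch data. -/
theorem geom_of_branchData
    (M : Model (constA A₀ K) (modField K (L₀ * q ^ 2)) k (modularFunctionFieldFullC k L₀))
    {ord : Fin 3 → modField K (L₀ * q ^ 2) → ℤ}
    (B : BranchData A₀ hq hqL π₀ κ ι η e0 e02 ez k₀ M.Br ord) (hx : M.x = jTop K L₀ q)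
    (hR : M.R = chartOf A₀ K L₀ q) : Geom M ∧ ∀ i, M.ord i M.x = 0 :=
  haveI := RED.isFunctionField_special (k := k) (N := L₀) B.chartData.hL
  ⟨geom_inst M B.chartData hx (((IsAlgClosed.lift : Qb →ₐ[ℚ] ℂ) : Qb →+* ℂ).comp ι)
    (by rw [hR]; rfl), fun i => ord_x_eq_zero M B.chartData hx i⟩

end Concrete

end Fermat.Agent.LowerSq.Null
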