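/-
Locality of a correspondence on the points of a `Model` (helper50).

For degeneracy maps `φ`, `ψ` along which the coordinate `x` is integral in both directions, the
places over a given point go to finitely many points of the same chart: on the finite chart their
coordinates are the roots of the modular equation at the coordinate of the point, on the other
chart there are only finitely many points.
-/
import Fermat.Agent.LowerSq.Null.Defs
import Fermat.Agent.Carayol.ChartsCover
import Fermat.Agent.FF.Basic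
import Fermat.Prelude.Def_AlgebraicCurve_Correspondence
import Mathlib.RingTheory.Artinian.Ring
import Mathlib.RingTheory.Valuation.LocalSubring

set_option autoImplicit false
set_option linter.unusedSectionVars false
set_option linter.style.haveILetI false
set_option synthInstance.maxHeartbeats 100000

noncomputable section

open AlgebraicCurve Polynomial

namespace Fermat.Agent.LowerSq.Null

open Carayol

/-- `b` is a root of a monic polynomial with coefficients in `ℤ[a]`. -/
def IntOver {S : Type*} [CommRing S] (a b : S) : Prop :=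
  (eval₂RingHom (Int.castRingHom S) a).IsIntegralElem b

theorem map_eval₂_int {S T : Type*} [CommRing S] [CommRing T] (f : S →+* T) (Q : ℤ[X][X])
    (a b : S) : f (Q.eval₂ (eval₂RingHom (Int.castRingHom S) a) b) =
      Q.eval₂ (eval₂RingHom (Int.castRingHom T) (f a)) (f b) := by
  rw [hom_eval₂, show f.comp (eval₂RingHom (Int.castRingHom S) a) =
    eval₂RingHom (Int.castRingHom T) (f a) from ringHom_ext (by simp) (by simp)]

theorem IntOver.map {S T : Type*} [CommRing S] [CommRing T] {a b : S} (h : IntOver a b)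
    (f : S →+* T) : IntOver (f a) (f b) := by
  obtain ⟨Q, hQ, h0⟩ := h
  exact ⟨Q, hQ, by rw [← map_eval₂_int f, h0, map_zero]⟩

theorem IntOver.of_map {S T : Type*} [CommRing S] [CommRing T] {a b : S} {f : S →+* T}
    (hf : Function.Injective f) (h : IntOver (f a) (f b)) : IntOver a b := by
  obtain ⟨Q, hQ, h0⟩ := h
  exact ⟨Q, hQ, hf (by rw [map_eval₂_int, map_zero]; exact h0)⟩

/-- `ℤ[a]` stays in a valuation ring containing `a`, and so does what is integral over it. -/
theorem IntOver.mem {T : Type*} [Field T] {a b : T} (h : IntOver a b) (V : ValuationSubring T)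
    (ha : a ∈ V) : b ∈ V := by
  obtain ⟨Q, hQ, h0⟩ := h
  have hb : IsIntegral V b := by
    refine ⟨Q.map (eval₂RingHom (Int.castRingHom V) ⟨a, ha⟩), hQ.map _, ?_⟩
    rw [eval₂_map, show (algebraMap V T).comp (eval₂RingHom (Int.castRingHom V) ⟨a, ha⟩) =
      eval₂RingHom (Int.castRingHom T) a from ringHom_ext (by simp) (by simp)]
    exact h0
  obtain ⟨c, rfl⟩ := IsIntegrallyClosed.algebraMap_eq_of_integral hb
  exact c.2

/-! ### Values at places -/

section Residue

variable {L E' : Type} [Field L] [Field E'] [Algebra L E'] (w : Place L E')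
  {R : Type} [CommRing R]

/-- The value at a place of a family of functions regular there. -/
def placeHom (f : R →+* E') (h : ∀ r, f r ∈ w.toValuationSubring) : R →+* w.ResidueField :=
  (IsLocalRing.residue _).comp (f.codRestrict w.toValuationSubring h)

theorem placeHom_eq_zero_iff (f : R →+* E') (h : ∀ r, f r ∈ w.toValuationSubring) (r : R) :
    placeHom w f h r = 0 ↔ f r = 0 ∨ 0 < w.ord (f r) := by
  show IsLocalRing.residue _ (⟨f r, h r⟩ : w.toValuationSubring) = 0 ↔ _
  rw [FF.residue_eq_zero_iff, FF.mem_ordGE]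
  rfl

/-- A value in `A` of one coordinate gives one of the other. -/
theorem exists_value_mem [IsAlgClosed L] (A : ValuationSubring L) {t u : E'}
    (hrel : IntOver t u) (hu : ∀ b : L, u ≠ algebraMap L E' b) {a : L} (ha : a ∈ A)
    (ht : 0 < w.ord (t - algebraMap L E' a)) :
    ∃ b ∈ A, 0 < w.ord (u - algebraMap L E' b) := by
  have hta : t - algebraMap L E' a ∈ w.toValuationSubring :=
    (FF.mem_iff_ord_nonneg w).mpr ht.le
  have htm : t ∈ w.toValuationSubring := by
    simpa using add_mem hta (w.algebraMap_mem' a)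
  have hum := hrel.mem _ htm
  let O := w.toValuationSubring
  let res : O →+* w.ResidueField := IsLocalRing.residue O
  have hres : res ⟨t, htm⟩ = algebraMap L w.ResidueField a := by
    have h0 : res ⟨t - algebraMap L E' a, hta⟩ = 0 := by
      rw [FF.residue_eq_zero_iff, FF.mem_ordGE]
      exact Or.inr ht
    rw [show (⟨t - algebraMap L E' a, hta⟩ : O) = ⟨t, htm⟩ - algebraMap L O a from Subtype.ext rfl,
      map_sub, sub_eq_zero] at h0
    exact h0
  have hrel' : IntOver (res ⟨t, htm⟩) (res ⟨u, hum⟩) :=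
    (IntOver.of_map (f := O.subtype) (a := (⟨t, htm⟩ : O))
      (b := (⟨u, hum⟩ : O)) Subtype.val_injective hrel).map res
  rw [hres] at hrel'
  obtain ⟨Q, hQ, h0⟩ := hrel'
  let h : L[X] := Q.map (eval₂RingHom (Int.castRingHom L) a)
  have hcomp : (algebraMap L w.ResidueField).comp (eval₂RingHom (Int.castRingHom L) a) =
      eval₂RingHom (Int.castRingHom w.ResidueField) (algebraMap L w.ResidueField a) :=
    ringHom_ext (by simp) (by simp)
  have hroot : (h.map (algebraMap L w.ResidueField)).IsRoot (res ⟨u, hum⟩) := by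
    rw [IsRoot, map_map, hcomp, eval_map]
    exact h0
  obtain ⟨b, hb⟩ := (IsAlgClosed.splits h).mem_range_of_isRoot (hQ.map _).ne_zero hroot
  rw [← hb] at hroot
  have hb0 : IntOver a b := by
    refine ⟨Q, hQ, ?_⟩
    rw [← eval_map]
    exact hroot.of_map (algebraMap L w.ResidueField).injective
  refine ⟨b, hb0.mem A ha, ?_⟩
  have hum' : u - algebraMap L E' b ∈ w.toValuationSubring := sub_mem hum (w.algebraMap_mem' b)
  have h1 : res ⟨u - algebraMap L E' b, hum'⟩ = 0 := by
    rw [show (⟨u - algebraMap L E' b, hum'⟩ : O) = ⟨u, hum⟩ - algebraMap L O b from Subtype.ext rfl,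
      map_sub, ← hb]
    exact sub_self _
  rw [FF.residue_eq_zero_iff, FF.mem_ordGE] at h1
  exact h1.resolve_left (sub_ne_zero.mpr (hu b))

end Residue

/-! ### Fibres of a chart over its coordinate -/

section Fibre

variable {W F k C : Type} [CommRing W] [IsDomain W] [IsDiscreteValuationRing W] [Field F]
  [Algebra W F] [Field k] [Field C] [Algebra k C] (M : Model W F k C)

/-- The constants that vanish on the special fibre. -/
theorem qR_dvd_of_ρ_eq_zero {c : Fin 2} {w : W} (hw : M.ρ w = 0) :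
    M.qR c ∣ algebraMap W (M.R c) w := by
  have hnu : ¬ IsUnit w := fun h => (h.map M.ρ).ne_zero hw
  obtain ⟨d, rfl⟩ : (M.q : W) ∣ w := by
    rw [← Ideal.mem_span_singleton, ← M.irreducible_q.maximalIdeal_eq]
    exact hnu
  exact ⟨algebraMap W (M.R c) d, by rw [map_mul]; rfl⟩

/-- The residue field of the constants in a quotient over `q`. -/
theorem exists_lift_ρ {c : Fin 2} {S : Type} [CommRing S] (f : M.R c →+* S)
    (hq : f (M.qR c) = 0) :
    ∃ g : k →+* S, ∀ w, g (M.ρ w) = f (algebraMap W (M.R c) w) := by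
  have hker : RingHom.ker M.ρ ≤ RingHom.ker (f.comp (algebraMap W (M.R c))) := fun w hw => by
    obtain ⟨d, hd⟩ := qR_dvd_of_ρ_eq_zero M (c := c) hw
    rw [RingHom.mem_ker, RingHom.comp_apply, hd, map_mul, hq, zero_mul]
  exact ⟨M.ρ.liftOfSurjective M.ρ_surjective ⟨_, hker⟩, fun w =>
    RingHom.liftOfRightInverse_comp_apply _ _ _ _ w⟩

/-- A chart finite over the polynomials in `z`. -/
def FiniteOver (c : Fin 2) (z : F) : Prop :=
  ∃ s₀ : Finset F, (s₀ : Set F) ⊆ M.R c ∧
    ∀ a ∈ M.R c, a ∈ Submodule.span (Algebra.adjoin W {z}) (s₀ : Set F)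

variable {M} {c : Fin 2} {z : M.R c}

theorem FiniteOver.isArtinianRing (hfin : FiniteOver M c z) (w : W) :
    IsArtinianRing (M.R c ⧸ Ideal.span {M.qR c, z - algebraMap W (M.R c) w}) := by
  classical
  obtain ⟨s₀, hs₀, hspan⟩ := hfin
  set I := Ideal.span {M.qR c, z - algebraMap W (M.R c) w} with hI
  let mk := Ideal.Quotient.mk I
  have hz : mk z = mk (algebraMap W (M.R c) w) :=
    Ideal.Quotient.eq.mpr (Ideal.subset_span (by simp))
  have hle : Algebra.adjoin W ({(z : F)} : Set F) ≤ M.R c :=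
    Algebra.adjoin_le (Set.singleton_subset_iff.mpr z.2)
  obtain ⟨g, hg⟩ := exists_lift_ρ M mk
    (Ideal.Quotient.eq_zero_iff_mem.mpr (Ideal.subset_span (by simp)))
  letI := g.toAlgebra
  have hconst : ∀ b : M.R c, (b : F) ∈ Algebra.adjoin W ({(z : F)} : Set F) →
      ∃ t : k, mk b = g t := by
    rintro ⟨b, hb'⟩ hb
    change b ∈ Algebra.adjoin W ({(z : F)} : Set F) at hb
    induction hb using Algebra.adjoin_induction with
    | mem x hx =>
      refine ⟨M.ρ w, ?_⟩
      rw [hg, ← hz]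
      exact congrArg mk (Subtype.ext (by simpa using hx))
    | algebraMap v => exact ⟨M.ρ v, by rw [hg]; rfl⟩
    | add x x' hx hx' ihx ihx' =>
      obtain ⟨t, ht⟩ := ihx (hle hx)
      obtain ⟨t', ht'⟩ := ihx' (hle hx')
      exact ⟨t + t', by rw [map_add, ← ht, ← ht', ← map_add]; rfl⟩
    | mul x x' hx hx' ihx ihx' =>
      obtain ⟨t, ht⟩ := ihx (hle hx)
      obtain ⟨t', ht'⟩ := ihx' (hle hx')
      exact ⟨t * t', by rw [map_mul, ← ht, ← ht', ← map_mul]; rfl⟩
  let T : Finset (M.R c ⧸ I) := s₀.attach.image fun s : {v // v ∈ s₀} => mk ⟨(s : F), hs₀ s.2⟩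
  haveI : Module.Finite k (M.R c ⧸ I) := by
    refine ⟨⟨T, eq_top_iff.mpr ?_⟩⟩
    rintro q -
    obtain ⟨⟨a, ha⟩, rfl⟩ := Ideal.Quotient.mk_surjective q
    suffices h : ∀ v ∈ Submodule.span (Algebra.adjoin W ({(z : F)} : Set F)) (s₀ : Set F),
        ∃ h : v ∈ M.R c, mk ⟨v, h⟩ ∈ Submodule.span k (T : Set (M.R c ⧸ I)) by
      exact (h a (hspan a ha)).2
    intro v hv
    induction hv using Submodule.span_induction with
    | mem s hs => exact ⟨hs₀ hs, Submodule.subset_span
        (Finset.mem_image_of_mem _ (Finset.mem_attach s₀ ⟨s, hs⟩))⟩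
    | zero => exact ⟨zero_mem _, by
        rw [show (⟨0, zero_mem _⟩ : M.R c) = 0 from rfl, map_zero]; exact zero_mem _⟩
    | add u v _ _ ihu ihv => exact ⟨add_mem ihu.1 ihv.1, by
        rw [show (⟨u + v, add_mem ihu.1 ihv.1⟩ : M.R c) = ⟨u, ihu.1⟩ + ⟨v, ihv.1⟩ from rfl,
          map_add]
        exact add_mem ihu.2 ihv.2⟩
    | smul b u _ ihu =>
      have hm : (b : F) * u ∈ M.R c := mul_mem (hle b.2) ihu.1
      obtain ⟨t, ht⟩ := hconst ⟨b, hle b.2⟩ b.2
      refine ⟨hm, ?_⟩
      show mk ⟨(b : F) * u, hm⟩ ∈ _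
      rw [show (⟨_, hm⟩ : M.R c) = ⟨b, hle b.2⟩ * ⟨u, ihu.1⟩ from rfl, map_mul, ht]
      exact Submodule.smul_mem _ t ihu.2
  exact IsArtinianRing.of_finite k _

theorem FiniteOver.isMaximal (hfin : FiniteOver M c z) {y : Ideal (M.R c)} (hy : y.IsPrime)
    (hq : M.qR c ∈ y) {w : W} (hz : z - algebraMap W (M.R c) w ∈ y) : y.IsMaximal := by
  haveI := hfin.isArtinianRing w
  set I := Ideal.span {M.qR c, z - algebraMap W (M.R c) w}
  have hle : I ≤ y := by
    rw [Ideal.span_le]
    rintro r (rfl | rfl) <;> assumption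
  have hker : RingHom.ker (Ideal.Quotient.mk I) ≤ y := by rwa [Ideal.mk_ker]
  haveI : (y.map (Ideal.Quotient.mk I)).IsPrime :=
    Ideal.map_isPrime_of_surjective Ideal.Quotient.mk_surjective hker
  have h := IsArtinianRing.isMaximal_of_isPrime (y.map (Ideal.Quotient.mk I))
  have := Ideal.comap_isMaximal_of_surjective (Ideal.Quotient.mk I) Ideal.Quotient.mk_surjective
    (K := y.map (Ideal.Quotient.mk I))
  rwa [Ideal.comap_map_of_surjective _ Ideal.Quotient.mk_surjective, ← RingHom.ker_eq_comap_bot,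
    sup_eq_left.mpr hker] at this

theorem FiniteOver.finite (hfin : FiniteOver M c z) (w : W) :
    {y : Ideal (M.R c) | y.IsMaximal ∧ M.qR c ∈ y ∧ z - algebraMap W (M.R c) w ∈ y}.Finite := by
  haveI := hfin.isArtinianRing w
  set I := Ideal.span {M.qR c, z - algebraMap W (M.R c) w}
  refine (Set.finite_range fun m : MaximalSpectrum (M.R c ⧸ I) =>
    Ideal.comap (Ideal.Quotient.mk I) m.asIdeal).subset ?_
  rintro y ⟨hy, hq, hz⟩
  have hle : I ≤ y := by
    rw [Ideal.span_le]
    rintro r (rfl | rfl) <;> assumption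
  have hker : RingHom.ker (Ideal.Quotient.mk I) ≤ y := by rwa [Ideal.mk_ker]
  haveI : (y.map (Ideal.Quotient.mk I)).IsPrime :=
    Ideal.map_isPrime_of_surjective Ideal.Quotient.mk_surjective hker
  refine ⟨⟨_, IsArtinianRing.isMaximal_of_isPrime (y.map (Ideal.Quotient.mk I))⟩, ?_⟩
  show Ideal.comap _ (y.map _) = y
  rw [Ideal.comap_map_of_surjective _ Ideal.Quotient.mk_surjective, ← RingHom.ker_eq_comap_bot,
    sup_eq_left.mpr hker]

variable (M)

/-- The coordinate of a point is a constant. -/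
theorem exists_sub_const_mem {y : Ideal (M.R 0)} (hy : y.IsMaximal) (hq : M.qR 0 ∈ y) :
    ∃ a : W, (⟨M.x, M.x_mem⟩ - algebraMap W (M.R 0) a : M.R 0) ∈ y := by
  haveI := M.algClosed
  letI := Ideal.Quotient.field y
  let mk := Ideal.Quotient.mk y
  let t : M.R 0 ⧸ y := mk ⟨M.x, M.x_mem⟩
  obtain ⟨g, hg⟩ := exists_lift_ρ M mk (Ideal.Quotient.eq_zero_iff_mem.mpr hq)
  let φ : k[X] →+* M.R 0 ⧸ y := eval₂RingHom g t
  have hnot : ¬ Function.Injective φ := by
    intro hinj
    letI := φ.toAlgebra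
    haveI : Algebra.IsIntegral k[X] (M.R 0 ⧸ y) := by
      constructor
      intro r
      obtain ⟨⟨a, ha⟩, rfl⟩ := Ideal.Quotient.mk_surjective r
      obtain ⟨p, hp, hp0⟩ := M.isIntegral_chart_zero ha
      have hle : Algebra.adjoin W ({M.x} : Set F) ≤ M.R 0 :=
        Algebra.adjoin_le (Set.singleton_subset_iff.mpr M.x_mem)
      let inc : Algebra.adjoin W ({M.x} : Set F) →+* M.R 0 := (Subalgebra.inclusion hle).toRingHom
      have hl : p.map (mk.comp inc) ∈ lifts φ := by
        rw [lifts_iff_coeff_lifts]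
        intro n
        obtain ⟨P, hP⟩ := (Algebra.adjoin_singleton_eq_range_aeval W M.x).le (p.coeff n).2
        refine ⟨P.map M.ρ, ?_⟩
        rw [coeff_map]
        show (P.map M.ρ).eval₂ g t = _
        rw [eval₂_map, show g.comp M.ρ = mk.comp (algebraMap W (M.R 0)) from RingHom.ext hg,
          ← hom_eval₂]
        refine congrArg mk (Subtype.ext ?_)
        have := hom_eval₂ P (algebraMap W (M.R 0)) (M.R 0).val.toRingHom
          (⟨M.x, M.x_mem⟩ : M.R 0)
        exact this.trans hP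
      obtain ⟨Q, hQ, -, hQm⟩ := lifts_and_degree_eq_and_monic hl (hp.map _)
      refine ⟨Q, hQm, ?_⟩
      show Q.eval₂ φ _ = 0
      rw [← eval_map, hQ, eval_map]
      show p.eval₂ (mk.comp inc) (mk ⟨a, ha⟩) = 0
      rw [← hom_eval₂, show p.eval₂ inc (⟨a, ha⟩ : M.R 0) = 0 from Subtype.ext ?_, map_zero]
      exact (hom_eval₂ p inc (M.R 0).val.toRingHom (⟨a, ha⟩ : M.R 0)).trans hp0
    exact Polynomial.not_isField k
      (isField_of_isIntegral_of_isField hinj (Field.toIsField (M.R 0 ⧸ y)))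
  obtain ⟨h, hh, h0⟩ : ∃ h : k[X], φ h = 0 ∧ h ≠ 0 := by
    by_contra! hc
    exact hnot ((injective_iff_map_eq_zero φ).mpr hc)
  obtain ⟨β, hβ⟩ := (IsAlgClosed.splits h).mem_range_of_isRoot h0 (i := g) (x := t)
    (by rw [IsRoot, eval_map]; exact hh)
  obtain ⟨a, rfl⟩ := M.ρ_surjective β
  rw [hg] at hβ
  exact ⟨a, Ideal.Quotient.eq.mp hβ.symm⟩

end Fibre

/-! ### Locality -/

section Locality

variable {W F k C : Type} [CommRing W] [IsDomain W] [IsDiscreteValuationRing W] [Field F]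
  [Algebra W F] [Field k] [Field C] [Algebra k C] {M : Model W F k C}
  {L E E' : Type} [Field L] [Field E] [Algebra L E] [Field E'] [Algebra L E'] {ι : F →+* E}
  (X : Pts M L ι) {φ ψ : E →ₐ[L] E'} (hφ : φ.toRingHom.IsIntegral)
  (hψ : ψ.toRingHom.IsIntegral)

omit [IsDiscreteValuationRing W] in
theorem mem_of_isIntegral_adjoin {S : Type} [Field S] {V : ValuationSubring S}
    {R : Subalgebra W F} (f : R →+* S) {z : R} (hz : f z ∈ V)
    (hW : ∀ w : W, f (algebraMap W R w) ∈ V) {r : R}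
    (hr : IsIntegral (Algebra.adjoin W ({(z : F)} : Set F)) (r : F)) : f r ∈ V := by
  have hle : Algebra.adjoin W ({(z : F)} : Set F) ≤ R :=
    Algebra.adjoin_le (Set.singleton_subset_iff.mpr z.2)
  let inc : Algebra.adjoin W ({(z : F)} : Set F) →+* R := (Subalgebra.inclusion hle).toRingHom
  have hO : ∀ b, f (inc b) ∈ V := by
    rintro ⟨b, hb⟩
    induction hb using Algebra.adjoin_induction with
    | mem x hx =>
      obtain rfl : x = (z : F) := hx
      exact hz
    | algebraMap w => exact hW w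
    | add x x' hx hx' ihx ihx' =>
      rw [show inc ⟨x + x', _⟩ = inc ⟨x, hx⟩ + inc ⟨x', hx'⟩ from rfl, map_add]
      exact add_mem ihx ihx'
    | mul x x' hx hx' ihx ihx' =>
      rw [show inc ⟨x * x', _⟩ = inc ⟨x, hx⟩ * inc ⟨x', hx'⟩ from rfl, map_mul]
      exact mul_mem ihx ihx'
  obtain ⟨p, hp, hp0⟩ := hr
  have h0 : p.eval₂ inc r = 0 :=
    Subtype.ext ((hom_eval₂ p inc R.val.toRingHom r).trans hp0)
  let g : Algebra.adjoin W ({(z : F)} : Set F) →+* V := (f.comp inc).codRestrict V hO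
  have hi : IsIntegral V (f r) := by
    refine ⟨p.map g, hp.map g, ?_⟩
    rw [eval₂_map, show (algebraMap V S).comp g = f.comp inc from RingHom.ext fun _ => rfl,
      ← hom_eval₂, h0, map_zero]
  obtain ⟨b, hb⟩ := IsIntegrallyClosed.algebraMap_eq_of_integral hi
  rw [← hb]
  exact b.2

variable (hW : ∀ w : W, ∃ a : L, ι (algebraMap W F w) = algebraMap L E a)

include hW in
/-- On the finite chart the coordinate of the second point is a root of the modular equation at
the coordinate of the first. -/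
theorem exists_root_coord {Q : ℤ[X][X]} (hQ : Q.Monic)
    (hQ0 : Q.eval₂ (eval₂RingHom (Int.castRingHom E') (φ (ι M.x))) (ψ (ι M.x)) = 0)
    {x y : Ideal (M.R 0)} (hx : Std M 0 x) (hy : Std M 0 y) {w : Place L E'}
    (hP : X.Cen 0 x (w.restrictAlong φ hφ)) (hQy : X.Cen 0 y (w.restrictAlong ψ hψ))
    {a : W} (ha : (⟨M.x, M.x_mem⟩ - algebraMap W (M.R 0) a : M.R 0) ∈ x) :
    ∃ β ∈ (Q.map (eval₂RingHom (Int.castRingHom k) (M.ρ a))).roots,
      (⟨M.x, M.x_mem⟩ - algebraMap W (M.R 0) (Function.surjInv M.ρ_surjective β) : M.R 0) ∈ y := by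
  classical
  haveI := M.algClosed
  let xR : M.R 0 := ⟨M.x, M.x_mem⟩
  let f₁ : M.R 0 →+* E' := φ.toRingHom.comp (ι.comp (M.R 0).val.toRingHom)
  let f₂ : M.R 0 →+* E' := ψ.toRingHom.comp (ι.comp (M.R 0).val.toRingHom)
  have m₁ : ∀ r, f₁ r ∈ w.toValuationSubring := fun r => (X.mem 0 x _ hx hP r).1
  have m₂ : ∀ r, f₂ r ∈ w.toValuationSubring := fun r => (X.mem 0 y _ hy hQy r).1
  let θ₁ := placeHom w f₁ m₁
  let θ₂ := placeHom w f₂ m₂
  have hsame : ∀ v : W, θ₁ (algebraMap W (M.R 0) v) = θ₂ (algebraMap W (M.R 0) v) := by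
    intro v
    refine congrArg (IsLocalRing.residue _) (Subtype.ext ?_)
    obtain ⟨b, hb⟩ := hW v
    show φ (ι (algebraMap W F v)) = ψ (ι (algebraMap W F v))
    rw [hb, AlgHom.commutes, AlgHom.commutes]
  have hker : ∀ r, θ₁ r = 0 → r ∈ x := by
    intro r h0
    by_contra hr
    rw [placeHom_eq_zero_iff] at h0
    have hord : w.ord (f₁ r) = 0 := by
      show w.ord (φ (ι (r : F))) = 0
      rw [Place.ord_restrictAlong φ hφ, (X.mem 0 x _ hx hP r).2 hr, mul_zero]
    rcases h0 with h0 | h0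
    · exact hr ((show r = 0 from (map_eq_zero_iff f₁
        ((φ.toRingHom.comp ι).injective.comp Subtype.val_injective)).mp h0) ▸ x.zero_mem)
    · omega
  -- a valuation centred at the first point
  have hI : x.map θ₁.rangeRestrict ≠ ⊤ := by
    rw [Ne, Ideal.eq_top_iff_one, Ideal.mem_map_iff_of_surjective _ θ₁.rangeRestrict_surjective]
    rintro ⟨r, hr, h1⟩
    have h2 : (1 : M.R 0) - r ∈ x :=
      hker _ (by rw [map_sub, map_one, show θ₁ r = 1 from congrArg Subtype.val h1, sub_self])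
    exact hx.1.ne_top ((Ideal.eq_top_iff_one _).mpr (by simpa using add_mem h2 hr))
  obtain ⟨V, hV, hVI⟩ := Ideal.image_subset_nonunits_valuationSubring _ hI
  have n₁ : ∀ r, θ₁ r ∈ V := fun r => hV ⟨r, rfl⟩
  let τ₁ : M.R 0 →+* IsLocalRing.ResidueField V :=
    (IsLocalRing.residue V).comp (θ₁.codRestrict V n₁)
  have hτ₁ : ∀ r ∈ x, τ₁ r = 0 := by
    intro r hr
    have hn : θ₁ r ∈ V.nonunits := hVI ⟨θ₁.rangeRestrict r, Ideal.mem_map_of_mem _ hr, rfl⟩
    rw [ValuationSubring.mem_nonunits_iff_exists_mem_maximalIdeal] at hn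
    exact (IsLocalRing.residue_eq_zero_iff _).mpr hn.2
  have h1 : Q.eval₂ (eval₂RingHom (Int.castRingHom w.ResidueField) (θ₁ xR)) (θ₂ xR) = 0 := by
    have h0 : Q.eval₂ (eval₂RingHom (Int.castRingHom w.toValuationSubring) ⟨_, m₁ xR⟩)
        (⟨_, m₂ xR⟩ : w.toValuationSubring) = 0 := by
      refine Subtype.val_injective ?_
      show w.toValuationSubring.subtype _ = (0 : E')
      rw [map_eval₂_int]
      exact hQ0
    have := congrArg (IsLocalRing.residue w.toValuationSubring) h0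
    rwa [map_eval₂_int, map_zero] at this
  have hrel : IntOver (θ₁ xR) (θ₂ xR) := ⟨Q, hQ, h1⟩
  have n₂ : ∀ r, θ₂ r ∈ V := fun r =>
    mem_of_isIntegral_adjoin θ₂ (z := xR) (hrel.mem V (n₁ xR)) (fun v => hsame v ▸ n₁ _)
      (M.isIntegral_chart_zero r.2)
  let τ₂ : M.R 0 →+* IsLocalRing.ResidueField V :=
    (IsLocalRing.residue V).comp (θ₂.codRestrict V n₂)
  have hsame' : ∀ v : W, τ₁ (algebraMap W (M.R 0) v) = τ₂ (algebraMap W (M.R 0) v) :=
    fun v => congrArg (IsLocalRing.residue V) (Subtype.ext (hsame v))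
  obtain ⟨g, hg⟩ := exists_lift_ρ M τ₁ (hτ₁ _ hx.2.1)
  have ht : τ₁ xR = g (M.ρ a) := by
    rw [hg, ← sub_eq_zero, ← map_sub]
    exact hτ₁ _ ha
  have hroot : ((Q.map (eval₂RingHom (Int.castRingHom k) (M.ρ a))).map g).IsRoot (τ₂ xR) := by
    rw [IsRoot, map_map, eval_map, show g.comp (eval₂RingHom (Int.castRingHom k) (M.ρ a)) =
      eval₂RingHom (Int.castRingHom (IsLocalRing.ResidueField V)) (τ₁ xR) from
      ringHom_ext (by simp) (by simp [ht])]
    have h2 : Q.eval₂ (eval₂RingHom (Int.castRingHom V) ⟨θ₁ xR, n₁ xR⟩)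
        (⟨θ₂ xR, n₂ xR⟩ : V) = 0 := by
      refine Subtype.val_injective ?_
      show V.subtype _ = (0 : w.ResidueField)
      rw [map_eval₂_int]
      exact h1
    have := congrArg (IsLocalRing.residue V) h2
    rwa [map_eval₂_int, map_zero] at this
  have hne := (hQ.map (eval₂RingHom (Int.castRingHom k) (M.ρ a))).ne_zero
  obtain ⟨β, hβ⟩ := (IsAlgClosed.splits _).mem_range_of_isRoot hne hroot
  have hβroot : β ∈ (Q.map (eval₂RingHom (Int.castRingHom k) (M.ρ a))).roots :=
    (mem_roots hne).mpr ((hβ ▸ hroot : IsRoot _ (g β)).of_map g.injective)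
  refine ⟨β, hβroot, ?_⟩
  have hmem : xR - algebraMap W (M.R 0) (Function.surjInv M.ρ_surjective β) ∈
      RingHom.ker τ₂ := by
    rw [RingHom.mem_ker, map_sub, ← hsame', ← hg, Function.surjInv_eq M.ρ_surjective, hβ, sub_self]
  have hq : M.qR 0 ∈ RingHom.ker τ₂ := (hsame' (M.q : W)).symm.trans (hτ₁ _ hx.2.1)
  have hmax := FiniteOver.isMaximal (z := xR) M.finite₀ (RingHom.ker_isPrime τ₂) hq hmem
  by_contra hmy
  obtain ⟨s, hs, hord⟩ := X.sep 0 (RingHom.ker τ₂) y _
    ⟨hmax, hq, fun h => absurd h (by decide)⟩ hy (fun e => hmy (e ▸ hmem)) hQy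
  refine hs ?_
  have h0 : θ₂ s = 0 := by
    rw [placeHom_eq_zero_iff]
    show ψ (ι (s : F)) = 0 ∨ _
    rcases eq_or_ne (ψ (ι (s : F))) 0 with h | h
    · exact Or.inl h
    · refine Or.inr ?_
      show 0 < w.ord (ψ (ι (s : F)))
      rw [Place.ord_restrictAlong ψ hψ]
      refine mul_pos ?_ hord
      letI := algebraAlong ψ
      haveI := isIntegral_along ψ hψ
      exact_mod_cast w.ramificationIndex_pos (F := E)
  rw [RingHom.mem_ker]
  show IsLocalRing.residue V (⟨θ₂ s, n₂ s⟩ : V) = 0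
  rw [show (⟨θ₂ s, n₂ s⟩ : V) = 0 from Subtype.ext h0, map_zero]

variable [IsAlgClosed L] (A : ValuationSubring L)

/-- The chart of a centre is given by the value of the coordinate. -/
def ChartByValue : Prop :=
  ∀ (c : Fin 2) (y : Ideal (M.R c)) (P : Place L E), Std M c y → X.Cen c y P →
    (c = 0 ↔ ∃ a ∈ A, 0 < P.ord (ι M.x - algebraMap L E a))

variable (hchart : ChartByValue X A) (htr : ∀ a : L, ι M.x ≠ algebraMap L E a)

include hchart htr in
theorem chart_eq (hxy : IntOver (φ (ι M.x)) (ψ (ι M.x)))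
    (hyx : IntOver (ψ (ι M.x)) (φ (ι M.x))) {c c' : Fin 2} {x : Ideal (M.R c)}
    {y : Ideal (M.R c')} (hx : Std M c x) (hy : Std M c' y) {w : Place L E'}
    (hP : X.Cen c x (w.restrictAlong φ hφ)) (hQy : X.Cen c' y (w.restrictAlong ψ hψ)) :
    c' = c := by
  have key : ∀ (φ ψ : E →ₐ[L] E') (hφ : φ.toRingHom.IsIntegral) (hψ : ψ.toRingHom.IsIntegral),
      IntOver (φ (ι M.x)) (ψ (ι M.x)) →
      (∃ a ∈ A, 0 < (w.restrictAlong φ hφ).ord (ι M.x - algebraMap L E a)) →
      ∃ b ∈ A, 0 < (w.restrictAlong ψ hψ).ord (ι M.x - algebraMap L E b) := by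
    intro φ ψ hφ hψ hrel ⟨a, ha, hpos⟩
    have h1 : 0 < w.ord (φ (ι M.x) - algebraMap L E' a) := by
      rw [← φ.commutes, ← map_sub, Place.ord_restrictAlong φ hφ]
      refine mul_pos ?_ hpos
      letI := algebraAlong φ
      haveI := isIntegral_along φ hφ
      exact_mod_cast w.ramificationIndex_pos (F := E)
    obtain ⟨b, hb, h2⟩ := exists_value_mem w A hrel
      (fun b e => htr b (ψ.toRingHom.injective (e.trans (ψ.commutes b).symm))) ha h1
    rw [← ψ.commutes, ← map_sub, Place.ord_restrictAlong ψ hψ] at h2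
    exact ⟨b, hb, pos_of_mul_pos_right h2 (Int.natCast_nonneg _)⟩
  have h₁ := hchart c x _ hx hP
  have h₂ := hchart c' y _ hy hQy
  rcases Fin.exists_fin_two.mp ⟨c, rfl⟩ with hc | hc <;>
    rcases Fin.exists_fin_two.mp ⟨c', rfl⟩ with hc' | hc' <;> subst hc <;> subst hc'
  · rfl
  · exact absurd (h₂.mpr (key φ ψ hφ hψ hxy (h₁.mp rfl))) (by decide)
  · exact absurd (h₁.mpr (key ψ φ hψ hφ hyx (h₂.mp rfl))) (by decide)
  · rfl

variable (hfin₁ : FiniteOver M 1 M.x⁻¹)

include hW hchart htr hfin₁ in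
/-- **Locality of a correspondence.** -/
theorem exists_locality [HasPrincipalDivisors L E'] (hxy : IntOver (φ (ι M.x)) (ψ (ι M.x)))
    (hyx : IntOver (ψ (ι M.x)) (φ (ι M.x))) (c : Fin 2) (x : Ideal (M.R c)) (hx : Std M c x) :
    ∃ S : Finset (Ideal (M.R c)), (∀ y ∈ S, Std M c y) ∧
      ∀ D : Divisor L E, VanishesOn X c (S : Set (Ideal (M.R c))) D → ∀ P, X.Cen c x P →
        Divisor.correspondence ψ φ hψ hφ D P = 0 := by
  classical
  -- it is enough to know the possible centres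
  suffices h : ∃ S : Set (Ideal (M.R c)), S.Finite ∧ (∀ y ∈ S, Std M c y) ∧
      ∀ (w : Place L E') (y : Ideal (M.R c)), X.Cen c x (w.restrictAlong φ hφ) → Std M c y →
        X.Cen c y (w.restrictAlong ψ hψ) → y ∈ S by
    obtain ⟨S, hS, hStd, hcen⟩ := h
    refine ⟨hS.toFinset, fun y hy => hStd y (hS.mem_toFinset.mp hy), fun D hD P hP => ?_⟩
    have hzero : ∀ w : Place L E', w.restrictAlong φ hφ = P →
        Divisor.pullbackAlong ψ hψ D w = 0 := by
      rintro w rfl
      obtain ⟨c', y, hy, hQy⟩ := X.exists_cen (w.restrictAlong ψ hψ)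
      obtain rfl := chart_eq X hφ hψ A hchart htr hxy hyx hx hy hP hQy
      rw [Divisor.pullbackAlong_apply,
        hD y (hS.mem_toFinset.mpr (hcen w y hP hy hQy)) _ hQy, mul_zero]
    rw [Divisor.correspondence_apply]
    letI := algebraAlong φ
    haveI := isScalarTower_along φ
    haveI := isIntegral_along φ hφ
    show Divisor.pushforward E (Divisor.pullbackAlong ψ hψ D) P = 0
    rw [Divisor.pushforward_apply]
    exact Finset.sum_eq_zero fun w _ => ite_eq_right_iff.mpr fun hw => by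
      rw [hzero w hw, zero_mul]
  rcases Fin.exists_fin_two.mp ⟨c, rfl⟩ with hc | hc <;> subst hc
  · obtain ⟨Q, hQ, hQ0⟩ := id hxy
    obtain ⟨a, ha⟩ := exists_sub_const_mem M hx.1 hx.2.1
    refine ⟨⋃ β ∈ (Q.map (eval₂RingHom (Int.castRingHom k) (M.ρ a))).roots.toFinset,
      {y : Ideal (M.R 0) | y.IsMaximal ∧ M.qR 0 ∈ y ∧
        (⟨M.x, M.x_mem⟩ : M.R 0) - algebraMap W (M.R 0) (Function.surjInv M.ρ_surjective β) ∈ y},
      Set.Finite.biUnion (Finset.finite_toSet _) fun β _ =>
        FiniteOver.finite (z := (⟨M.x, M.x_mem⟩ : M.R 0)) M.finite₀ _, ?_, ?_⟩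
    · intro y hy
      simp only [Set.mem_iUnion] at hy
      obtain ⟨β, -, hy⟩ := hy
      exact ⟨hy.1, hy.2.1, fun h => absurd h (by decide)⟩
    · intro w y hP hy hQy
      obtain ⟨β, hβ, hm⟩ := exists_root_coord X hφ hψ hW hQ hQ0 hx hy hP hQy ha
      simp only [Set.mem_iUnion]
      exact ⟨β, Multiset.mem_toFinset.mpr hβ, hy.1, hy.2.1, hm⟩
  · have key : ∀ y, Std M 1 y ↔ y ∈ {y : Ideal (M.R 1) | y.IsMaximal ∧ M.qR 1 ∈ y ∧
        (⟨M.x⁻¹, M.x_inv_mem⟩ : M.R 1) - algebraMap W (M.R 1) 0 ∈ y} := fun y => by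
      simp only [Std, Set.mem_ofPred_eq, map_zero, sub_zero, forall_const]
      exact ⟨fun h => ⟨h.1, h.2.1, h.2.2 _ rfl⟩, fun h => ⟨h.1, h.2.1, fun r hr => by
        rw [show r = (⟨M.x⁻¹, M.x_inv_mem⟩ : M.R 1) from Subtype.ext hr]
        exact h.2.2⟩⟩
    exact ⟨_, FiniteOver.finite (z := (⟨M.x⁻¹, M.x_inv_mem⟩ : M.R 1)) hfin₁ 0,
      fun y hy => (key y).mpr hy, fun w y _ hy _ => (key y).mp hy⟩

end Locality

end Fermat.Agent.LowerSq.Null
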