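/-
The operator `T_l` on null divisors of level `L₀ q²` (helper50): `div` is `LL.Mazur.heckeDiv` and
`fn` is `Carayol.heckeFn`.
-/
import Fermat.Agent.LowerSq.Null.HeckeLocal
import Fermat.Agent.Carayol.HeckeOrders
import Fermat.Agent.Carayol.ChartConcrete
import Fermat.Agent.LL.Mazur.HeckeNorm
import Fermat.Agent.RED.Specialization.SwapField
import Fermat.Agent.Carayol.Setting
import Fermat.Agent.Galois.Cyclotomic

set_option autoImplicit false
set_option linter.unusedSectionVars false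
set_option linter.style.haveILetI false
set_option synthInstance.maxHeartbeats 100000

noncomputable section

open ModularCurve AlgebraicCurve
open Fermat.Agent.Igusa Fermat.Agent.RED.Spec Fermat.Agent.HK.Corr Fermat.Agent.CarayolHigh

namespace Fermat.Agent.LowerSq.Null

open Carayol

local notation "Qb" => AlgebraicClosure ℚ

/-- Substituting `u Q` for a root of unity twists the residue. -/
theorem exists_isGauss_qScale_unit {K' k : Type} [Field K'] [Field k] {O : ValuationSubring K'}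
    {π : O →+* k} {z : LaurentSeries K'} {r : LaurentSeries k} (h : IsGauss π z r) {u : K'ˣ}
    {m : ℕ} (hm : m ≠ 0) (hu : u ^ m = 1) :
    ∃ v : kˣ, IsGauss π (Igusa.qScale u z) (Igusa.qScale v r) := by
  obtain ⟨a, b, hb, he, rfl⟩ := h
  obtain ⟨hu1, hu2⟩ := root_mem (O := O) hm hu
  let v : Oˣ := ⟨⟨(u : K'), hu1⟩, ⟨((u⁻¹ : K'ˣ) : K'), hu2⟩,
    Subtype.ext (Units.mul_inv u), Subtype.ext (Units.inv_mul u)⟩
  have h2 : ∀ c, intSeries O (Igusa.qScale v c) = Igusa.qScale u (intSeries O c) := fun c => by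
    rw [intSeries, coeffMap_qScale,
      show Units.map O.subtype.toMonoidHom v = u from Units.ext rfl]
  refine ⟨Units.map π.toMonoidHom v, Igusa.qScale v a, Igusa.qScale v b, ?_, ?_, ?_⟩
  · rw [coeffMap_qScale]
    exact (_root_.map_ne_zero _).mpr hb
  · rw [h2, h2, ← map_mul, he]
  · rw [map_div₀, coeffMap_qScale, coeffMap_qScale]

variable {K : Type} [Field K] [Algebra ℚ K] {L₀ q l : ℕ} [NeZero L₀] [NeZero q] [NeZero l]

/-! ### Residues -/

section Residues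

variable {K' k : Type} [Field K'] [Algebra ℚ K'] [Field k] {O : ValuationSubring K'} {π : O →+* k}
  {hq : q.Prime} {hqL : ¬ q ∣ L₀} {κ : K →+* K'} {z : K'ˣ}
  {e0 e02 : modField K (L₀ * q ^ 2) →+* LaurentSeries K'}
  {ez : Fin (q - 1) → modField K (L₀ * q ^ 2) →+* LaurentSeries K'} {η : K'ˣ}
  {A : ValuationSubring K} {C : Type} [Field C]
  {Br : Branches (modField K (L₀ * q ^ 2)) (Fin 3) (fun _ => C)} {ev : C →+* LaurentSeries k}
  {k₀ : Fin (q - 1)}

/-- The residues of `T_l h` on the three branches are given by those of `h`. -/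
theorem exists_res_heckeFn (D : ChartData hq hqL π κ z e0 e02 ez η A Br ev k₀) (ι' : K' →+* ℂ)
    (hl : l.Prime) (hlN : ¬ l ∣ L₀ * q ^ 2) {ω : K'ˣ} (hω : IsPrimitiveRoot ω l)
    {a : modField K (L₀ * q ^ 2)} {s : Fin 3 → C}
    (ha : ∀ i, ∃ h : a ∈ Br.V i, Br.res i ⟨a, h⟩ = s i) (hs : ∀ i, s i ≠ 0) (i : Fin 3) :
    ∃ h : heckeFn K _ l a ∈ Br.V i, Br.res i ⟨_, h⟩ ≠ 0 ∧
      ((∀ j, s j = 1) → Br.res i ⟨_, h⟩ = 1) := by
  haveI := D.dvr
  haveI := D.charP
  haveI := Fact.mk hq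
  have hB := D.branches
  have hlq : ¬ l ∣ q := fun h => hlN (dvd_mul_of_dvd_right (h.trans (dvd_pow_self q two_ne_zero)) _)
  have hqLl : ¬ q ∣ L₀ * l := fun h => (hq.dvd_mul.mp h).elim hqL
    fun h' => hlq ((Nat.prime_dvd_prime_iff_eq hq hl).mp h' ▸ dvd_rfl)
  have hg : ∀ j, IsGauss π (branchTriple e0 e02 ez k₀ j a) (ev (s j)) := fun j => by
    obtain ⟨h, h'⟩ := ha j
    exact (D.isGauss_iff j a _).mpr ⟨h, by rw [h']⟩
  have hmid : ∀ j, IsGauss π (ez j a) (ev (s 1)) := fun j => by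
    obtain ⟨σ, hσ, hσκ, hσz, hσπ⟩ := D.sigma j
    exact hB.isGauss_mid_of_sigma σ hσκ hσz hσ hσπ (hg 1)
  have key : ∀ (e et er : modField K (L₀ * q ^ 2) →+* LaurentSeries K')
      (φ φ' : modField K (L₀ * q ^ 2 * l) →+* LaurentSeries K') (rt rr : LaurentSeries k),
      HeckeBranches e et er φ φ' → (∀ x, e x ∈ fracSeries O) →
      IsGauss π (et a) rt → IsGauss π (er a) rr → rt ≠ 0 → rr ≠ 0 →
      ∃ r, IsGauss π (e (heckeFn K _ l a)) r ∧ r ≠ 0 ∧ (rt = 1 → rr = 1 → r = 1) := by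
    intro e et er φ φ' rt rr hH he ht hr ht0 hr0
    choose v hv using fun b : Fin l => exists_isGauss_qScale_unit hr (u := ω ^ (b : ℕ))
      hl.ne_zero (unit_pow_pow_eq_one hω _ dvd_rfl)
    have h1 := ((ht.qExpand l).qExpand l).mul (IsGauss.prod Finset.univ fun b _ => hv b)
    rw [← hH.map_heckeFn (ι'.comp κ) hl hlN hω] at h1
    obtain ⟨r, hr', hR⟩ := exists_isGauss_of_qExpand D.hπ (he _) h1
    refine ⟨r, hr', fun h0 => ?_, fun ht1 hr1 => ?_⟩
    · rw [h0, map_zero, mul_eq_zero, Finset.prod_eq_zero_iff] at hR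
      rcases hR with h | ⟨b, -, h⟩
      · exact ht0 ((map_eq_zero_iff _ (qExpand_injective l)).mp
          ((map_eq_zero_iff _ (qExpand_injective l)).mp h))
      · exact hr0 ((map_eq_zero _).mp h)
    · simp only [ht1, hr1, map_one, Finset.prod_const_one, mul_one] at hR
      exact qExpand_injective l (hR.symm.trans (map_one _).symm)
  have hF := fun x => hB.mem_fracSeries π x
  have hev : ∀ j, ev (s j) ≠ 0 := fun j => (_root_.map_ne_zero ev).mpr (hs j)
  have fin : ∀ r, IsGauss π (branchTriple e0 e02 ez k₀ i (heckeFn K _ l a)) r → r ≠ 0 →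
      ((∀ j, s j = 1) → r = 1) → ∃ h : heckeFn K _ l a ∈ Br.V i, Br.res i ⟨_, h⟩ ≠ 0 ∧
        ((∀ j, s j = 1) → Br.res i ⟨_, h⟩ = 1) := by
    intro r hr hr0 hr1
    obtain ⟨h, hev'⟩ := (D.isGauss_iff i _ r).mp hr
    exact ⟨h, fun h0 => hr0 (by rw [← hev', h0, map_zero]),
      fun h1 => ev.injective (by rw [hev', hr1 h1, map_one])⟩
  fin_cases i
  · obtain ⟨φ, hφ⟩ := hB.heckeBranches_zero (l := l) hl
    obtain ⟨r, h, h0, h1⟩ := key _ _ _ φ φ _ _ hφ (fun x => (hF x).1) (hg 0) (hg 0) (hev 0) (hev 0)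
    exact fin r h h0 fun hj => h1 (by rw [hj, map_one]) (by rw [hj, map_one])
  · obtain ⟨it, ir, φ, φ', hφ⟩ := hB.heckeBranches_mid ι' hl hlq hqLl k₀
    obtain ⟨r, h, h0, h1⟩ :=
      key _ _ _ φ φ' _ _ hφ (fun x => (hF x).2.2 k₀) (hmid it) (hmid ir) (hev 1) (hev 1)
    exact fin r h h0 fun hj => h1 (by rw [hj, map_one]) (by rw [hj, map_one])
  · obtain ⟨φ, hφ⟩ := hB.heckeBranches_two ι' hl hlq hqLl
    obtain ⟨r, h, h0, h1⟩ := key _ _ _ φ φ _ _ hφ (fun x => (hF x).2.1) (hg 2) (hg 2) (hev 2) (hev 2)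
    exact fin r h h0 fun hj => h1 (by rw [hj, map_one]) (by rw [hj, map_one])

end Residues

/-! ### The operator -/

section Op

variable {W kM C : Type} [CommRing W] [IsDomain W] [IsDiscreteValuationRing W]
  [Algebra W (modField K (L₀ * q ^ 2))] [Field kM] [Field C] [Algebra kM C]
  {M : Model W (modField K (L₀ * q ^ 2)) kM C} {κ₀ : K →+* Qb}
  (X : Pts M Qb (fieldExt κ₀ (L₀ * q ^ 2)))

omit [NeZero l] in
theorem fieldExt_x (hx : (M.x : LaurentSeries K) = jSer K) :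
    (fieldExt κ₀ (L₀ * q ^ 2) M.x : LaurentSeries Qb) = jSer Qb := by
  show coeffMap κ₀ (M.x : LaurentSeries K) = jSer Qb
  rw [hx, jSer_eq_jqModC, jSer_eq_jqModC, coeffMap_jqModC]

omit [NeZero l] in
theorem fieldExt_x_ne_const (hx : (M.x : LaurentSeries K) = jSer K) (a : Qb) :
    fieldExt κ₀ (L₀ * q ^ 2) M.x ≠ algebraMap Qb _ a := by
  intro h
  refine MF.Coeff.transcendental_jElem Qb (L₀ * q ^ 2) ?_
  rw [show MF.Coeff.jElem Qb (L₀ * q ^ 2) = algebraMap Qb _ a from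
    (Subtype.ext ((MF.Coeff.coe_jElem (K := Qb) (N := L₀ * q ^ 2)).trans
      ((jSer_eq_jqModC (L := Qb)).symm.trans (fieldExt_x (κ₀ := κ₀) hx).symm))).trans h]
  exact isAlgebraic_algebraMap a

theorem heckeNorm_eq_heckeFn (f : modularFunctionFieldBar (L₀ * q ^ 2)) :
    LL.Mazur.heckeNorm (L₀ * q ^ 2) l f = heckeFn Qb (L₀ * q ^ 2) l f := by
  have ha : heckeAlphaBar Qb (L₀ * q ^ 2) l = degenMap Qb 1 (heckeDvdOne (L₀ * q ^ 2) l) :=
    AlgHom.ext fun x => Subtype.ext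
      ((coe_heckeAlphaBar (L₀ * q ^ 2) _ x).trans (qExpand_one_apply _).symm)
  have hb : heckeBetaBar Qb (L₀ * q ^ 2) l f = degenMap Qb l (dvd_refl _) f :=
    Subtype.ext (coe_heckeBetaBar (L := Qb) (L₀ * q ^ 2) _ _)
  show (letI := algebraAlong (heckeAlphaBar Qb (L₀ * q ^ 2) l);
    Algebra.norm (modularFunctionFieldBar (L₀ * q ^ 2)) (heckeBetaBar Qb (L₀ * q ^ 2) l f)) = _
  rw [ha, hb]
  rfl

theorem intOver_hecke (hl : l.Prime) (hx : (M.x : LaurentSeries K) = jSer K) :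
    IntOver (heckeAlphaBar Qb (L₀ * q ^ 2) l (fieldExt κ₀ _ M.x))
      (heckeBetaBar Qb (L₀ * q ^ 2) l (fieldExt κ₀ _ M.x)) ∧
    IntOver (heckeBetaBar Qb (L₀ * q ^ 2) l (fieldExt κ₀ _ M.x))
      (heckeAlphaBar Qb (L₀ * q ^ 2) l (fieldExt κ₀ _ M.x)) := by
  let v : laurentBaseChange Qb (modularFunctionFieldFull (L₀ * q ^ 2 * l)) →+* LaurentSeries Qb :=
    (IntermediateField.val _).toRingHom
  have h1 : v (heckeAlphaBar Qb (L₀ * q ^ 2) l (fieldExt κ₀ _ M.x)) = jSer Qb :=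
    (coe_heckeAlphaBar (L := Qb) (L₀ * q ^ 2) l (fieldExt κ₀ (L₀ * q ^ 2) M.x)).trans (fieldExt_x hx)
  have h2 : v (heckeBetaBar Qb (L₀ * q ^ 2) l (fieldExt κ₀ _ M.x)) =
      qExpand Qb l (jSer Qb) :=
    (coe_heckeBetaBar (L := Qb) (L₀ * q ^ 2) l (fieldExt κ₀ (L₀ * q ^ 2) M.x)).trans
      (congrArg (qExpand Qb l) (fieldExt_x hx))
  refine ⟨IntOver.of_map (f := v) v.injective ?_, IntOver.of_map (f := v) v.injective ?_⟩ <;>
    rw [h1, h2]
  · exact isIntegralElem_qExpand_jSer l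
  · exact isIntegralElem_jSer_qExpand exists_qbToC.some l hl

/-- `T_l` on functions and divisors of level `L₀ q²`. -/
def heckeOp {K' k : Type} [Field K'] [Algebra ℚ K'] [Field k] {O : ValuationSubring K'}
    {π : O →+* k} {hq : q.Prime} {hqL : ¬ q ∣ L₀} {κ : K →+* K'} {z : K'ˣ}
    {e0 e02 : modField K (L₀ * q ^ 2) →+* LaurentSeries K'}
    {ez : Fin (q - 1) → modField K (L₀ * q ^ 2) →+* LaurentSeries K'} {η : K'ˣ}
    {A : ValuationSubring K} {ev : C →+* LaurentSeries k} {k₀ : Fin (q - 1)}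
    (D : ChartData hq hqL π κ z e0 e02 ez η A M.Br ev k₀) (ι' : K' →+* ℂ)
    (hl : l.Prime) (hlN : ¬ l ∣ L₀ * q ^ 2) {ω : K'ˣ} (hω : IsPrimitiveRoot ω l)
    (hW : ∀ w : W, ∃ c : K, algebraMap W (modField K (L₀ * q ^ 2)) w = algebraMap K _ c)
    (hx : (M.x : LaurentSeries K) = jSer K) (hfin₁ : FiniteOver M 1 M.x⁻¹)
    {AL : ValuationSubring Qb} (hchart : ChartByValue X AL) : Op X where
  fn := heckeFn K (L₀ * q ^ 2) l
  div := LL.Mazur.heckeDiv (L₀ * q ^ 2) l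
  fn_ne_zero h hh := heckeFn_ne_zero hh
  ord_eq E h hh hE P := by
    have hf : fieldExt κ₀ (L₀ * q ^ 2) h ≠ 0 := (_root_.map_ne_zero _).mpr hh
    rw [← heckeFn_fieldExt κ₀ hl hlN, ← heckeNorm_eq_heckeFn]
    exact LL.Mazur.isDivisorOf_heckeNorm (L₀ * q ^ 2) l hf hE P
  locality := by
    haveI := hasPrincipalDivisors_level Qb (L₀ * q ^ 2 * l)
    intro c x hxs
    exact exists_locality X (heckeAlphaBarIntegral_of (L₀ * q ^ 2) l (degreeInput Qb))
      (heckeBetaBarIntegral_of (L₀ * q ^ 2) l (degreeInput Qb))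
      (fun w => by
        obtain ⟨c, hc⟩ := hW w
        exact ⟨κ₀ c, by rw [hc]; exact fieldExt_algebraMap κ₀ _ c⟩)
      AL hchart (fieldExt_x_ne_const hx) hfin₁
      (intOver_hecke hl hx).1 (intOver_hecke hl hx).2 c x hxs
  ord_fn h hh hord i := by
    obtain ⟨hm, h0, -⟩ := exists_res_heckeFn D ι' hl hlN hω (a := h) (s := fun j => M.red j h)
      (fun j => ⟨M.mem_of_ord_nonneg (hord j).ge, (Model.red_of_mem M _).symm⟩)
      (fun j => M.red_ne_zero_of_ord hh (hord j)) i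
    exact (M.ord_eq_zero_of_red hm (by rwa [Model.red_of_mem M hm])).2
  red_one h hh hord hred i := by
    obtain ⟨hm, -, h1⟩ := exists_res_heckeFn D ι' hl hlN hω (a := h) (s := fun j => M.red j h)
      (fun j => ⟨M.mem_of_ord_nonneg (hord j).ge, (Model.red_of_mem M _).symm⟩)
      (fun j => M.red_ne_zero_of_ord hh (hord j)) i
    rw [Model.red_of_mem M hm]
    exact h1 hred

end Op

/-- The constants contain the roots of unity of order prime to `q`. -/
theorem exists_primitiveRoot_consts {A₀ : ValuationSubring Qb} {K K' k : Type} [Field K]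
    [Algebra K Qb] [Field K'] [Field k] {q : ℕ} {π₀ : A₀ →+* k} {κ : K →+* K'} {ι : K' →+* Qb}
    {η : K'ˣ} (hc : Consts A₀ q π₀ κ ι η) {l : ℕ} (hl : l.Prime) (hql : ¬ q ∣ l) :
    ∃ ω : K'ˣ, IsPrimitiveRoot ω l := by
  haveI : NeZero l := ⟨hl.ne_zero⟩
  obtain ⟨ω, hω⟩ := HasEnoughRootsOfUnity.exists_primitiveRoot Qb l
  obtain ⟨c, hc'⟩ := (hc.fixed ω).mpr fun σ hσ =>
    Galois.inertia_apply_rootOfUnity hc.liesOver hc.hq hσ hql hω.pow_eq_one
  have h : IsPrimitiveRoot (κ c) l := IsPrimitiveRoot.of_map_of_injective (f := ι)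
    (by rw [← RingHom.comp_apply, hc.comp, hc']; exact hω) ι.injective
  exact ⟨_, h.isUnit_unit hl.ne_zero⟩

end Fermat.Agent.LowerSq.Null
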