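/-
Points of the special fibre as places of the reduced curve, and the orders of a divisor with local
equations along the branches.
-/
import Fermat.Agent.LowerSq.Null.GeomExists

set_option autoImplicit false
set_option linter.unusedSectionVars false

noncomputable section

open AlgebraicCurve

namespace Fermat.Agent.LowerSq.Null

open Carayol

variable {W F k C : Type} [CommRing W] [IsDomain W] [IsDiscreteValuationRing W] [Field F]
  [Algebra W F] [Field k] [Field C] [Algebra k C] {M : Model W F k C}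
  {L E : Type} [Field L] [Field E] [Algebra L E] {ι : F →+* E} {X : Pts M L ι}
  {c : Fin 2} {y : Ideal (M.R c)} {i : Fin 3}

/-! ### Units near a point -/

theorem ord_eq_zero_of_notMem (hon : M.OnBranch c y i) {r : M.R c} (hr : r ∉ y) :
    (r : F) ≠ 0 ∧ M.ord i (r : F) = 0 :=
  M.ord_eq_zero_of_red (M.mem_of_mem r.2 i) (M.red_ne_zero_of_notMem hon hr)

theorem coe_ne_zero_of_notMem {r : M.R c} (hr : r ∉ y) : (r : F) ≠ 0 := fun e =>
  hr (by rw [show r = 0 from Subtype.ext e]; exact zero_mem _)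

theorem ord_ι_mul (P : Place L E) {a b : F} (ha : a ≠ 0) (hb : b ≠ 0) :
    P.ord (ι (a * b)) = P.ord (ι a) + P.ord (ι b) := by
  rw [map_mul, P.ord_mul ((map_ne_zero ι).mpr ha) ((map_ne_zero ι).mpr hb)]

theorem ord_ι_inv (P : Place L E) (a : F) : P.ord (ι a⁻¹) = -P.ord (ι a) := by
  rw [map_inv₀, P.ord_inv]

/-- A function without zeros or poles near a point is a ratio of units there. -/
theorem exists_unit_ratio (hy : Std M c y) {f : F} (hf : f ≠ 0)
    (hord : ∀ j, M.OnBranch c y j → M.ord j f = 0) (hP : ∀ P, X.Cen c y P → P.ord (ι f) = 0) :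
    ∃ a r : M.R c, a ∉ y ∧ r ∉ y ∧ f * (r : F) = (a : F) := by
  obtain ⟨r, hr, ha⟩ := X.regular c y f hy hf (fun j hj => (hord j hj).ge)
    fun P hPc => (hP P hPc).ge
  obtain ⟨r', hr', ha'⟩ := X.regular c y f⁻¹ hy (inv_ne_zero hf)
    (fun j hj => by rw [M.ord_inv hf, hord j hj, neg_zero])
    fun P hPc => by rw [ord_ι_inv, hP P hPc, neg_zero]
  refine ⟨⟨_, ha⟩, r, fun hm => ?_, hr, rfl⟩
  refine (hy.1.isPrime.mem_or_mem (x := r) (y := r') ?_).elim hr hr'
  rw [show r * r' = (⟨_, ha⟩ : M.R c) * ⟨_, ha'⟩ from Subtype.ext (by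
    show (r : F) * r' = f * r * (f⁻¹ * r')
    field_simp)]
  exact y.mul_mem_right _ hm

/-- The residue of a ratio of units. -/
theorem ord_red_ratio {O : Place k C} (hon : M.OnBranch c y i) (hO : BranchPt M c y i O) {f : F}
    {a r : M.R c} (ha : a ∉ y) (hr : r ∉ y) (h : f * (r : F) = (a : F)) :
    f ∈ M.Br.V i ∧ M.red i f ≠ 0 ∧ O.ord (M.red i f) = 0 := by
  obtain ⟨ha0, hao⟩ := ord_eq_zero_of_notMem hon ha
  obtain ⟨hr0, hro⟩ := ord_eq_zero_of_notMem hon hr
  have hf0 : f ≠ 0 := fun e => ha0 (by rw [← h, e, zero_mul])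
  have hfo : M.ord i f = 0 := by
    have := M.ord_mul i f r hf0 hr0
    rw [h, hao, hro] at this
    omega
  have hf1 := M.red_ne_zero_of_ord hf0 hfo
  have hm := M.mem_of_ord_nonneg hfo.ge
  refine ⟨hm, hf1, ?_⟩
  have := congrArg (fun z => O.ord (M.red i z)) h
  rw [M.red_mul hm (M.mem_of_mem r.2 i), O.ord_mul hf1 (M.red_ne_zero_of_notMem hon hr),
    (hO a).2 ha, (hO r).2 hr, add_zero] at this
  exact this

/-! ### Local equations -/

theorem IsEq.one : IsEq X (0 : Divisor L E) c y 1 :=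
  ⟨one_ne_zero, fun j _ => M.ord_one j, fun P _ => by rw [map_one, P.ord_one, Finsupp.zero_apply]⟩

theorem IsEq.mul {D D' : Divisor L E} {g g' : F} (h : IsEq X D c y g) (h' : IsEq X D' c y g') :
    IsEq X (D + D') c y (g * g') :=
  ⟨mul_ne_zero h.1 h'.1, fun j hj => by
    rw [M.ord_mul j _ _ h.1 h'.1, h.2 j hj, h'.2 j hj, add_zero],
    fun P hP => by rw [Finsupp.add_apply, h.3 P hP, h'.3 P hP, ord_ι_mul P h.1 h'.1]⟩

theorem IsEq.inv {D : Divisor L E} {g : F} (h : IsEq X D c y g) : IsEq X (-D) c y g⁻¹ :=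
  ⟨inv_ne_zero h.1, fun j hj => by rw [M.ord_inv h.1, h.2 j hj, neg_zero],
    fun P hP => by rw [Finsupp.neg_apply, h.3 P hP, ord_ι_inv]⟩

theorem IsEq.zpow {D : Divisor L E} {g : F} (h : IsEq X D c y g) (n : ℤ) :
    IsEq X (n • D) c y (g ^ n) :=
  ⟨zpow_ne_zero _ h.1, fun j hj => by rw [M.ord_zpow h.1, h.2 j hj, mul_zero],
    fun P hP => by rw [Finsupp.smul_apply, h.3 P hP, map_zpow₀, P.ord_zpow, smul_eq_mul]⟩

theorem IsEq.congr {D D' : Divisor L E} {g : F} (h : IsEq X D c y g)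
    (hD : ∀ P, X.Cen c y P → D' P = D P) : IsEq X D' c y g :=
  ⟨h.1, h.2, fun P hP => (hD P hP).trans (h.3 P hP)⟩

theorem HasEqs.add {D D' : Divisor L E} (h : HasEqs X D) (h' : HasEqs X D') :
    HasEqs X (D + D') := fun c y hy => by
  obtain ⟨g, hg⟩ := h c y hy
  obtain ⟨g', hg'⟩ := h' c y hy
  exact ⟨_, hg.mul hg'⟩

theorem hasEqs_zero : HasEqs X (0 : Divisor L E) := fun _ _ _ => ⟨1, IsEq.one⟩

theorem HasEqs.neg {D : Divisor L E} (h : HasEqs X D) : HasEqs X (-D) := fun c y hy => by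
  obtain ⟨g, hg⟩ := h c y hy
  exact ⟨_, hg.inv⟩

theorem HasEqs.zsmul {D : Divisor L E} (h : HasEqs X D) (n : ℤ) : HasEqs X (n • D) :=
  fun c y hy => by
    obtain ⟨g, hg⟩ := h c y hy
    exact ⟨_, hg.zpow n⟩

/-! ### The place of a point on a branch -/

variable [FF.IsFunctionField k C] {O : Place k C}

theorem notMem_of_ord (hy : Std M c y) (hon : M.OnBranch c y i) (hO : BranchPt M c y i O)
    {r : M.R c} (h0 : M.red i (r : F) ≠ 0) (h : O.ord (M.red i (r : F)) = 0) : r ∉ y := fun hr => by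
  have := (ord_pos_or_zero_of_mem M hy.1.ne_top hon hO hr).resolve_left h0
  omega

/-- A function regular at the place of the point is the residue of a ratio regular at the point. -/
theorem exists_lift (hy : Std M c y) (hon : M.OnBranch c y i) (hO : BranchPt M c y i O) {z : C}
    (hz : z ≠ 0) (h : 0 ≤ O.ord z) :
    ∃ a r : M.R c, r ∉ y ∧ z * M.red i (r : F) = M.red i (a : F) := by
  have := hy.1
  obtain ⟨V, -, hV⟩ := M.branchValue c y hy.2.1 i hon
  have hrep : ∀ w ∈ V, ∃ a r : M.R c, r ∉ y ∧ w * M.red i (r : F) = M.red i (a : F) := fun w hw => by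
    obtain ⟨a, r, hr, he⟩ := hV w hw
    exact ⟨a, r, hr, by
      rw [Model.red_of_mem M (M.mem_of_mem a.2 i), Model.red_of_mem M (M.mem_of_mem r.2 i)]
      exact he _ _⟩
  rcases V.mem_or_inv_mem z with hz' | hz'
  · exact hrep z hz'
  obtain ⟨a, r, hr, he⟩ := hrep _ hz'
  have hrne := M.red_ne_zero_of_notMem hon hr
  have hane : M.red i (a : F) ≠ 0 := he ▸ mul_ne_zero (inv_ne_zero hz) hrne
  have haord : 0 ≤ O.ord (M.red i (a : F)) := (FF.mem_iff_ord_nonneg O).mp (hO a).1
  have he' := congrArg O.ord he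
  rw [O.ord_mul (inv_ne_zero hz) hrne, O.ord_inv, (hO r).2 hr, add_zero] at he'
  refine ⟨r, a, notMem_of_ord hy hon hO hane (by omega), ?_⟩
  rw [← he, ← mul_assoc, mul_inv_cancel₀ hz, one_mul]

/-- A place is at one point of the branch in each chart. -/
theorem branchPt_unique {y' : Ideal (M.R c)} (hy : Std M c y) (hy' : Std M c y')
    (hon : M.OnBranch c y i) (hon' : M.OnBranch c y' i) (hO : BranchPt M c y i O)
    (hO' : BranchPt M c y' i O) : y = y' := by
  refine hy.1.eq_of_le hy'.1.ne_top fun r hr => ?_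
  by_contra hr'
  rcases ord_pos_or_zero_of_mem M hy.1.ne_top hon hO hr with h | h
  · exact hr' (hon' _ (M.mem_of_mem r.2 i) (by rw [← Model.red_of_mem M, h]))
  · rw [(hO' r).2 hr'] at h
    exact lt_irrefl _ h

/-- A point of a branch is one place. -/
theorem branchPt_place_unique {O' : Place k C} (hy : Std M c y) (hon : M.OnBranch c y i)
    (hO : BranchPt M c y i O) (hO' : BranchPt M c y i O') : O = O' := by
  refine FF.ext_of_le O fun z hz => ?_
  rcases eq_or_ne z 0 with rfl | hz0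
  · exact zero_mem _
  obtain ⟨a, r, hr, he⟩ := exists_lift hy hon hO hz0 ((FF.mem_iff_ord_nonneg O).mp hz)
  have hrne := M.red_ne_zero_of_notMem hon hr
  have he' := congrArg O'.ord he
  rw [O'.ord_mul hz0 hrne, (hO' r).2 hr, add_zero] at he'
  rw [FF.mem_iff_ord_nonneg O', he']
  exact (FF.mem_iff_ord_nonneg O').mp (hO' a).1

/-- Off the supersingular points only one branch passes through a point. -/
theorem eq_of_onBranch (hy : Std M c y) (hall : ¬ AllBranches M c y) {j : Fin 3}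
    (hi : M.OnBranch c y i) (hj : M.OnBranch c y j) : i = j := by
  have := hy.1
  rcases M.dichotomy c y hy.2.1 with ⟨l, hl⟩ | ⟨h, -⟩
  · have key : ∀ i', M.OnBranch c y i' → i' = l := fun i' hi' => by
      by_contra hne
      obtain ⟨a, ha, ha0, hay⟩ := hl i' hne
      exact hay (hi' a ha ha0)
    rw [key i hi, key j hj]
  · exact absurd h hall

/-- At a supersingular point all branches see the same place. -/
theorem branchPt_congr (hy : Std M c y) (hall : AllBranches M c y) (hO : BranchPt M c y i O)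
    (j : Fin 3) : BranchPt M c y j O := by
  have := hy.1
  rcases M.dichotomy c y hy.2.1 with ⟨l, hl⟩ | ⟨-, hcong⟩
  · obtain ⟨a, ha, ha0, hay⟩ := hl (l + 1) (by simp)
    exact absurd (hall _ a ha ha0) hay
  intro r
  have h1 : (1 : M.R c) ∉ y := fun h => hy.1.ne_top ((Ideal.eq_top_iff_one _).mpr h)
  obtain ⟨a', r', hr', hmem, hres⟩ := hcong j i r 1 h1 (M.mem_of_mem r.2 j) (M.mem_of_mem (1 : M.R c).2 j)
  have he : M.red j (r : F) * M.red i (r' : F) = M.red i (a' : F) := by
    rw [Model.red_of_mem M (M.mem_of_mem r.2 j), Model.red_of_mem M (M.mem_of_mem r'.2 i),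
      Model.red_of_mem M (M.mem_of_mem a'.2 i), hres (M.mem_of_mem a'.2 i) (M.mem_of_mem r'.2 i),
      ← Model.red_of_mem M (M.mem_of_mem (1 : M.R c).2 j), show ((1 : M.R c) : F) = 1 from rfl,
      M.red_one, mul_one]
  have hrne := M.red_ne_zero_of_notMem (hall i) hr'
  rcases eq_or_ne (M.red j (r : F)) 0 with h0 | h0
  · exact ⟨h0 ▸ zero_mem _, fun hr => absurd h0 (M.red_ne_zero_of_notMem (hall j) hr)⟩
  have he' := congrArg O.ord he
  rw [O.ord_mul h0 hrne, (hO r').2 hr', add_zero] at he'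
  refine ⟨?_, fun hr => ?_⟩
  · rw [FF.mem_iff_ord_nonneg O, he']
    exact (FF.mem_iff_ord_nonneg O).mp (hO a').1
  · rw [he']
    refine (hO a').2 fun ha => ?_
    have : r * r' ∈ y := by simpa using add_mem hmem ha
    exact (hy.1.isPrime.mem_or_mem this).elim hr hr'

/-- Two local equations have the same order at the place of the point. -/
theorem IsEq.ord_red_eq {D : Divisor L E} {g g' : F} (h : IsEq X D c y g) (h' : IsEq X D c y g')
    (hy : Std M c y) (hon : M.OnBranch c y i) (hO : BranchPt M c y i O) :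
    O.ord (M.red i g') = O.ord (M.red i g) := by
  have hq := IsEq.mul h' h.inv
  obtain ⟨a, r, ha, hr, he⟩ := exists_unit_ratio hy hq.1 hq.2 fun P hP => by
    have := hq.3 P hP
    rw [add_neg_cancel, Finsupp.zero_apply] at this
    exact this.symm
  obtain ⟨-, -, h0⟩ := ord_red_ratio hon hO ha hr he
  have hi : M.ord i g⁻¹ = 0 := by rw [M.ord_inv h.1, h.2 i hon, neg_zero]
  have hm := M.mem_of_ord_nonneg (a := g') (h'.2 i hon).ge
  have hm' := M.mem_of_ord_nonneg hi.ge
  rw [M.red_mul hm hm', O.ord_mul (M.red_ne_zero_of_ord h'.1 (h'.2 i hon))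
    (M.red_ne_zero_of_ord (inv_ne_zero h.1) hi)] at h0
  have h1 := M.red_mul (M.mem_of_ord_nonneg (a := g) (h.2 i hon).ge) hm'
  rw [mul_inv_cancel₀ h.1, M.red_one] at h1
  rw [eq_inv_of_mul_eq_one_right h1.symm, O.ord_inv] at h0
  omega

variable (X) in
/-- `n` is the order of `D` at the place `O` of the branch `i`. -/
def HasBOrd (D : Divisor L E) (i : Fin 3) (O : Place k C) (n : ℤ) : Prop :=
  ∃ c y g, Std M c y ∧ M.OnBranch c y i ∧ BranchPt M c y i O ∧ IsEq X D c y g ∧
    O.ord (M.red i g) = n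

variable (X) in
open Classical in
/-- The order of a divisor at a place of a branch. -/
def bord (D : Divisor L E) (i : Fin 3) (O : Place k C) : ℤ :=
  if h : ∃ n, HasBOrd X D i O n then h.choose else 0

theorem bord_eq (G : Geom M) {D : Divisor L E} {g : F} (hy : Std M c y) (hon : M.OnBranch c y i)
    (hO : BranchPt M c y i O) (hg : IsEq X D c y g) : bord X D i O = O.ord (M.red i g) := by
  have hex : ∃ n, HasBOrd X D i O n := ⟨_, c, y, g, hy, hon, hO, hg, rfl⟩
  rw [bord, dif_pos hex]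
  obtain ⟨c', y', g', hy', hon', hO', hg', he⟩ := hex.choose_spec
  obtain rfl := G.same_chart i i O c c' y y' hy hy' hon hon' hO hO'
  obtain rfl := branchPt_unique hy hy' hon hon' hO hO'
  rw [← he, IsEq.ord_red_eq hg hg' hy hon hO]

theorem bord_add (G : Geom M) {D D' : Divisor L E} (h : HasEqs X D) (h' : HasEqs X D') (i : Fin 3)
    (O : Place k C) : bord X (D + D') i O = bord X D i O + bord X D' i O := by
  obtain ⟨c, y, hy, hon, hO⟩ := G.cover i O
  obtain ⟨g, hg⟩ := h c y hy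
  obtain ⟨g', hg'⟩ := h' c y hy
  rw [bord_eq G hy hon hO hg, bord_eq G hy hon hO hg', bord_eq G hy hon hO (hg.mul hg'),
    M.red_mul (M.mem_of_ord_nonneg (hg.2 i hon).ge) (M.mem_of_ord_nonneg (hg'.2 i hon).ge),
    O.ord_mul (M.red_ne_zero_of_ord hg.1 (hg.2 i hon)) (M.red_ne_zero_of_ord hg'.1 (hg'.2 i hon))]

theorem bord_zero (G : Geom M) (i : Fin 3) (O : Place k C) :
    bord X (0 : Divisor L E) i O = 0 := by
  obtain ⟨c, y, hy, hon, hO⟩ := G.cover i O
  rw [bord_eq G hy hon hO IsEq.one, M.red_one, O.ord_one]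

theorem bord_neg (G : Geom M) {D : Divisor L E} (h : HasEqs X D) (i : Fin 3) (O : Place k C) :
    bord X (-D) i O = -bord X D i O := by
  have := bord_add G h h.neg i O
  rw [add_neg_cancel, bord_zero G] at this
  omega

theorem bord_sub (G : Geom M) {D D' : Divisor L E} (h : HasEqs X D) (h' : HasEqs X D') (i : Fin 3)
    (O : Place k C) : bord X (D - D') i O = bord X D i O - bord X D' i O := by
  rw [sub_eq_add_neg, bord_add G h h'.neg, bord_neg G h', sub_eq_add_neg]

theorem bord_zsmul (G : Geom M) {D : Divisor L E} (h : HasEqs X D) (n : ℤ) (i : Fin 3)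
    (O : Place k C) : bord X (n • D) i O = n * bord X D i O := by
  induction n using Int.induction_on with
  | zero => rw [zero_zsmul, bord_zero G, zero_mul]
  | succ n ih => rw [add_zsmul, one_zsmul, bord_add G (h.zsmul _) h, ih]; ring
  | pred n ih => rw [sub_zsmul, one_zsmul, ← sub_eq_add_neg, bord_sub G (h.zsmul _) h, ih]; ring

/-! ### Divisors away from the supersingular points -/

variable (X) in
/-- Nothing of `D` specialises to a supersingular point. -/
def VanishSS (D : Divisor L E) : Prop :=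
  ∀ c y, Std M c y → AllBranches M c y → ∀ P, X.Cen c y P → D P = 0

theorem VanishSS.add {D D' : Divisor L E} (h : VanishSS X D) (h' : VanishSS X D') :
    VanishSS X (D + D') := fun c y hy ha P hP => by
  rw [Finsupp.add_apply, h c y hy ha P hP, h' c y hy ha P hP, add_zero]

theorem VanishSS.neg {D : Divisor L E} (h : VanishSS X D) : VanishSS X (-D) :=
  fun c y hy ha P hP => by rw [Finsupp.neg_apply, h c y hy ha P hP, neg_zero]

theorem VanishSS.sub {D D' : Divisor L E} (h : VanishSS X D) (h' : VanishSS X D') :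
    VanishSS X (D - D') := by
  rw [sub_eq_add_neg]; exact h.add h'.neg

theorem VanishSS.zsmul {D : Divisor L E} (h : VanishSS X D) (n : ℤ) : VanishSS X (n • D) :=
  fun c y hy ha P hP => by rw [Finsupp.smul_apply, h c y hy ha P hP, smul_zero]

theorem VanishSS.isEq {D : Divisor L E} (h : VanishSS X D) (hy : Std M c y)
    (ha : AllBranches M c y) : IsEq X D c y 1 :=
  ⟨one_ne_zero, fun j _ => M.ord_one j,
    fun P hP => by rw [h c y hy ha P hP, map_one, P.ord_one]⟩

theorem bord_eq_zero_of_ss (G : Geom M) {D : Divisor L E} (h : VanishSS X D) (hy : Std M c y)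
    (ha : AllBranches M c y) (hO : BranchPt M c y i O) (j : Fin 3) : bord X D j O = 0 := by
  rw [bord_eq G hy (ha j) (branchPt_congr hy ha hO j) (h.isEq hy ha), M.red_one, O.ord_one]

/-- **Criterion.** A divisor away from the supersingular points without order on the branches is
null. -/
theorem isNull_of_bord (G : Geom M) {D : Divisor L E} (hD : HasEqs X D) (hss : VanishSS X D)
    (h : ∀ i O, bord X D i O = 0) : IsNull X D := by
  intro c y hy
  by_cases hall : AllBranches M c y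
  · exact ⟨1, hss.isEq hy hall, fun j _ => M.red_one j⟩
  have := hy.1
  obtain ⟨i, hi⟩ := M.exists_branch_le c y hy.2.1
  obtain ⟨O, hO⟩ := G.exists_branchPt i c y hy hi
  obtain ⟨g, hg⟩ := hD c y hy
  have hz := M.red_ne_zero_of_ord hg.1 (hg.2 i hi)
  have hz0 : O.ord (M.red i g) = 0 := by rw [← bord_eq G hy hi hO hg, h]
  obtain ⟨a, r, hr, he⟩ := exists_lift hy hi hO hz hz0.ge
  have hane : M.red i (a : F) ≠ 0 := he ▸ mul_ne_zero hz (M.red_ne_zero_of_notMem hi hr)
  have ha : a ∉ y := by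
    refine notMem_of_ord hy hi hO hane ?_
    rw [← he, O.ord_mul hz (M.red_ne_zero_of_notMem hi hr), hz0, (hO r).2 hr, add_zero]
  obtain ⟨ha0, hao⟩ := ord_eq_zero_of_notMem hi ha
  obtain ⟨hr0, hro⟩ := ord_eq_zero_of_notMem hi hr
  have hord : M.ord i (g * (r : F) / (a : F)) = 0 := by
    rw [M.ord_div (mul_ne_zero hg.1 hr0) ha0, M.ord_mul i _ _ hg.1 hr0, hg.2 i hi, hro, hao]
    omega
  refine ⟨g * (r : F) / (a : F), ⟨div_ne_zero (mul_ne_zero hg.1 hr0) ha0, fun j hj => ?_,
    fun P hP => ?_⟩, fun j hj => ?_⟩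
  · rw [← eq_of_onBranch hy hall hi hj]; exact hord
  · rw [hg.3 P hP, div_eq_mul_inv, ord_ι_mul P (mul_ne_zero hg.1 hr0) (inv_ne_zero ha0),
      ord_ι_mul P hg.1 hr0, ord_ι_inv, (X.mem c y P hy hP r).2 hr, (X.mem c y P hy hP a).2 ha]
    omega
  · obtain rfl := eq_of_onBranch hy hall hi hj
    have hm := M.red_mul (M.mem_of_ord_nonneg hord.ge) (M.mem_of_mem a.2 i)
    rw [div_mul_cancel₀ _ ha0,
      M.red_mul (M.mem_of_ord_nonneg (hg.2 i hi).ge) (M.mem_of_mem r.2 i), he] at hm
    exact mul_right_cancel₀ hane (hm.symm.trans (one_mul _).symm)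

/-- Only finitely many places of a branch carry a nonzero order. -/
theorem finite_bord_ne_zero (G : Geom M) {D : Divisor L E} (hD : HasEqs X D) (i : Fin 3) :
    {O : Place k C | bord X D i O ≠ 0}.Finite := by
  classical
  choose c₀ y₀ hy₀ hP₀ using X.exists_cen
  choose cp yp hyp honp hOp using G.cover i
  let pt : Place k C → (Σ c, Ideal (M.R c)) := fun O => ⟨cp O, yp O⟩
  refine (D.support.finite_toSet.image fun P => (⟨c₀ P, y₀ P⟩ : Σ c, Ideal (M.R c))).subset ?_
    |>.of_finite_image (f := pt) ?_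
  · rintro _ ⟨O, hO, rfl⟩
    obtain ⟨g, hg⟩ := hD _ _ (hyp O)
    by_contra hnot
    refine hO ?_
    rw [bord_eq G (hyp O) (honp O) (hOp O) hg]
    obtain ⟨a, r, ha, hr, he⟩ := exists_unit_ratio (hyp O) hg.1 hg.2 fun P hP => by
      by_contra hne
      refine hnot ⟨P, Finsupp.mem_support_iff.mpr (by rw [hg.3 P hP]; exact hne), ?_⟩
      exact X.eq_of_cen _ _ _ _ P (hy₀ P) (hyp O) (hP₀ P) hP
    exact (ord_red_ratio (honp O) (hOp O) ha hr he).2.2
  · intro O _ O' _ he
    have key : ∀ p q : Σ c, Ideal (M.R c), p = q → Std M p.1 p.2 → M.OnBranch p.1 p.2 i →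
        BranchPt M p.1 p.2 i O → BranchPt M q.1 q.2 i O' → O = O' := by
      rintro p q rfl h1 h2 h3 h4
      exact branchPt_place_unique h1 h2 h3 h4
    exact key (pt O) (pt O') he (hyp O) (honp O) (hOp O) (hOp O')

/-- A divisor of order one at one place of a branch. -/
theorem exists_point_divisor [HasPrincipalDivisors L E] (G : Geom M) (hy : Std M c y)
    (hall : ¬ AllBranches M c y) (hon : M.OnBranch c y i) (hO : BranchPt M c y i O) :
    ∃ U : Divisor L E, HasEqs X U ∧ VanishSS X U ∧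
      ∀ j Q, bord X U j Q = open Classical in if j = i ∧ Q = O then 1 else 0 := by
  classical
  have := hy.1
  obtain ⟨t, ht0, ht1⟩ := FF.exists_ord_eq_one O
  obtain ⟨a, r, hr, he⟩ := exists_lift hy hon hO ht0 (by rw [ht1]; exact zero_le_one)
  have hane : M.red i (a : F) ≠ 0 := he ▸ mul_ne_zero ht0 (M.red_ne_zero_of_notMem hon hr)
  obtain ⟨ha0, hao⟩ := M.ord_eq_zero_of_red (M.mem_of_mem a.2 i) hane
  obtain ⟨hr0, hro⟩ := ord_eq_zero_of_notMem hon hr
  set g : F := (a : F) / (r : F) with hgdef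
  have hg0 : g ≠ 0 := div_ne_zero ha0 hr0
  have hgo : M.ord i g = 0 := by rw [hgdef, M.ord_div ha0 hr0, hao, hro, sub_zero]
  have hgt : M.red i g = t := by
    have h1 := M.red_mul (M.mem_of_ord_nonneg hgo.ge) (M.mem_of_mem r.2 i)
    rw [hgdef, div_mul_cancel₀ _ hr0, ← he] at h1
    exact (mul_right_cancel₀ (M.red_ne_zero_of_notMem hon hr) h1).symm
  obtain ⟨D0, hD0, -⟩ :=
    HasPrincipalDivisors.exists_divisor (K := L) (ι g) ((map_ne_zero ι).mpr hg0)
  let U : Divisor L E := Finsupp.filter (fun P => X.Cen c y P) D0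
  have hUy : IsEq X U c y g := ⟨hg0, fun j hj => by
    rw [← eq_of_onBranch hy hall hon hj]; exact hgo, fun P hP => by
    rw [← hD0 P]; exact Finsupp.filter_apply_pos _ _ hP⟩
  have hUz : ∀ c' y', Std M c' y' → (⟨c', y'⟩ : Σ c, Ideal (M.R c)) ≠ ⟨c, y⟩ →
      ∀ P, X.Cen c' y' P → U P = 0 := fun c' y' hy' hne P hP =>
    Finsupp.filter_apply_neg _ _ fun hP' => hne (X.eq_of_cen _ _ _ _ P hy' hy hP hP')
  have hU1 : ∀ c' y', Std M c' y' → (⟨c', y'⟩ : Σ c, Ideal (M.R c)) ≠ ⟨c, y⟩ →
      IsEq X U c' y' 1 := fun c' y' hy' hne =>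
    IsEq.one.congr fun P hP => by rw [hUz c' y' hy' hne P hP, Finsupp.zero_apply]
  have hU : HasEqs X U := fun c' y' hy' => by
    by_cases he' : (⟨c', y'⟩ : Σ c, Ideal (M.R c)) = ⟨c, y⟩
    · cases he'; exact ⟨g, hUy⟩
    · exact ⟨1, hU1 c' y' hy' he'⟩
  refine ⟨U, hU, fun c' y' hy' ha' P hP => hUz c' y' hy'
    (fun he' => by cases he'; exact hall ha') P hP, fun j Q => ?_⟩
  split_ifs with h
  · obtain ⟨rfl, rfl⟩ := h
    rw [bord_eq G hy hon hO hUy, hgt, ht1]
  · obtain ⟨c', y', hy', hon', hQ⟩ := G.cover j Q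
    have hne : (⟨c', y'⟩ : Σ c, Ideal (M.R c)) ≠ ⟨c, y⟩ := fun he' => by
      cases he'
      obtain rfl := eq_of_onBranch hy' hall hon' hon
      exact h ⟨rfl, branchPt_place_unique hy' hon' hQ hO⟩
    rw [bord_eq G hy' hon' hQ (hU1 c' y' hy' hne), M.red_one, Q.ord_one]

/-- Divisors with prescribed orders away from the supersingular places. -/
theorem exists_realise [HasPrincipalDivisors L E] (G : Geom M) (i : Fin 3) {e : Place k C → ℤ}
    (hfin : {O | e O ≠ 0}.Finite)
    (hss : ∀ O c y, Std M c y → AllBranches M c y → BranchPt M c y i O → e O = 0) :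
    ∃ Y : Divisor L E, HasEqs X Y ∧ VanishSS X Y ∧
      ∀ j Q, bord X Y j Q = if j = i then e Q else 0 := by
  classical
  suffices ∀ S : Finset (Place k C), (∀ O ∈ S, e O ≠ 0) → ∃ Y : Divisor L E, HasEqs X Y ∧
      VanishSS X Y ∧ ∀ j Q, bord X Y j Q = if j = i ∧ Q ∈ S then e Q else 0 by
    obtain ⟨Y, h1, h2, h3⟩ := this hfin.toFinset fun O hO => hfin.mem_toFinset.mp hO
    refine ⟨Y, h1, h2, fun j Q => (h3 j Q).trans ?_⟩
    by_cases hQ : e Q = 0 <;> by_cases hj : j = i <;> simp [hQ, hj, hfin.mem_toFinset]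
  intro S
  induction S using Finset.induction_on with
  | empty =>
    exact fun _ => ⟨0, hasEqs_zero, fun _ _ _ _ _ _ => rfl, fun j Q => by simp [bord_zero G]⟩
  | insert O S hO ih =>
    intro hS
    obtain ⟨Y, h1, h2, h3⟩ := ih fun O' hO' => hS O' (Finset.mem_insert_of_mem hO')
    obtain ⟨c, y, hy, hon, hBP⟩ := G.cover i O
    obtain ⟨U, u1, u2, u3⟩ := exists_point_divisor (X := X) G hy
      (fun ha => hS O (Finset.mem_insert_self O S) (hss O c y hy ha hBP)) hon hBP
    refine ⟨Y + e O • U, h1.add (u1.zsmul _), h2.add (u2.zsmul _), fun j Q => ?_⟩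
    rw [bord_add G h1 (u1.zsmul _), bord_zsmul G u1, h3, u3]
    by_cases hj : j = i <;> by_cases hQ : Q = O <;>
      simp [hj, hQ, hO]

end Fermat.Agent.LowerSq.Null
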