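/-
Algebra in one chart: prime avoidance with a coset, elements adapted to the branches, the local
ring of a branch.
-/
import Fermat.Agent.LowerSq.Null.Defs

set_option autoImplicit false
set_option linter.style.haveILetI false
set_option linter.unusedSectionVars false

noncomputable section

open AlgebraicCurve

namespace Fermat.Agent.LowerSq.Null

open Carayol

/-- Prime avoidance in a coset of an ideal, for incomparable primes. -/
theorem exists_add_notMem {R : Type*} [CommRing R] (Q : Finset (Ideal R))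
    (hQ : ∀ P ∈ Q, P.IsPrime) (hinc : ∀ P ∈ Q, ∀ P' ∈ Q, P ≠ P' → ¬ P' ≤ P)
    (J : Ideal R) (hJ : ∀ P ∈ Q, ¬ J ≤ P) (b : R) :
    ∃ d ∈ J, ∀ P ∈ Q, b + d ∉ P := by
  classical
  have hex : ∀ P ∈ Q, ∃ e : R, e ∈ J ∧ e ∉ P ∧ ∀ P' ∈ Q, P' ≠ P → e ∈ P' := by
    intro P hP
    obtain ⟨a, haJ, haP⟩ := SetLike.not_le_iff_exists.mp (hJ P hP)
    have hw : ∀ P' : Ideal R, ∃ w : R, P' ∈ Q → P' ≠ P → w ∈ P' ∧ w ∉ P := fun P' => by
      by_cases h : P' ∈ Q ∧ P' ≠ P
      · obtain ⟨w, h1, h2⟩ := SetLike.not_le_iff_exists.mp (hinc P hP P' h.1 (Ne.symm h.2))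
        exact ⟨w, fun _ _ => ⟨h1, h2⟩⟩
      · exact ⟨0, fun h1 h2 => absurd ⟨h1, h2⟩ h⟩
    choose w hw using hw
    refine ⟨a * ∏ P' ∈ Q.erase P, w P', J.mul_mem_right _ haJ, fun h => ?_, fun P' hP' hne => ?_⟩
    · rcases (hQ P hP).mem_or_mem h with h | h
      · exact haP h
      · obtain ⟨P', hP', h'⟩ := (hQ P hP).prod_mem_iff.mp h
        rw [Finset.mem_erase] at hP'
        exact (hw P' hP'.2 hP'.1).2 h'
    · exact P'.mul_mem_left _ (P'.mem_of_dvd
        (Finset.dvd_prod_of_mem w (Finset.mem_erase.mpr ⟨hne, hP'⟩)) (hw P' hP' hne).1)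
  choose e he using hex
  refine ⟨∑ P ∈ Q.attach.filter (fun P => b ∈ P.1), e P.1 P.2,
    Ideal.sum_mem _ fun P _ => (he P.1 P.2).1, fun P hP => ?_⟩
  by_cases hb : b ∈ P
  · rw [P.add_mem_iff_right hb, ← Finset.add_sum_erase _ _
      (show (⟨P, hP⟩ : {x // x ∈ Q}) ∈ _ from
        Finset.mem_filter.mpr ⟨Finset.mem_attach _ _, hb⟩)]
    intro h
    refine (he P hP).2.1 ((P.add_mem_iff_left (Ideal.sum_mem _ fun P' hP' => ?_)).mp h)
    exact (he P'.1 P'.2).2.2 P hP fun h' => (Finset.mem_erase.mp hP').1 (Subtype.ext h'.symm)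
  · intro h
    refine hb ((P.add_mem_iff_left (Ideal.sum_mem _ fun P' hP' => ?_)).mp h)
    exact (he P'.1 P'.2).2.2 P hP fun h' => hb (by rw [h']; exact (Finset.mem_filter.mp hP').2)

variable {W F k C : Type} [CommRing W] [IsDomain W] [IsDiscreteValuationRing W] [Field F]
  [Algebra W F] [Field k] [Field C] [Algebra k C] (M : Model W F k C) (c : Fin 2)

/-- The elements of a chart vanishing on a branch. -/
def branchKer (i : Fin 3) : Ideal (M.R c) := RingHom.ker ((Pi.evalRingHom _ i).comp (M.resAll c))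

theorem mem_branchKer {i : Fin 3} {r : M.R c} : r ∈ branchKer M c i ↔ M.red i (r : F) = 0 := by
  rw [branchKer, RingHom.mem_ker, RingHom.comp_apply, Pi.evalRingHom_apply, M.resAll_apply]

instance isPrime_branchKer (i : Fin 3) : (branchKer M c i).IsPrime := RingHom.ker_isPrime _

variable {M c}

theorem onBranch_iff_le {y : Ideal (M.R c)} {i : Fin 3} :
    M.OnBranch c y i ↔ branchKer M c i ≤ y := by
  refine ⟨fun h r hr => h r (M.mem_of_mem r.2 i) ?_, fun h a ha h0 => h ?_⟩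
  · rw [mem_branchKer] at hr
    rwa [← M.red_of_mem (M.mem_of_mem r.2 i)]
  · rw [mem_branchKer, M.red_of_mem ha]
    exact h0

theorem ord_pos_of_mem_branchKer {i : Fin 3} {r : M.R c} (hr : r ∈ branchKer M c i)
    (h0 : (r : F) ≠ 0) : 0 < M.ord i (r : F) := by
  rw [mem_branchKer, M.red_of_mem (M.mem_of_mem r.2 i)] at hr
  exact (M.res_eq_zero_iff i _ _ h0).mp hr

theorem ord_zero_of_notMem_branchKer {i : Fin 3} {r : M.R c} (hr : r ∉ branchKer M c i) :
    (r : F) ≠ 0 ∧ M.ord i (r : F) = 0 :=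
  M.ord_eq_zero_of_red (M.mem_of_mem r.2 i) fun h => hr ((mem_branchKer M c).mpr h)

theorem exists_coe_mul {hx : ∀ i, M.ord i M.x = 0} {a : F} (ha : a ∈ M.R 0) :
    ∃ b : M.R c, ∀ i, a ≠ 0 → (b : F) ≠ 0 ∧ M.ord i (b : F) = M.ord i a := by
  obtain rfl | rfl : c = 0 ∨ c = 1 := by fin_cases c <;> simp
  · exact ⟨⟨a, ha⟩, fun i h => ⟨h, rfl⟩⟩
  · obtain ⟨N, hN⟩ := M.glue₀ a ha
    refine ⟨⟨_, hN⟩, fun i h => ?_⟩
    have hp : M.x⁻¹ ^ N ≠ 0 := pow_ne_zero _ (inv_ne_zero M.x_ne_zero)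
    refine ⟨mul_ne_zero h hp, ?_⟩
    show M.ord i (a * M.x⁻¹ ^ N) = _
    rw [M.ord_mul i _ _ h hp, M.ord_pow (inv_ne_zero M.x_ne_zero), M.ord_inv M.x_ne_zero, hx]
    simp

variable (M c) in
theorem exists_sep' (hx : ∀ i, M.ord i M.x = 0) (i : Fin 3) :
    ∃ e : M.R c, e ∉ branchKer M c i ∧ (∀ j, j ≠ i → e ∈ branchKer M c j) := by
  obtain ⟨e, heR, he0, hei, hej⟩ := M.exists_sep i
  obtain ⟨b, hb⟩ := exists_coe_mul (hx := hx) (c := c) heR
  refine ⟨b, fun h => ?_, fun j hj => ?_⟩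
  · have := ord_pos_of_mem_branchKer h (hb i he0).1
    rw [(hb i he0).2, hei] at this
    exact lt_irrefl 0 this
  · by_contra h
    have := (ord_zero_of_notMem_branchKer h).2
    rw [(hb j he0).2] at this
    exact (hej j hj).ne' this

variable (M c) in
theorem exists_unif' (hx : ∀ i, M.ord i M.x = 0) (i : Fin 3) :
    ∃ p : M.R c, (p : F) ≠ 0 ∧ M.ord i (p : F) = 1 := by
  obtain ⟨p, hpR, hp0, hp1⟩ := M.exists_unif i
  obtain ⟨b, hb⟩ := exists_coe_mul (hx := hx) (c := c) hpR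
  exact ⟨b, (hb i hp0).1, (hb i hp0).2.trans hp1⟩

theorem eq_of_branchKer_le (hx : ∀ i, M.ord i M.x = 0) {i j : Fin 3}
    (h : branchKer M c i ≤ branchKer M c j) : i = j := by
  by_contra hne
  obtain ⟨e, he, he'⟩ := exists_sep' M c hx j
  exact he (h (he' i hne))

variable (M c) in
/-- **The local ring of a branch**: a function without pole there is a fraction with denominator
not vanishing on it. -/
theorem exists_branch_frac (hx : ∀ i, M.ord i M.x = 0) (i : Fin 3) {f : F} (hf : f ≠ 0)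
    (ho : 0 ≤ M.ord i f) : ∃ r : M.R c, r ∉ branchKer M c i ∧ f * (r : F) ∈ M.R c := by
  classical
  have hqi : M.qR c ∈ branchKer M c i := by
    rw [mem_branchKer, M.red_of_mem (M.mem_of_mem (M.qR c).2 i)]
    exact (M.chart c).res_π i _
  obtain ⟨z, hzmax, hle⟩ := Ideal.exists_le_maximal (branchKer M c i) (Ideal.IsPrime.ne_top inferInstance)
  haveI := hzmax
  have hcompl : z.primeCompl ≤ nonZeroDivisors (M.R c) := z.primeCompl_le_nonZeroDivisors
  let S := Localization.subalgebra.ofField F z.primeCompl hcompl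
  haveI : UniqueFactorizationMonoid S :=
    (IsLocalization.algEquiv z.primeCompl (Localization.AtPrime z) S).toMulEquiv
      |>.uniqueFactorizationMonoid (M.ufm c z (hle hqi))
  have hrep : ∀ x : S, ∃ r s : M.R c, s ∉ z ∧ (x : F) * (s : F) = (r : F) := fun x => by
    obtain ⟨⟨r, s⟩, h⟩ := IsLocalization.surj z.primeCompl x
    exact ⟨r, s, s.2, congrArg Subtype.val h⟩
  have hz : ∀ r : M.R c, r ∉ z → (r : F) ≠ 0 ∧ M.ord i (r : F) = 0 := fun r hr =>
    ord_zero_of_notMem_branchKer fun h => hr (hle h)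
  have hord : ∀ x : S, (x : F) ≠ 0 → 0 ≤ M.ord i (x : F) := fun x hx0 => by
    obtain ⟨r, s, hs, h⟩ := hrep x
    have h1 := (M.mem_iff i _ (show (r : F) ≠ 0 from h ▸ mul_ne_zero hx0 (hz s hs).1)).mp
      (M.mem_of_mem r.2 i)
    rw [← h, M.ord_mul i _ _ hx0 (hz s hs).1, (hz s hs).2, add_zero] at h1
    exact h1
  -- a prime factor of `q` vanishing on the branch
  have hq0 : (algebraMap (M.R c) S (M.qR c) : S) ≠ 0 := fun h =>
    M.q_ne_zero (congrArg Subtype.val h)
  have hq1 : 0 < M.ord i (algebraMap W F (M.q : W)) :=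
    ord_pos_of_mem_branchKer hqi M.q_ne_zero
  obtain ⟨p, hp, hpq, hpi⟩ : ∃ p : S, Prime p ∧ p ∣ algebraMap (M.R c) S (M.qR c) ∧
      0 < M.ord i (p : F) := by
    by_contra hno
    simp only [not_exists, not_and, not_lt] at hno
    have key : ∀ a : S, a ∣ algebraMap (M.R c) S (M.qR c) → a ≠ 0 → M.ord i (a : F) = 0 := by
      intro a had ha
      induction a using UniqueFactorizationMonoid.induction_on_prime with
      | h₁ => exact absurd rfl ha
      | h₂ u hu =>
        obtain ⟨v, hv⟩ := hu.exists_right_inv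
        have huv : (u : F) * (v : F) = 1 := congrArg Subtype.val hv
        have h1 := hord u (fun e => ha (Subtype.ext e))
        have h2 := hord v (fun e => by simp [e] at huv)
        have h3 := M.ord_mul i (u : F) (v : F) (fun e => ha (Subtype.ext e))
          (fun e => by simp [e] at huv)
        rw [huv, M.ord_one] at h3
        omega
      | h₃ a p ha0 hp ih =>
        have hp0 : (p : F) ≠ 0 := fun e => hp.ne_zero (Subtype.ext e)
        show M.ord i ((p : F) * (a : F)) = 0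
        rw [M.ord_mul i _ _ hp0 (fun e => ha0 (Subtype.ext e)),
          ih ((dvd_mul_left a p).trans had) ha0, add_zero]
        exact le_antisymm (hno p hp ((dvd_mul_right p a).trans had)) (hord p hp0)
    exact hq1.ne' (key _ dvd_rfl hq0)
  have hp0 : (p : F) ≠ 0 := fun e => hp.ne_zero (Subtype.ext e)
  let P : Ideal (M.R c) := (Ideal.span {p}).comap (algebraMap (M.R c) S)
  haveI : (Ideal.span {p}).IsPrime := (Ideal.span_singleton_prime hp.ne_zero).mpr hp
  haveI : P.IsPrime := Ideal.IsPrime.comap _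
  have hPi : P ≤ branchKer M c i := by
    intro r hr
    by_contra h
    obtain ⟨hr0, hro⟩ := ord_zero_of_notMem_branchKer h
    obtain ⟨w, hw⟩ := Ideal.mem_span_singleton.mp hr
    have hw' : (r : F) = (p : F) * (w : F) := congrArg Subtype.val hw
    have hw0 : (w : F) ≠ 0 := fun e => hr0 (by rw [hw', e, mul_zero])
    have h1 := hord w hw0
    rw [hw', M.ord_mul i _ _ hp0 hw0] at hro
    omega
  have hPq : M.qR c ∈ P := Ideal.mem_span_singleton.mpr hpq
  obtain ⟨j, hj⟩ := M.exists_branch_le c P hPq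
  obtain rfl : j = i := eq_of_branchKer_le hx ((onBranch_iff_le.mp hj).trans hPi)
  obtain ⟨n, u, v, hu, hv, h⟩ := exists_zpow_prime (K := F) hp hf
  have hun : ∀ w : S, ¬ p ∣ w → (w : F) ≠ 0 ∧ M.ord j (w : F) = 0 := by
    intro w hw
    obtain ⟨r, s, hs, hrs⟩ := hrep w
    have hrP : r ∉ branchKer M c j := fun hr => by
      obtain ⟨d, hd⟩ := Ideal.mem_span_singleton.mp (onBranch_iff_le.mp hj hr)
      have h2 : w * algebraMap (M.R c) S s = algebraMap (M.R c) S r := Subtype.ext hrs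
      exact (hp.dvd_or_dvd (⟨d, h2.trans hd⟩ : p ∣ w * algebraMap (M.R c) S s)).elim hw
        fun h => hp.not_isUnit
          (isUnit_of_dvd_unit h (IsLocalization.map_units S (⟨s, hs⟩ : z.primeCompl)))
    obtain ⟨hr0, hro⟩ := ord_zero_of_notMem_branchKer hrP
    have hw0 : (w : F) ≠ 0 := fun e => hr0 (by rw [← hrs, e, zero_mul])
    rw [← hrs, M.ord_mul j _ _ hw0 (hz s hs).1, (hz s hs).2, add_zero] at hro
    exact ⟨hw0, hro⟩
  obtain ⟨hu0, huo⟩ := hun u hu
  obtain ⟨hv0, hvo⟩ := hun v hv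
  have h1 := M.ord_mul j f v hf hv0
  change f * (v : F) = (p : F) ^ n * (u : F) at h
  rw [h, M.ord_mul j _ _ (zpow_ne_zero _ hp0) hu0, M.ord_zpow hp0, huo, hvo, add_zero, add_zero]
    at h1
  obtain ⟨m, rfl⟩ : ∃ m : ℕ, n = m := ⟨n.toNat, (Int.toNat_of_nonneg (by nlinarith)).symm⟩
  obtain ⟨a, s₁, hs₁, ha⟩ := hrep (p ^ m * u)
  obtain ⟨r₂, s₂, hs₂, hr₂⟩ := hrep v
  have hr₂i : r₂ ∉ branchKer M c j := fun h' => by
    by_cases hr0 : (r₂ : F) = 0
    · rw [← hr₂] at hr0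
      exact mul_ne_zero hv0 (hz s₂ hs₂).1 hr0
    · have := ord_pos_of_mem_branchKer h' hr0
      rw [← hr₂, M.ord_mul j _ _ hv0 (hz s₂ hs₂).1, hvo, (hz s₂ hs₂).2] at this
      exact lt_irrefl 0 this
  refine ⟨r₂ * s₁, fun h' => ((isPrime_branchKer M c j).mem_or_mem h').elim hr₂i
    fun h'' => hs₁ (hle h''), ?_⟩
  have e : f * ((r₂ * s₁ : M.R c) : F) = ((a * s₂ : M.R c) : F) := by
    show f * ((r₂ : F) * (s₁ : F)) = (a : F) * (s₂ : F)
    rw [zpow_natCast] at h
    rw [← hr₂, ← ha]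
    show f * ((v : F) * s₂ * s₁) = (p : F) ^ m * (u : F) * s₁ * s₂
    linear_combination (s₁ : F) * (s₂ : F) * h
  exact e ▸ (a * s₂).2

end Fermat.Agent.LowerSq.Null
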