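/-
Semilocal elements of the function field at finitely many points of one chart.
-/
import Fermat.Agent.LowerSq.Null.SemilocalBasic
import Fermat.Agent.FF.Basic

set_option autoImplicit false
set_option linter.unusedSectionVars false
set_option linter.style.haveILetI false

noncomputable section

open AlgebraicCurve

namespace Fermat.Agent.LowerSq.Null

open Carayol

variable {W F k C : Type} [CommRing W] [IsDomain W] [IsDiscreteValuationRing W] [Field F]
  [Algebra W F] [Field k] [Field C] [Algebra k C] {M : Model W F k C}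
  {L E : Type} [Field L] [Field E] [Algebra L E] {ι : F →+* E} {c : Fin 2}

theorem coe_ne_zero_of_notMem' {y : Ideal (M.R c)} {r : M.R c} (hr : r ∉ y) : (r : F) ≠ 0 :=
  fun e => hr (by rw [show r = 0 from Subtype.ext e]; exact zero_mem _)

theorem ord_eq_zero_of_notMem' {y : Ideal (M.R c)} {i : Fin 3} (hi : M.OnBranch c y i)
    {r : M.R c} (hr : r ∉ y) : M.ord i (r : F) = 0 :=
  (ord_zero_of_notMem_branchKer fun h => hr (onBranch_iff_le.mp hi h)).2

theorem ord_prod {α : Type*} (i : Fin 3) (s : Finset α) (f : α → F) (hf : ∀ a ∈ s, f a ≠ 0) :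
    M.ord i (∏ a ∈ s, f a) = ∑ a ∈ s, M.ord i (f a) := by
  classical
  induction s using Finset.induction_on with
  | empty => rw [Finset.prod_empty, Finset.sum_empty, M.ord_one]
  | @insert a s ha ih =>
    rw [Finset.prod_insert ha, Finset.sum_insert ha,
      M.ord_mul i _ _ (hf a (Finset.mem_insert_self a s))
        (Finset.prod_ne_zero_iff.mpr fun b hb => hf b (Finset.mem_insert_of_mem hb)),
      ih fun b hb => hf b (Finset.mem_insert_of_mem hb)]

/-- Avoiding finitely many points and some branches missing all of them, in a coset. -/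
theorem exists_add_avoid (hx : ∀ i, M.ord i M.x = 0) (S : Finset (Ideal (M.R c)))
    (hS : ∀ y ∈ S, Std M c y) (T : Finset (Fin 3))
    (hT : ∀ i ∈ T, ∀ y ∈ S, ¬ M.OnBranch c y i) (J : Ideal (M.R c))
    (hJS : ∀ y ∈ S, ¬ J ≤ y) (hJT : ∀ i ∈ T, ¬ J ≤ branchKer M c i) (b : M.R c) :
    ∃ d ∈ J, (∀ y ∈ S, b + d ∉ y) ∧ ∀ i ∈ T, b + d ∉ branchKer M c i := by
  classical
  have hmem : ∀ P, P ∈ S ∪ T.image (branchKer M c) ↔ P ∈ S ∨ ∃ i ∈ T, branchKer M c i = P :=
    fun P => by rw [Finset.mem_union, Finset.mem_image]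
  obtain ⟨d, hd, h⟩ := exists_add_notMem (S ∪ T.image (branchKer M c))
    (fun P hP => by
      rcases (hmem P).mp hP with hP | ⟨i, -, rfl⟩
      · exact (hS P hP).1.isPrime
      · infer_instance)
    (fun P hP P' hP' hne hle => by
      rcases (hmem P).mp hP with hP | ⟨i, hi, rfl⟩ <;>
        rcases (hmem P').mp hP' with hP' | ⟨j, hj, rfl⟩
      · exact hne ((hS P' hP').1.eq_of_le (hS P hP).1.ne_top hle).symm
      · exact hT j hj P hP (onBranch_iff_le.mpr hle)
      · exact hT i hi P' hP' (onBranch_iff_le.mpr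
          ((hS P' hP').1.eq_of_le (Ideal.IsPrime.ne_top inferInstance) hle).symm.le)
      · exact hne (by rw [eq_of_branchKer_le hx hle]))
    J
    (fun P hP => by
      rcases (hmem P).mp hP with hP | ⟨i, hi, rfl⟩
      · exact hJS P hP
      · exact hJT i hi) b
  exact ⟨d, hd, fun y hy => h y ((hmem y).mpr (Or.inl hy)),
    fun i hi => h _ ((hmem _).mpr (Or.inr ⟨i, hi, rfl⟩))⟩

/-- An element invertible at finitely many points, of order one on a branch missing them and zero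
on the other such branches. -/
theorem exists_branch_unif (hx : ∀ i, M.ord i M.x = 0) (S : Finset (Ideal (M.R c)))
    (hS : ∀ y ∈ S, Std M c y) (T : Finset (Fin 3))
    (hT : ∀ i ∈ T, ∀ y ∈ S, ¬ M.OnBranch c y i) (i : Fin 3) (hi : i ∈ T) :
    ∃ u : M.R c, (∀ y ∈ S, u ∉ y) ∧ (u : F) ≠ 0 ∧
      ∀ j ∈ T, M.ord j (u : F) = if j = i then 1 else 0 := by
  classical
  obtain ⟨p, hp0, hp1⟩ := exists_unif' M c hx i
  let J : Ideal (M.R c) :=
    { carrier := {r | (r : F) / p ∈ M.Br.V i ∧ M.red i ((r : F) / p) = 0}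
      add_mem' := fun {a b} ha hb => by
        simp only [Set.mem_ofPred_eq, AddMemClass.coe_add, add_div] at ha hb ⊢
        exact ⟨add_mem ha.1 hb.1, by rw [M.red_add ha.1 hb.1, ha.2, hb.2, add_zero]⟩
      zero_mem' := by
        simp only [Set.mem_ofPred_eq, ZeroMemClass.coe_zero, zero_div]
        exact ⟨zero_mem _, M.red_zero i⟩
      smul_mem' := fun s a ha => by
        simp only [Set.mem_ofPred_eq, smul_eq_mul, MulMemClass.coe_mul, mul_div_assoc] at ha ⊢
        exact ⟨mul_mem (M.mem_of_mem s.2 i) ha.1, by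
          rw [M.red_mul (M.mem_of_mem s.2 i) ha.1, ha.2, mul_zero]⟩ }
  have hJmem : ∀ a ∈ branchKer M c i, a * a ∈ J := by
    intro a ha
    by_cases h0 : (a : F) = 0
    · rw [show a = 0 from Subtype.ext h0, mul_zero]; exact zero_mem _
    · have hap := ord_pos_of_mem_branchKer ha h0
      have ho : 0 < M.ord i (((a * a : M.R c) : F) / p) := by
        rw [MulMemClass.coe_mul, M.ord_div (mul_ne_zero h0 h0) hp0, M.ord_mul i _ _ h0 h0, hp1]
        omega
      have hne : ((a * a : M.R c) : F) / p ≠ 0 := div_ne_zero (mul_ne_zero h0 h0) hp0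
      refine ⟨M.mem_of_ord_nonneg ho.le, ?_⟩
      rw [M.red_of_mem (M.mem_of_ord_nonneg ho.le), M.res_eq_zero_iff i _ _ hne]
      exact ho
  have hTi : ∀ j ∈ T.erase i, ∀ y ∈ S, ¬ M.OnBranch c y j :=
    fun j hj => hT j (Finset.mem_of_mem_erase hj)
  obtain ⟨d, hd, hdS, hdT⟩ := exists_add_avoid hx S hS (T.erase i) hTi J
    (fun y hy hle => hT i hi y hy (onBranch_iff_le.mpr fun a ha =>
      ((hS y hy).1.isPrime.mem_or_mem (hle (hJmem a ha))).elim id id))
    (fun j hj hle => (Finset.ne_of_mem_erase hj) (eq_of_branchKer_le hx fun a ha =>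
      ((isPrime_branchKer M c j).mem_or_mem (hle (hJmem a ha))).elim id id).symm) p
  have hsum : ((p + d : M.R c) : F) = (p : F) * (1 + (d : F) / p) := by
    rw [AddMemClass.coe_add, mul_add, mul_one, mul_div_cancel₀ _ hp0]
  obtain ⟨h10, h11⟩ := M.ord_eq_zero_of_red (i := i) (add_mem (one_mem _) hd.1)
    (by rw [M.red_add (one_mem _) hd.1, hd.2, M.red_one, add_zero]; exact one_ne_zero)
  refine ⟨p + d, hdS, hsum ▸ mul_ne_zero hp0 h10, fun j hj => ?_⟩
  split_ifs with hji
  · rw [hji, hsum, M.ord_mul i _ _ hp0 h10, hp1, h11, add_zero]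
  · exact (ord_zero_of_notMem_branchKer (hdT j (Finset.mem_erase.mpr ⟨hji, hj⟩))).2

variable (X : Pts M L ι)

theorem ord_ι_mul' (P : Place L E) {a b : F} (ha : a ≠ 0) (hb : b ≠ 0) :
    P.ord (ι (a * b)) = P.ord (ι a) + P.ord (ι b) := by
  rw [map_mul, P.ord_mul ((map_ne_zero ι).mpr ha) ((map_ne_zero ι).mpr hb)]

/-- A function with a local unit ratio has the order of the other one at the places over a point. -/
theorem ord_eq_of_ratio {y : Ideal (M.R c)} (hy : Std M c y) {f g : F} (hf : f ≠ 0) (hg : g ≠ 0)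
    {u v : M.R c} (hu : u ∉ y) (hv : v ∉ y) (h : f * (v : F) = g * (u : F)) {P : Place L E}
    (hP : X.Cen c y P) : P.ord (ι f) = P.ord (ι g) := by
  have h1 := ord_ι_mul' (ι := ι) P hf (coe_ne_zero_of_notMem' hv)
  rw [h, ord_ι_mul' P hg (coe_ne_zero_of_notMem' hu), (X.mem c y P hy hP u).2 hu,
    (X.mem c y P hy hP v).2 hv] at h1
  omega

variable [HasPrincipalDivisors L E]

include X in
/-- An element invertible at `w` carrying `f` into the maximal ideal at another point `y`. -/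
theorem exists_killer {y w : Ideal (M.R c)} (hy : Std M c y) (hw : Std M c w) (hyw : y ≠ w)
    {f : F} (hf : f ≠ 0) (ho : ∀ i, M.OnBranch c y i → M.OnBranch c w i → M.ord i f = 0) :
    ∃ e r a : M.R c, e ∉ w ∧ r ∉ y ∧ a ∈ y ∧ f * (e : F) * (r : F) = (a : F) := by
  classical
  have hwp := hw.1.isPrime
  obtain ⟨t, hty, htw⟩ := SetLike.not_le_iff_exists.mp
    (fun hle : y ≤ w => hyw (hy.1.eq_of_le hw.1.ne_top hle))
  -- branches through `y` only
  have hbr : ∀ i, ∃ a : M.R c, a ∉ w ∧ (a : F) ≠ 0 ∧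
      (M.OnBranch c y i → ¬ M.OnBranch c w i → 0 < M.ord i (a : F)) := fun i => by
    by_cases h : ¬ M.OnBranch c w i
    · obtain ⟨a, ha, haw⟩ := SetLike.not_le_iff_exists.mp (fun hle => h (onBranch_iff_le.mpr hle))
      exact ⟨a, haw, coe_ne_zero_of_notMem' haw,
        fun _ _ => ord_pos_of_mem_branchKer ha (coe_ne_zero_of_notMem' haw)⟩
    · refine ⟨1, fun h1 => hw.1.ne_top ((Ideal.eq_top_iff_one _).mpr h1), one_ne_zero,
        fun _ h' => absurd h' h⟩
  choose a haw ha0 hapos using hbr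
  -- places over `y` where `f` has a pole
  obtain ⟨D, hD, -⟩ := HasPrincipalDivisors.exists_divisor (K := L) (ι f) ((map_ne_zero ι).mpr hf)
  have hpl : ∀ P : Place L E, ∃ s : M.R c, s ∉ w ∧ (s : F) ≠ 0 ∧
      (X.Cen c y P → 0 < P.ord (ι (s : F))) := fun P => by
    by_cases h : X.Cen c y P
    · obtain ⟨s, hs, hpos⟩ := X.sep c w y P hw hy (Ne.symm hyw) h
      exact ⟨s, hs, coe_ne_zero_of_notMem' hs, fun _ => hpos⟩
    · exact ⟨1, fun h1 => hw.1.ne_top ((Ideal.eq_top_iff_one _).mpr h1), one_ne_zero,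
        fun h' => absurd h' h⟩
  choose s hsw hs0 hspos using hpl
  set N : ℕ := Finset.univ.sup (fun i => (-M.ord i f).toNat) ⊔
    D.support.sup (fun P => (-D P).toNat) with hN
  let e : M.R c := (∏ i, a i) ^ N * (∏ P ∈ D.support, s P) ^ N
  have hew : e ∉ w := fun h => by
    rcases hwp.mem_or_mem h with h | h
    · obtain ⟨i, -, hi⟩ := hwp.prod_mem_iff.mp (hwp.mem_of_pow_mem N h)
      exact haw i hi
    · obtain ⟨P, -, hP⟩ := hwp.prod_mem_iff.mp (hwp.mem_of_pow_mem N h)
      exact hsw P hP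
  have he0 : (e : F) ≠ 0 := coe_ne_zero_of_notMem' hew
  have hnn : ∀ (i : Fin 3) (r : M.R c), (r : F) ≠ 0 → 0 ≤ M.ord i (r : F) :=
    fun i r hr => (M.mem_iff i _ hr).mp (M.mem_of_mem r.2 i)
  obtain ⟨r, hr, hreg⟩ := X.regular c y (f * (e : F)) hy (mul_ne_zero hf he0)
    (fun i hi => by
      rw [M.ord_mul i _ _ hf he0]
      by_cases hiw : M.OnBranch c w i
      · rw [ho i hi hiw, zero_add]; exact hnn i e he0
      · have hA : ((∏ j, a j : M.R c) : F) = ∏ j, (a j : F) := by simp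
        have hB0 : ((∏ P ∈ D.support, s P : M.R c) : F) ≠ 0 := by
          simpa [Finset.prod_ne_zero_iff] using fun P _ => hs0 P
        have hA0 : ((∏ j, a j : M.R c) : F) ≠ 0 := by
          simpa [Finset.prod_ne_zero_iff] using ha0
        have e1 : M.ord i (e : F) = N * M.ord i ((∏ j, a j : M.R c) : F) +
            N * M.ord i ((∏ P ∈ D.support, s P : M.R c) : F) := by
          show M.ord i ((((∏ j, a j) ^ N * (∏ P ∈ D.support, s P) ^ N : M.R c)) : F) = _
          rw [MulMemClass.coe_mul, SubmonoidClass.coe_pow, SubmonoidClass.coe_pow,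
            M.ord_mul i _ _ (pow_ne_zero _ hA0) (pow_ne_zero _ hB0), M.ord_pow hA0, M.ord_pow hB0]
        have hA1 : 1 ≤ M.ord i ((∏ j, a j : M.R c) : F) := by
          rw [hA, ord_prod i _ _ (fun j _ => ha0 j), ← Finset.add_sum_erase _ _ (Finset.mem_univ i)]
          have := Finset.sum_nonneg (s := Finset.univ.erase i) fun j _ => hnn i (a j) (ha0 j)
          have := hapos i hi hiw
          omega
        have hB1 := hnn i _ hB0
        have h3 : -M.ord i f ≤ (N : ℤ) := by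
          have := le_sup_of_le_left (b := D.support.sup fun P => (-D P).toNat)
            (Finset.le_sup (f := fun i => (-M.ord i f).toNat) (Finset.mem_univ i))
          rw [← hN] at this
          omega
        have h4 : (N : ℤ) * 1 ≤ N * M.ord i ((∏ j, a j : M.R c) : F) :=
          mul_le_mul_of_nonneg_left hA1 (Int.natCast_nonneg _)
        have h5 := mul_nonneg (Int.natCast_nonneg N) hB1
        rw [e1]
        omega)
    (fun P hP => by
      have hnnP : ∀ r : M.R c, 0 ≤ P.ord (ι (r : F)) := fun r =>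
        (FF.mem_iff_ord_nonneg P).mp (X.mem c y P hy hP r).1
      rw [ord_ι_mul' P hf he0, ← hD P]
      by_cases hPs : P ∈ D.support
      · have hd : (e : F) = (s P : F) ^ N *
            (((∏ i, a i) ^ N * (∏ P' ∈ D.support.erase P, s P') ^ N : M.R c) : F) := by
          show ((((∏ i, a i) ^ N * (∏ P ∈ D.support, s P) ^ N : M.R c)) : F) = _
          rw [← Finset.mul_prod_erase _ _ hPs]
          push_cast
          ring
        have h3 : -D P ≤ (N : ℤ) := by
          have := le_sup_of_le_right (a := Finset.univ.sup fun i => (-M.ord i f).toNat)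
            (Finset.le_sup (f := fun P => (-D P).toNat) hPs)
          rw [← hN] at this
          omega
        have h4 : (N : ℤ) * 1 ≤ N * P.ord (ι (s P : F)) :=
          mul_le_mul_of_nonneg_left (hspos P hP) (Int.natCast_nonneg _)
        have h5 := hnnP ((∏ i, a i) ^ N * (∏ P' ∈ D.support.erase P, s P') ^ N)
        rw [hd, ord_ι_mul' P (pow_ne_zero _ (hs0 P)) (fun h => he0 (by rw [hd, h, mul_zero])),
          map_pow, FF.ord_pow]
        omega
      · rw [Finsupp.notMem_support_iff.mp hPs, zero_add]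
        exact hnnP e)
  refine ⟨t * e, r, t * ⟨_, hreg⟩, fun h => (hwp.mem_or_mem h).elim htw hew, hr,
    y.mul_mem_right _ hty, ?_⟩
  show f * ((t : F) * e) * r = (t : F) * (f * e * r)
  ring

include X in
/-- A function which is a unit multiple of `g y` at each `y`. -/
theorem exists_ratio (S : Finset (Ideal (M.R c))) (hS : ∀ y ∈ S, Std M c y)
    (g : Ideal (M.R c) → F)
    (hg : ∀ y ∈ S, g y ≠ 0 ∧ ∀ i, M.OnBranch c y i → M.ord i (g y) = 0) :
    ∃ h : F, h ≠ 0 ∧ ∀ y ∈ S, ∃ u v : M.R c, u ∉ y ∧ v ∉ y ∧ h * (v : F) = g y * (u : F) := by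
  classical
  rcases S.eq_empty_or_nonempty with rfl | ⟨y₀, hy₀⟩
  · exact ⟨1, one_ne_zero, fun y hy => absurd hy (Finset.notMem_empty y)⟩
  have hk : ∀ y w : Ideal (M.R c), ∃ e r a : M.R c, y ∈ S → w ∈ S → y ≠ w →
      e ∉ w ∧ r ∉ y ∧ a ∈ y ∧ g w / g y * (e : F) * (r : F) = (a : F) := fun y w => by
    by_cases h : y ∈ S ∧ w ∈ S ∧ y ≠ w
    · obtain ⟨e, r, a, h'⟩ := exists_killer X (hS y h.1) (hS w h.2.1) h.2.2
        (div_ne_zero (hg w h.2.1).1 (hg y h.1).1) fun i hi hi' => by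
          rw [M.ord_div (hg w h.2.1).1 (hg y h.1).1, (hg w h.2.1).2 i hi', (hg y h.1).2 i hi,
            sub_zero]
      exact ⟨e, r, a, fun _ _ _ => h'⟩
    · exact ⟨0, 0, 0, fun h1 h2 h3 => absurd ⟨h1, h2, h3⟩ h⟩
  choose e r a hk using hk
  let E' : Ideal (M.R c) → M.R c := fun w => ∏ y ∈ S.erase w, e y w
  have hmain : ∀ y ∈ S, ∃ u v : M.R c, u ∉ y ∧ v ∉ y ∧
      (∑ w ∈ S, g w * (E' w : F)) * (v : F) = g y * (u : F) := by
    intro y hy
    have hyp := (hS y hy).1.isPrime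
    let R' : M.R c := ∏ w ∈ S.erase y, r y w
    have hR' : R' ∉ y := fun h => by
      obtain ⟨w, hw, hw'⟩ := hyp.prod_mem_iff.mp h
      rw [Finset.mem_erase] at hw
      exact (hk y w hy hw.2 (Ne.symm hw.1)).2.1 hw'
    let m : Ideal (M.R c) → M.R c := fun w =>
      a y w * (∏ y' ∈ (S.erase w).erase y, e y' w) * ∏ w' ∈ (S.erase y).erase w, r y w'
    refine ⟨E' y * R' + ∑ w ∈ S.erase y, m w, R', fun h => ?_, hR', ?_⟩
    · have hm : ∑ w ∈ S.erase y, m w ∈ y := y.sum_mem fun w hw => by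
        rw [Finset.mem_erase] at hw
        exact y.mul_mem_right _ (y.mul_mem_right _ (hk y w hy hw.2 (Ne.symm hw.1)).2.2.1)
      rcases hyp.mem_or_mem ((y.add_mem_iff_left hm).mp h) with h | h
      · obtain ⟨w, hw, hw'⟩ := hyp.prod_mem_iff.mp h
        rw [Finset.mem_erase] at hw
        exact (hk w y hw.2 hy hw.1).1 hw'
      · exact hR' h
    · rw [← Finset.add_sum_erase _ _ hy, add_mul, AddMemClass.coe_add, MulMemClass.coe_mul,
        mul_add, Finset.sum_mul, mul_assoc]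
      congr 1
      rw [show ((∑ w ∈ S.erase y, m w : M.R c) : F) = ∑ w ∈ S.erase y, (m w : F) by simp,
        Finset.mul_sum]
      refine Finset.sum_congr rfl fun w hw => ?_
      have hw' := Finset.mem_erase.mp hw
      have h1 := (hk y w hy hw'.2 (Ne.symm hw'.1)).2.2.2
      have e1 : E' w = e y w * ∏ y' ∈ (S.erase w).erase y, e y' w :=
        (Finset.mul_prod_erase _ _ (Finset.mem_erase.mpr ⟨Ne.symm hw'.1, hy⟩)).symm
      have e2 : R' = r y w * ∏ w' ∈ (S.erase y).erase w, r y w' :=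
        (Finset.mul_prod_erase _ _ hw).symm
      rw [e1, e2]
      simp only [m, MulMemClass.coe_mul]
      rw [← h1]
      field_simp [(hg y hy).1]
  obtain ⟨u, v, hu, hv, h⟩ := hmain y₀ hy₀
  refine ⟨_, fun h0 => ?_, hmain⟩
  rw [h0, zero_mul] at h
  exact mul_ne_zero (hg y₀ hy₀).1 (coe_ne_zero_of_notMem' hu) h.symm

/-- Prescribing local equations at finitely many points, keeping order zero on every branch. -/
theorem exists_semilocal (hx : ∀ i, M.ord i M.x = 0) (c : Fin 2) (S : Finset (Ideal (M.R c)))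
    (hS : ∀ y ∈ S, Std M c y) (g : Ideal (M.R c) → F)
    (hg : ∀ y ∈ S, g y ≠ 0 ∧ ∀ i, M.OnBranch c y i → M.ord i (g y) = 0) :
    ∃ h : F, h ≠ 0 ∧ (∀ i, M.ord i h = 0) ∧
      ∀ y ∈ S, (∀ P, X.Cen c y P → P.ord (ι h) = P.ord (ι (g y))) ∧
        ∃ u v : M.R c, u ∉ y ∧ v ∉ y ∧ h * (v : F) = g y * (u : F) := by
  classical
  obtain ⟨h₀, h₀0, hh₀⟩ := exists_ratio X S hS g hg
  let T : Finset (Fin 3) := Finset.univ.filter fun i => ∀ y ∈ S, ¬ M.OnBranch c y i
  have hT : ∀ i ∈ T, ∀ y ∈ S, ¬ M.OnBranch c y i := fun i hi => (Finset.mem_filter.mp hi).2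
  choose w hwS hw0 hwo using fun (i : Fin 3) (hi : i ∈ T) =>
    exists_branch_unif hx S hS T hT i hi
  let A : M.R c := ∏ i ∈ T.attach, w i.1 i.2 ^ (-M.ord i.1 h₀).toNat
  let B : M.R c := ∏ i ∈ T.attach, w i.1 i.2 ^ (M.ord i.1 h₀).toNat
  have hAB : ∀ n : {x // x ∈ T} → ℕ, ∀ y ∈ S, (∏ i ∈ T.attach, w i.1 i.2 ^ n i) ∉ y :=
    fun n y hy h => by
      have hyp := (hS y hy).1.isPrime
      obtain ⟨i, -, hi⟩ := hyp.prod_mem_iff.mp h
      exact hwS i.1 i.2 y hy (hyp.mem_of_pow_mem _ hi)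
  have hne : ∀ n : {x // x ∈ T} → ℕ, ((∏ i ∈ T.attach, w i.1 i.2 ^ n i : M.R c) : F) ≠ 0 :=
    fun n => by
      rw [SubmonoidClass.coe_finsetProd]
      exact Finset.prod_ne_zero_iff.mpr fun i _ => by simp [hw0 i.1 i.2]
  have hord : ∀ (n : {x // x ∈ T} → ℕ) (j : Fin 3) (hj : j ∈ T),
      M.ord j ((∏ i ∈ T.attach, w i.1 i.2 ^ n i : M.R c) : F) = n ⟨j, hj⟩ := fun n j hj => by
    rw [SubmonoidClass.coe_finsetProd, ord_prod j _ _ (fun i _ => by simp [hw0 i.1 i.2]),
      Finset.sum_eq_single (⟨j, hj⟩ : {x // x ∈ T})]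
    · rw [SubmonoidClass.coe_pow, M.ord_pow (hw0 j hj), hwo j hj j hj, if_pos rfl, mul_one]
    · intro i _ hi
      rw [SubmonoidClass.coe_pow, M.ord_pow (hw0 i.1 i.2), hwo i.1 i.2 j hj,
        if_neg (fun h => hi (Subtype.ext h.symm)), mul_zero]
    · exact fun h => absurd (Finset.mem_attach _ _) h
  have hh0 : h₀ * (A : F) / B ≠ 0 := div_ne_zero (mul_ne_zero h₀0 (hne _)) (hne _)
  have hrat : ∀ y ∈ S, ∃ u v : M.R c, u ∉ y ∧ v ∉ y ∧
      h₀ * (A : F) / B * (v : F) = g y * (u : F) := fun y hy => by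
    obtain ⟨u, v, hu, hv, h⟩ := hh₀ y hy
    have hyp := (hS y hy).1.isPrime
    refine ⟨u * A, v * B, fun h' => (hyp.mem_or_mem h').elim hu (hAB _ y hy),
      fun h' => (hyp.mem_or_mem h').elim hv (hAB _ y hy), ?_⟩
    have hB : (B : F) ≠ 0 := hne _
    show h₀ * (A : F) / B * ((v : F) * B) = g y * ((u : F) * A)
    field_simp
    linear_combination (A : F) * h
  refine ⟨_, hh0, fun j => ?_, fun y hy => ⟨fun P hP => ?_, hrat y hy⟩⟩
  · by_cases hj : j ∈ T
    · rw [M.ord_div (mul_ne_zero h₀0 (hne _)) (hne _), M.ord_mul j _ _ h₀0 (hne _)]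
      show M.ord j h₀ + M.ord j (A : F) - M.ord j (B : F) = 0
      rw [hord _ j hj, hord _ j hj]
      simp only
      omega
    · obtain ⟨y, hy, hyj⟩ : ∃ y ∈ S, M.OnBranch c y j := by simpa [T] using hj
      obtain ⟨u, v, hu, hv, h⟩ := hrat y hy
      have h1 := M.ord_mul j _ _ hh0 (coe_ne_zero_of_notMem' hv)
      rw [h, M.ord_mul j _ _ (hg y hy).1 (coe_ne_zero_of_notMem' hu), (hg y hy).2 j hyj,
        ord_eq_zero_of_notMem' hyj hu, ord_eq_zero_of_notMem' hyj hv] at h1
      omega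
  · obtain ⟨u, v, hu, hv, h⟩ := hrat y hy
    exact ord_eq_of_ratio X (hS y hy) hh0 (hg y hy).1 hu hv h hP

/-- Local equations with residue one come from one with residue one everywhere. -/
theorem exists_semilocal_one (hx : ∀ i, M.ord i M.x = 0) (c : Fin 2)
    (S : Finset (Ideal (M.R c))) (hS : ∀ y ∈ S, Std M c y) (g : Ideal (M.R c) → F)
    (hg : ∀ y ∈ S, g y ≠ 0 ∧ ∀ i, M.OnBranch c y i → M.ord i (g y) = 0)
    (hg1 : ∀ y ∈ S, ∀ i, M.OnBranch c y i → M.red i (g y) = 1) :
    ∃ h : F, h ≠ 0 ∧ (∀ i, M.ord i h = 0) ∧ (∀ i, M.red i h = 1) ∧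
      ∀ y ∈ S, ∀ P, X.Cen c y P → P.ord (ι h) = P.ord (ι (g y)) := by
  classical
  obtain ⟨h, h0, ho, hh⟩ := exists_semilocal X hx c S hS g hg
  have hV : ∀ i, h ∈ M.Br.V i := fun i => M.mem_of_ord_nonneg (ho i).ge
  have hw : ∀ i, M.red i h ≠ 0 := fun i => M.red_ne_zero_of_ord h0 (ho i)
  have hRV : ∀ i (r : M.R c), (r : F) ∈ M.Br.V i := fun i r => M.mem_of_mem r.2 i
  let Δ : Ideal (M.R c) :=
    { carrier := {r | ∃ N : M.R c, ∀ i, M.red i (N : F) * M.red i h = M.red i (r : F)}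
      add_mem' := by
        rintro a b ⟨N, hN⟩ ⟨N', hN'⟩
        refine ⟨N + N', fun i => ?_⟩
        rw [AddMemClass.coe_add, AddMemClass.coe_add, M.red_add (hRV i _) (hRV i _),
          M.red_add (hRV i _) (hRV i _), ← hN, ← hN', add_mul]
      zero_mem' := ⟨0, fun i => by simp [M.red_zero]⟩
      smul_mem' := by
        rintro s a ⟨N, hN⟩
        refine ⟨s * N, fun i => ?_⟩
        rw [smul_eq_mul, MulMemClass.coe_mul, MulMemClass.coe_mul, M.red_mul (hRV i _) (hRV i _),
          M.red_mul (hRV i _) (hRV i _), ← hN, mul_assoc] }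
  have hwy : ∀ y ∈ S, ∀ u v : M.R c, h * (v : F) = g y * (u : F) → ∀ i, M.OnBranch c y i →
      M.red i h * M.red i (v : F) = M.red i (u : F) := fun y hy u v e i hi => by
    rw [← M.red_mul (hV i) (hRV i v), e,
      M.red_mul (M.mem_of_ord_nonneg ((hg y hy).2 i hi).ge) (hRV i u), hg1 y hy i hi, one_mul]
  let T : Finset (Fin 3) := Finset.univ.filter fun i => ∀ y ∈ S, ¬ M.OnBranch c y i
  have hΔS : ∀ y ∈ S, ¬ Δ ≤ y := fun y hy hle => by
    obtain ⟨u, v, hu, hv, e⟩ := (hh y hy).2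
    have hyp := (hS y hy).1.isPrime
    have hsi : ∀ i, ∃ a : M.R c, a ∉ y ∧ (¬ M.OnBranch c y i → a ∈ branchKer M c i) := fun i => by
      by_cases h' : M.OnBranch c y i
      · exact ⟨1, fun h1 => hyp.ne_top ((Ideal.eq_top_iff_one _).mpr h1), fun h'' => absurd h' h''⟩
      · obtain ⟨a, ha, hay⟩ := SetLike.not_le_iff_exists.mp (fun hle => h' (onBranch_iff_le.mpr hle))
        exact ⟨a, hay, fun _ => ha⟩
    choose a hay haK using hsi
    have hmem : u * ∏ i, a i ∈ Δ := by
      refine ⟨v * ∏ i, a i, fun i => ?_⟩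
      rw [MulMemClass.coe_mul, MulMemClass.coe_mul, M.red_mul (hRV i _) (hRV i _),
        M.red_mul (hRV i _) (hRV i _)]
      by_cases hi : M.OnBranch c y i
      · rw [← hwy y hy u v e i hi]; ring
      · rw [(mem_branchKer M c).mp ((branchKer M c i).mem_of_dvd
          (Finset.dvd_prod_of_mem a (Finset.mem_univ i)) (haK i hi))]
        ring
    rcases hyp.mem_or_mem (hle hmem) with h' | h'
    · exact hu h'
    · obtain ⟨i, -, hi⟩ := hyp.prod_mem_iff.mp h'
      exact hay i hi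
  have hΔT : ∀ i ∈ T, ¬ Δ ≤ branchKer M c i := fun i _ hle => by
    obtain ⟨r, hr, hmem⟩ := exists_branch_frac M c hx i h0 (ho i).ge
    obtain ⟨e, hei, hej⟩ := exists_sep' M c hx i
    have hm : (⟨_, hmem⟩ : M.R c) * e ∈ Δ := by
      refine ⟨r * e, fun j => ?_⟩
      rw [MulMemClass.coe_mul, MulMemClass.coe_mul, M.red_mul (hRV j _) (hRV j _),
        M.red_mul (hRV j _) (hRV j _)]
      rcases eq_or_ne j i with rfl | hji
      · show _ = M.red j (h * (r : F)) * _
        rw [M.red_mul (hV j) (hRV j r)]; ring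
      · rw [(mem_branchKer M c).mp (hej j hji)]; ring
    rcases (isPrime_branchKer M c i).mem_or_mem (hle hm) with h' | h'
    · rw [mem_branchKer] at h'
      change M.red i (h * (r : F)) = 0 at h'
      rw [M.red_mul (hV i) (hRV i r), mul_eq_zero] at h'
      exact h'.elim (hw i) fun h'' => hr ((mem_branchKer M c).mpr h'')
    · exact hei h'
  obtain ⟨d, ⟨N, hN⟩, hdS, hdT⟩ := exists_add_avoid hx S hS T
    (fun i hi => (Finset.mem_filter.mp hi).2) Δ hΔS hΔT 0
  simp only [zero_add] at hdS hdT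
  have hd : ∀ i, d ∉ branchKer M c i := fun i hdi => by
    by_cases hi : i ∈ T
    · exact hdT i hi hdi
    · obtain ⟨y, hy, hyi⟩ : ∃ y ∈ S, M.OnBranch c y i := by simpa [T] using hi
      exact hdS y hy (onBranch_iff_le.mp hyi hdi)
  have hN' : ∀ i, N ∉ branchKer M c i := fun i hNi => by
    rw [mem_branchKer] at hNi
    refine hd i ((mem_branchKer M c).mpr ?_)
    rw [← hN, hNi, zero_mul]
  have hd0 := (ord_zero_of_notMem_branchKer (hd 0)).1
  have hN0 := (ord_zero_of_notMem_branchKer (hN' 0)).1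
  have h10 : h * (N : F) / d ≠ 0 := div_ne_zero (mul_ne_zero h0 hN0) hd0
  have h1o : ∀ i, M.ord i (h * (N : F) / d) = 0 := fun i => by
    rw [M.ord_div (mul_ne_zero h0 hN0) hd0, M.ord_mul i _ _ h0 hN0, ho,
      (ord_zero_of_notMem_branchKer (hN' i)).2, (ord_zero_of_notMem_branchKer (hd i)).2]
    rfl
  refine ⟨_, h10, h1o, fun i => ?_, fun y hy P hP => ?_⟩
  · have e := M.red_mul (i := i) (M.mem_of_ord_nonneg (h1o i).ge) (hRV i d)
    rw [div_mul_cancel₀ _ hd0, M.red_mul (hV i) (hRV i N), mul_comm (M.red i h), hN] at e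
    exact (mul_left_eq_self₀.mp e.symm).resolve_right fun h' => hd i ((mem_branchKer M c).mpr h')
  · have hyp := (hS y hy).1.isPrime
    obtain ⟨hPh, u, v, hu, hv, e⟩ := hh y hy
    obtain ⟨i, hi⟩ := M.exists_branch_le c y (hS y hy).2.1
    have hNy : N ∉ y := fun hNy => by
      have hmem : N * u - d * v ∈ branchKer M c i := by
        rw [mem_branchKer]
        have h3 := M.red_add (i := i) (hRV i (N * u - d * v)) (hRV i (d * v))
        rw [← AddMemClass.coe_add, sub_add_cancel, MulMemClass.coe_mul, MulMemClass.coe_mul,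
          M.red_mul (hRV i _) (hRV i _), M.red_mul (hRV i _) (hRV i _), ← hN i,
          ← hwy y hy u v e i hi, ← mul_assoc, right_eq_add] at h3
        exact h3
      have h4 := y.sub_mem (y.mul_mem_right u hNy) (onBranch_iff_le.mp hi hmem)
      rw [sub_sub_cancel] at h4
      exact (hyp.mem_or_mem h4).elim (hdS y hy) hv
    rw [← hPh P hP]
    exact ord_eq_of_ratio X (hS y hy) h10 h0 hNy (hdS y hy) (div_mul_cancel₀ _ hd0) hP

/-- An element regular at finitely many points has a common denominator. -/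
theorem exists_common_denominator (c : Fin 2) (S : Finset (Ideal (M.R c)))
    (hS : ∀ y ∈ S, Std M c y) (h : F)
    (hh : ∀ y ∈ S, ∃ r : M.R c, r ∉ y ∧ h * (r : F) ∈ M.R c) :
    ∃ r : M.R c, (∀ y ∈ S, r ∉ y) ∧ h * (r : F) ∈ M.R c := by
  classical
  let J : Ideal (M.R c) :=
    { carrier := {r | h * (r : F) ∈ M.R c}
      add_mem' := fun {a b} ha hb => by
        show h * ((a : F) + b) ∈ M.R c
        rw [mul_add]; exact add_mem ha hb
      zero_mem' := by
        show h * ((0 : M.R c) : F) ∈ M.R c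
        rw [ZeroMemClass.coe_zero, mul_zero]; exact zero_mem _
      smul_mem' := fun s a ha => by
        show h * ((s : F) * a) ∈ M.R c
        rw [mul_left_comm]; exact mul_mem s.2 ha }
  obtain ⟨d, hd, hdS⟩ := exists_add_notMem S (fun y hy => (hS y hy).1.isPrime)
    (fun y hy y' hy' hne hle => hne ((hS y' hy').1.eq_of_le (hS y hy).1.ne_top hle).symm) J
    (fun y hy hle => by obtain ⟨r, hr, hr'⟩ := hh y hy; exact hr (hle hr')) 0
  exact ⟨d, fun y hy => by simpa using hdS y hy, hd⟩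

end Fermat.Agent.LowerSq.Null
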