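/-
Divisors are old modulo null ones, up to the factor `q`; null divisors are stable under operators;
a torsion function with null divisor is a constant times a power.
-/
import Fermat.Agent.LowerSq.Null.Semilocal
import Fermat.Agent.LowerSq.Null.BranchOrd
import Fermat.Agent.Carayol.OldClasses
import Fermat.Agent.FF.Basic

set_option autoImplicit false
set_option linter.unusedSectionVars false

noncomputable section

open AlgebraicCurve

namespace Fermat.Agent.LowerSq.Null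

open Carayol

variable {W F k C : Type} [CommRing W] [IsDomain W] [IsDiscreteValuationRing W] [Field F]
  [Algebra W F] [Field k] [Field C] [Algebra k C] {M : Model W F k C}
  {L E : Type} [Field L] [Field E] [Algebra L E] [HasPrincipalDivisors L E] {ι : F →+* E}
  {X : Pts M L ι}

theorem isNull_zero : IsNull X (0 : Divisor L E) := fun _ _ _ =>
  ⟨1, IsEq.one, fun i _ => M.red_one i⟩

theorem IsNull.add {D D' : Divisor L E} (h : IsNull X D) (h' : IsNull X D') :
    IsNull X (D + D') := fun c y hy => by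
  obtain ⟨g, hg, hg1⟩ := h c y hy
  obtain ⟨g', hg', hg1'⟩ := h' c y hy
  exact ⟨g * g', hg.mul hg', fun i hi => by
    rw [M.red_mul (M.mem_of_ord_nonneg (hg.2 i hi).ge) (M.mem_of_ord_nonneg (hg'.2 i hi).ge),
      hg1 i hi, hg1' i hi, one_mul]⟩

theorem IsNull.neg {D : Divisor L E} (h : IsNull X D) : IsNull X (-D) := fun c y hy => by
  obtain ⟨g, hg, hg1⟩ := h c y hy
  refine ⟨g⁻¹, hg.inv, fun i hi => ?_⟩
  have h0 : M.ord i g⁻¹ = 0 := by rw [M.ord_inv hg.1, hg.2 i hi, neg_zero]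
  have h1 := M.red_mul (M.mem_of_ord_nonneg (hg.2 i hi).ge) (M.mem_of_ord_nonneg h0.ge)
  rw [mul_inv_cancel₀ hg.1, M.red_one, hg1 i hi, one_mul] at h1
  exact h1.symm

/-- **Operators preserve null divisors.** -/
theorem IsNull.op (hx : ∀ i, M.ord i M.x = 0) (T : Op X) {D : Divisor L E} (h : IsNull X D) :
    IsNull X (T.div D) := by
  classical
  intro c x hxs
  obtain ⟨S, hS, hloc⟩ := T.locality c x hxs
  have hg : ∀ y, ∃ g, y ∈ S → IsEq X D c y g ∧ ∀ i, M.OnBranch c y i → M.red i g = 1 := fun y => by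
    by_cases hy : y ∈ S
    · obtain ⟨g, hg⟩ := h c y (hS y hy)
      exact ⟨g, fun _ => hg⟩
    · exact ⟨1, fun h => absurd h hy⟩
  choose g hg using hg
  obtain ⟨e, he0, heo, he1, heq⟩ := exists_semilocal_one X hx c S hS g
    (fun y hy => ⟨(hg y hy).1.1, (hg y hy).1.2⟩) fun y hy => (hg y hy).2
  obtain ⟨De, hDe, -⟩ :=
    HasPrincipalDivisors.exists_divisor (K := L) (ι e) ((map_ne_zero ι).mpr he0)
  refine ⟨T.fn e, ⟨T.fn_ne_zero e he0, fun i _ => T.ord_fn e he0 heo i, fun P hP => ?_⟩,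
    fun i _ => T.red_one e he0 heo he1 i⟩
  have hz := hloc (D - De) (fun y hy P hP => by
    rw [Finsupp.sub_apply, hDe, heq y hy P hP, (hg y hy).1.3 P hP, sub_self]) P hP
  rw [map_sub, Finsupp.sub_apply, sub_eq_zero] at hz
  rw [hz, T.ord_eq De e he0 hDe P]

/-- Local equations of the divisor of a function of order zero on the branches. -/
theorem hasEqs_of_torsion {m : ℕ} (hm0 : 0 < m) {f : F} (hf : f ≠ 0)
    (hord : ∀ i, M.ord i f = 0) (hor : HorizDvd W m f) {D : Divisor L E}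
    (hD : ∀ P, (m : ℤ) * D P = P.ord (ι f)) : HasEqs X D := by
  intro c y hy
  have := hy.1
  obtain ⟨a, u, ha, hu, hau⟩ := M.exists_local_unit c y hy.2.1 hm0.ne' hf hord hor
  refine ⟨a⁻¹, inv_ne_zero ha, fun i hi => ?_, fun P hP => ?_⟩
  · have h1 := (M.mem_of_unit_pow hm0 hf hord ha hau i).1
    rw [(ord_eq_zero_of_notMem hi hu).2] at h1
    rw [M.ord_inv ha, (mul_eq_zero.mp h1.symm).resolve_left (by exact_mod_cast hm0.ne'), neg_zero]
  · have h1 := (X.mem c y P hy hP u).2 hu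
    rw [← hau, ord_ι_mul P (pow_ne_zero _ ha) hf, map_pow, FF.ord_pow, ← hD P, ← mul_add] at h1
    have := (mul_eq_zero.mp h1).resolve_left (by exact_mod_cast hm0.ne')
    rw [ord_ι_inv]
    omega

/-- A local equation of the image of a divisor, from one near the points under it. -/
theorem exists_eq_op (hx : ∀ i, M.ord i M.x = 0) (T : Op X) {Y : Divisor L E} (hY : HasEqs X Y)
    {c : Fin 2} {x : Ideal (M.R c)} (hxs : Std M c x) (S₀ : Finset (Ideal (M.R c)))
    (hS₀ : ∀ y ∈ S₀, Std M c y) :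
    ∃ h, h ≠ 0 ∧ (∀ i, M.ord i h = 0) ∧ IsEq X (T.div Y) c x (T.fn h) ∧
      ∀ y ∈ S₀, IsEq X Y c y h := by
  classical
  obtain ⟨S, hS, hloc⟩ := T.locality c x hxs
  have hstd : ∀ y ∈ S ∪ S₀, Std M c y := fun y hy =>
    (Finset.mem_union.mp hy).elim (hS y) (hS₀ y)
  have hg : ∀ y, ∃ g, y ∈ S ∪ S₀ → IsEq X Y c y g := fun y => by
    by_cases hy : y ∈ S ∪ S₀
    · obtain ⟨g, hg⟩ := hY c y (hstd y hy)
      exact ⟨g, fun _ => hg⟩
    · exact ⟨1, fun h => absurd h hy⟩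
  choose g hg using hg
  obtain ⟨h, h0, ho, heq⟩ := exists_semilocal X hx c (S ∪ S₀) hstd g
    fun y hy => ⟨(hg y hy).1, (hg y hy).2⟩
  obtain ⟨Dh, hDh, -⟩ :=
    HasPrincipalDivisors.exists_divisor (K := L) (ι h) ((map_ne_zero ι).mpr h0)
  have hYh : ∀ y ∈ S ∪ S₀, IsEq X Y c y h := fun y hy =>
    ⟨h0, fun i _ => ho i, fun P hP => by rw [(hg y hy).3 P hP, (heq y hy).1 P hP]⟩
  refine ⟨h, h0, ho, ⟨T.fn_ne_zero h h0, fun i _ => T.ord_fn h h0 ho i, fun P hP => ?_⟩,
    fun y hy => hYh y (Finset.mem_union_right _ hy)⟩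
  have hz := hloc (Y - Dh) (fun y hy P hP => by
    rw [Finsupp.sub_apply, hDh, (hYh y (Finset.mem_union_left _ hy)).3 P hP, sub_self]) P hP
  rw [map_sub, Finsupp.sub_apply, sub_eq_zero] at hz
  rw [hz, T.ord_eq Dh h h0 hDh P]

theorem HasEqs.op (hx : ∀ i, M.ord i M.x = 0) (T : Op X) {Y : Divisor L E} (hY : HasEqs X Y) :
    HasEqs X (T.div Y) := fun c x hxs => by
  obtain ⟨h, -, -, he, -⟩ := exists_eq_op hx T hY hxs ∅ (by simp)
  exact ⟨_, he⟩

variable [FF.IsFunctionField k C]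

/-- One function computes the orders of `Y` on the three branches at a place, and of its image. -/
theorem exists_bord_op (hx : ∀ i, M.ord i M.x = 0) (G : Geom M) (T : Op X) {Y : Divisor L E}
    (hY : HasEqs X Y) (i : Fin 3) (O : Place k C) :
    ∃ h, h ≠ 0 ∧ (∀ j, M.ord j h = 0) ∧ bord X (T.div Y) i O = O.ord (M.red i (T.fn h)) ∧
      ∀ j, bord X Y j O = O.ord (M.red j h) := by
  classical
  obtain ⟨c, x, hxs, hon, hO⟩ := G.cover i O
  have hpt : ∀ j, ∃ y : Ideal (M.R c), Std M c y ∧ M.OnBranch c y j ∧ BranchPt M c y j O := fun j => by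
    obtain ⟨c', y, hy, hon', hO'⟩ := G.cover j O
    obtain rfl := G.same_chart i j O c c' x y hxs hy hon hon' hO hO'
    exact ⟨y, hy, hon', hO'⟩
  choose y hy honj hOj using hpt
  obtain ⟨h, h0, ho, heT, heY⟩ := exists_eq_op hx T hY hxs (Finset.univ.image y) fun z hz => by
    obtain ⟨j, -, rfl⟩ := Finset.mem_image.mp hz
    exact hy j
  exact ⟨h, h0, ho, bord_eq G hxs hon hO heT, fun j =>
    bord_eq G (hy j) (honj j) (hOj j) (heY _ (Finset.mem_image_of_mem y (Finset.mem_univ j)))⟩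

/-- The orders of the image under an operator from level `q L`. -/
theorem bord_oldOp (hx : ∀ i, M.ord i M.x = 0) (G : Geom M) {o p : Fin 3} (T : OldOp X o p)
    {Y : Divisor L E} (hY : HasEqs X Y) (O : Place k C) :
    bord X (T.div Y) o O = bord X Y o O + ((M.q : ℤ) - 1) * bord X Y 1 O ∧
      bord X (T.div Y) 1 O = bord X Y o O + ((M.q : ℤ) - 1) * bord X Y 1 O ∧
      bord X (T.div Y) p O = (M.q : ℤ) * bord X Y p O := by
  have key : ∀ h : F, h ≠ 0 → (∀ j, M.ord j h = 0) → O.ord (M.red o (T.fn h)) =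
      O.ord (M.red o h) + ((M.q : ℤ) - 1) * O.ord (M.red 1 h) := fun h h0 ho => by
    rw [T.red_o h h0 ho, O.ord_mul (M.red_ne_zero_of_ord h0 (ho o))
      (pow_ne_zero _ (M.red_ne_zero_of_ord h0 (ho 1))), FF.ord_pow, Nat.cast_sub M.hq.one_le,
      Nat.cast_one]
  refine ⟨?_, ?_, ?_⟩
  · obtain ⟨h, h0, ho, hT, hj⟩ := exists_bord_op hx G T.toOp hY o O
    rw [hT, hj, hj]
    exact key h h0 ho
  · obtain ⟨h, h0, ho, hT, hj⟩ := exists_bord_op hx G T.toOp hY 1 O
    rw [hT, hj, hj, T.red_mid h h0 ho]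
    exact key h h0 ho
  · obtain ⟨h, h0, ho, hT, hj⟩ := exists_bord_op hx G T.toOp hY p O
    rw [hT, hj, T.red_p h h0 ho, FF.ord_pow]

/-- The image of a unit at a supersingular point is a unit there. -/
theorem OldOp.ord_fn_unit (G : Geom M) {o p : Fin 3} (T : OldOp X o p) {c : Fin 2}
    {x : Ideal (M.R c)} (hxs : Std M c x) (hall : AllBranches M c x) {a : M.R c} (ha : a ∉ x)
    {P : Place L E} (hP : X.Cen c x P) : P.ord (ι (T.fn (a : F))) = 0 := by
  have ha0 := coe_ne_zero_of_notMem ha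
  have hao : ∀ j, M.ord j (a : F) = 0 := fun j => (ord_eq_zero_of_notMem (hall j) ha).2
  obtain ⟨r, hr, hb⟩ := T.regular c x hxs hall _ a.2
  obtain ⟨O, hO⟩ := G.exists_branchPt o c x hxs (hall o)
  have hrne := M.red_ne_zero_of_notMem (hall o) hr
  have hfo := T.ord_fn _ ha0 hao o
  have hpne := pow_ne_zero (M.q - 1) (M.red_ne_zero_of_notMem (hall 1) ha)
  have hane := M.red_ne_zero_of_notMem (hall o) ha
  have hred : M.red o ((r : F) * T.fn (a : F)) =
      M.red o (r : F) * (M.red o (a : F) * M.red 1 (a : F) ^ (M.q - 1)) := by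
    rw [M.red_mul (M.mem_of_mem r.2 o) (M.mem_of_ord_nonneg hfo.ge), T.red_o _ ha0 hao]
  have hb' : (⟨_, hb⟩ : M.R c) ∉ x := notMem_of_ord hxs (hall o) hO
    (hred ▸ mul_ne_zero hrne (mul_ne_zero hane hpne)) (by
      show O.ord (M.red o ((r : F) * T.fn (a : F))) = 0
      rw [hred, O.ord_mul hrne (mul_ne_zero hane hpne), O.ord_mul hane hpne, (hO r).2 hr,
        (hO a).2 ha, FF.ord_pow, ((branchPt_congr hxs hall hO 1) a).2 ha]
      simp)
  have h1 := (X.mem c x P hxs hP _).2 hb'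
  rw [ord_ι_mul P (coe_ne_zero_of_notMem hr) (T.fn_ne_zero _ ha0), (X.mem c x P hxs hP r).2 hr,
    zero_add] at h1
  exact h1

theorem VanishSS.oldOp (hx : ∀ i, M.ord i M.x = 0) (G : Geom M) {o p : Fin 3} (T : OldOp X o p)
    {Y : Divisor L E} (hY : HasEqs X Y) (hss : VanishSS X Y) : VanishSS X (T.div Y) := by
  intro c x hxs hall P hP
  obtain ⟨h, h0, ho, heT, heY⟩ := exists_eq_op hx T.toOp hY hxs {x} (by simpa using hxs)
  obtain ⟨a, r, ha, hr, he⟩ := exists_unit_ratio hxs h0 (fun j _ => ho j) fun P' hP' => by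
    rw [← (heY x (Finset.mem_singleton_self x)).3 P' hP', hss c x hxs hall P' hP']
  have h1 := T.ord_fn_unit G hxs hall ha hP
  rw [← he, map_mul T.fn, ord_ι_mul P (T.fn_ne_zero h h0)
    (T.fn_ne_zero _ (coe_ne_zero_of_notMem hr)), T.ord_fn_unit G hxs hall hr hP, add_zero] at h1
  rw [heT.3 P hP]
  exact h1

/-- **Old decomposition.** -/
theorem exists_old_null (hx : ∀ i, M.ord i M.x = 0) (G : Geom M)
    (α : OldOp X 0 2) (β : OldOp X 2 0) {D : Divisor L E} (hD : HasEqs X D) :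
    ∃ (h : F) (D' Y Z : Divisor L E), h ≠ 0 ∧ (∀ P, D' P = P.ord (ι h)) ∧
      IsNull X (M.q • D - M.q • D' - α.div Y - β.div Z) := by
  classical
  set S := G.finite_ss.toFinset with hSdef
  have hSmem : ∀ y, y ∈ S ↔ Std M 0 y ∧ AllBranches M 0 y := fun y => G.finite_ss.mem_toFinset
  have hg : ∀ y, ∃ g, y ∈ S → IsEq X D 0 y g := fun y => by
    by_cases hy : y ∈ S
    · obtain ⟨g, hg⟩ := hD 0 y ((hSmem y).mp hy).1
      exact ⟨g, fun _ => hg⟩
    · exact ⟨1, fun h => absurd h hy⟩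
  choose g hg using hg
  obtain ⟨h, h0, ho, heq⟩ := exists_semilocal X hx 0 S (fun y hy => ((hSmem y).mp hy).1) g
    fun y hy => ⟨(hg y hy).1, (hg y hy).2⟩
  obtain ⟨D', hD', -⟩ :=
    HasPrincipalDivisors.exists_divisor (K := L) (ι h) ((map_ne_zero ι).mpr h0)
  have hD'eq : HasEqs X D' := fun c y _ => ⟨h, h0, fun i _ => ho i, fun P _ => hD' P⟩
  set D₁ := D - D' with hD₁def
  have hD₁ : HasEqs X D₁ := by rw [hD₁def, sub_eq_add_neg]; exact hD.add hD'eq.neg
  have hss : VanishSS X D₁ := fun c y hy ha P hP => by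
    match c with
    | 0 =>
      have hyS := (hSmem y).mpr ⟨hy, ha⟩
      rw [hD₁def, Finsupp.sub_apply, hD', (hg y hyS).3 P hP, (heq y hyS).1 P hP, sub_self]
    | 1 => exact absurd ha (G.cusp y hy)
  set e := fun j O => bord X D₁ j O with hedef
  have hfin : ∀ j, {O | e j O ≠ 0}.Finite := fun j => finite_bord_ne_zero G hD₁ j
  have hzero : ∀ (i j : Fin 3) (O : Place k C) c y, Std M c y → AllBranches M c y →
      BranchPt M c y i O → e j O = 0 := fun i j O c y hy ha hO =>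
    bord_eq_zero_of_ss G hss hy ha hO j
  obtain ⟨Y0, hY0, hY0s, hY0b⟩ := exists_realise (X := X) G 0 (e := fun O => (M.q : ℤ) * e 1 O)
    ((hfin 1).subset fun O hO => right_ne_zero_of_mul hO)
    fun O c y hy ha hO => by simp [hzero 0 1 O c y hy ha hO]
  obtain ⟨Y2, hY2, hY2s, hY2b⟩ := exists_realise (X := X) G 2 (e := e 2) (hfin 2)
    fun O c y hy ha hO => hzero 2 2 O c y hy ha hO
  obtain ⟨Z, hZ, hZs, hZb⟩ := exists_realise (X := X) G 0 (e := fun O => e 0 O - e 1 O)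
    (((hfin 0).union (hfin 1)).subset fun O hO => by
      by_contra h'
      simp only [Set.mem_union, Set.mem_ofPred_eq, not_or, not_not] at h'
      exact hO (by simp [h'.1, h'.2]))
    fun O c y hy ha hO => by simp [hzero 0 0 O c y hy ha hO, hzero 0 1 O c y hy ha hO]
  set Y := Y0 + Y2 with hYdef
  have hY : HasEqs X Y := hY0.add hY2
  refine ⟨h, D', Y, Z, h0, hD', ?_⟩
  have hdiv : M.q • D - M.q • D' - α.div Y - β.div Z =
      (M.q : ℤ) • D₁ - (α.div Y + β.div Z) := by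
    rw [hD₁def, zsmul_sub, natCast_zsmul, natCast_zsmul, sub_sub]
  rw [hdiv]
  have hA := hY.op hx α.toOp
  have hB := hZ.op hx β.toOp
  refine isNull_of_bord G ?_ ?_ fun i O => ?_
  · rw [sub_eq_add_neg]; exact (hD₁.zsmul _).add (hA.add hB).neg
  · exact (hss.zsmul _).sub
      ((VanishSS.oldOp hx G α hY (hY0s.add hY2s)).add (VanishSS.oldOp hx G β hZ hZs))
  rw [bord_sub G (hD₁.zsmul _) (hA.add hB), bord_add G hA hB, bord_zsmul G hD₁]
  obtain ⟨a0, a1, a2⟩ := bord_oldOp hx G α hY O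
  obtain ⟨b2, b1, b0⟩ := bord_oldOp hx G β hZ O
  have hYb : ∀ j, bord X Y j O = bord X Y0 j O + bord X Y2 j O := fun j => bord_add G hY0 hY2 j O
  simp only [hYb, hY0b, hY2b, hZb, Fin.reduceEq, if_true, if_false, mul_zero, add_zero,
    zero_add] at a0 a1 a2 b0 b1 b2
  change (M.q : ℤ) * e i O - _ = 0
  match i with
  | 0 => rw [a0, b0]; ring
  | 1 => rw [a1, b1]; ring
  | 2 => rw [a2, b2]; ring

/-- The residues of a function with null divisor and divisor divisible by `m` are constants. -/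
theorem exists_red_eq_const (G : Geom M) {m : ℕ} {f : F} (hf : f ≠ 0) (hord : ∀ i, M.ord i f = 0)
    {D : Divisor L E} (hD : ∀ P, (m : ℤ) * D P = P.ord (ι f)) (hnull : IsNull X D) (i : Fin 3) :
    ∃ w : W, IsUnit w ∧ M.red i f = algebraMap k C (M.ρ w) := by
  have hzero : ∀ O : Place k C, O.ord (M.red i f) = 0 := fun O => by
    obtain ⟨c, y, hy, hon, hO⟩ := G.cover i O
    obtain ⟨g, hg, hg1⟩ := hnull c y hy
    have hgm : ∀ j, M.OnBranch c y j → M.ord j (g ^ m) = 0 := fun j hj => by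
      rw [M.ord_pow hg.1, hg.2 j hj, mul_zero]
    obtain ⟨a, r, ha, hr, he⟩ := exists_unit_ratio (X := X) hy
      (div_ne_zero hf (pow_ne_zero m hg.1))
      (fun j hj => by rw [M.ord_div hf (pow_ne_zero _ hg.1), hord, hgm j hj, sub_zero])
      fun P hP => by
        rw [map_div₀, map_pow, FF.ord_div _ ((map_ne_zero ι).mpr hf)
          (pow_ne_zero _ ((map_ne_zero ι).mpr hg.1)), FF.ord_pow, ← hD P, hg.3 P hP, sub_self]
    obtain ⟨hm', -, h0⟩ := ord_red_ratio hon hO ha hr he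
    have h1 := M.red_mul hm' (M.mem_of_ord_nonneg (hgm i hon).ge)
    rw [div_mul_cancel₀ _ (pow_ne_zero m hg.1),
      M.red_pow (M.mem_of_ord_nonneg (hg.2 i hon).ge), hg1 i hon, one_pow, mul_one] at h1
    rw [h1]
    exact h0
  have := M.algClosed
  have hf1 := M.red_ne_zero_of_ord hf (hord i)
  have halg : IsAlgebraic k (M.red i f) := by
    by_contra htr
    obtain ⟨O, hO⟩ := FF.exists_place_ord_pos htr
    rw [hzero O] at hO
    exact lt_irrefl _ hO
  obtain ⟨t, ht⟩ := minpoly.mem_range_of_degree_eq_one k (M.red i f)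
    (IsAlgClosed.degree_eq_one_of_irreducible k (minpoly.irreducible halg.isIntegral))
  obtain ⟨w, rfl⟩ := M.ρ_surjective t
  refine ⟨w, ?_, ht.symm⟩
  by_contra hw
  obtain ⟨d, hd⟩ : (M.q : W) ∣ w := by
    rw [← Ideal.mem_span_singleton, ← M.irreducible_q.maximalIdeal_eq]
    exact hw
  refine hf1 (ht.symm.trans ?_)
  show algebraMap k C (M.ρ w) = 0
  rw [hd, map_mul, map_mul, map_natCast M.ρ, map_natCast, M.natCast_q_eq_zero, zero_mul]

/-- **A torsion function with null divisor is trivial.** -/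
theorem eq_const_mul_pow_of_null (G : Geom M) {m : ℕ}
    (hm : IsUnit (m : W)) (hm0 : 0 < m) {f : F} (hf : f ≠ 0) (hord : ∀ i, M.ord i f = 0)
    (hor : HorizDvd W m f) {D : Divisor L E} (hD : ∀ P, (m : ℤ) * D P = P.ord (ι f))
    (hnull : IsNull X D) :
    ∃ (h : F) (w : W), h ≠ 0 ∧ w ≠ 0 ∧ h ^ m * f = algebraMap W F w := by
  classical
  choose κ hκu hκ using exists_red_eq_const (X := X) G hf hord hD hnull
  have := M.algClosed
  have hroot : ∀ z : k, ∃ t, z ≠ 0 → IsUnit t ∧ z * M.ρ t ^ m = 1 := fun z => by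
    by_cases hz : z = 0
    · exact ⟨1, fun h => absurd hz h⟩
    obtain ⟨t, ht⟩ := IsAlgClosed.exists_pow_nat_eq z⁻¹ hm0
    obtain ⟨w, rfl⟩ := M.ρ_surjective t
    refine ⟨w, fun _ => ⟨?_, by rw [ht, mul_inv_cancel₀ hz]⟩⟩
    by_contra hw
    obtain ⟨d, hd⟩ : (M.q : W) ∣ w := by
      rw [← Ideal.mem_span_singleton, ← M.irreducible_q.maximalIdeal_eq]
      exact hw
    have hq : M.ρ (M.q : W) = 0 := (algebraMap k C).injective (by
      rw [map_natCast M.ρ, map_natCast, map_zero]; exact M.natCast_q_eq_zero)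
    rw [hd, map_mul, hq, zero_mul, zero_pow hm0.ne'] at ht
    exact inv_ne_zero hz ht.symm
  choose τ hτ using hroot
  have hκ0 : ∀ i, M.ρ (κ i) ≠ 0 := fun i => ((hκu i).map M.ρ).ne_zero
  let s : Fin 3 → C := fun i => algebraMap k C (M.ρ (τ (M.ρ (κ i))))
  have hs : M.IsBranchRoots m f s := fun i => by
    show M.red i f * algebraMap k C (M.ρ (τ (M.ρ (κ i)))) ^ m = 1
    rw [hκ, ← map_pow, ← map_mul, (hτ _ (hκ0 i)).2, map_one]
  let P : M.SSPts {y : Ideal (M.R 0) // Std M 0 y ∧ AllBranches M 0 y} :=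
    { y := fun σ => σ.1
      maximal := fun σ => σ.2.1.1
      q_mem := fun σ => σ.2.1.2.1
      on := fun σ => σ.2.2
      cover := fun y' h1 h2 h3 => ⟨⟨y', ⟨h1, h2, fun h => absurd h (by decide)⟩, h3⟩, rfl⟩
      inv_notMem := fun y' h1 h2 h3 h4 => G.cusp y' ⟨h1, h2, fun _ r hr => by
        rwa [show r = ⟨M.x⁻¹, M.x_inv_mem⟩ from Subtype.ext hr]⟩ h3 }
  refine P.exists_root hm hm0 hf hord hor hs fun σ => ?_
  obtain ⟨y, hy, hall⟩ := σ
  have := hy.1
  obtain ⟨g, hg, hg1⟩ := hnull 0 y hy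
  have hgi : ∀ j, M.ord j g⁻¹ = 0 := fun j => by rw [M.ord_inv hg.1, hg.2 j (hall j), neg_zero]
  obtain ⟨a, r, ha, hr, he⟩ := exists_unit_ratio (X := X) hy
    (mul_ne_zero (pow_ne_zero m (inv_ne_zero hg.1)) hf)
    (fun j _ => by
      rw [M.ord_mul j _ _ (pow_ne_zero m (inv_ne_zero hg.1)) hf,
        M.ord_pow (inv_ne_zero hg.1), hgi, hord, mul_zero, add_zero])
    fun Q hQ => by
      rw [ord_ι_mul Q (pow_ne_zero m (inv_ne_zero hg.1)) hf, map_pow, FF.ord_pow, ord_ι_inv,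
        ← hD Q, hg.3 Q hQ]
      ring
  have hginv : ∀ j, M.red j g⁻¹ = 1 := fun j => by
    have h1 := M.red_mul (M.mem_of_ord_nonneg (hg.2 j (hall j)).ge)
      (M.mem_of_ord_nonneg (hgi j).ge)
    rw [mul_inv_cancel₀ hg.1, M.red_one, hg1 j (hall j), one_mul] at h1
    exact h1.symm
  have hgV : ∀ j, g⁻¹ ∈ M.Br.V j := fun j => M.mem_of_ord_nonneg (hgi j).ge
  -- all constants agree at the point
  have hva : ∀ j, Ideal.Quotient.mk y a =
      Ideal.Quotient.mk y (algebraMap W (M.R 0) (κ j) * r) := fun j => by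
    refine M.mk_eq_of_red_eq (hall j) ?_
    rw [← he, MulMemClass.coe_mul,
      show ((algebraMap W (M.R 0) (κ j) : M.R 0) : F) = algebraMap W F (κ j) from rfl,
      M.red_mul (mul_mem (pow_mem (hgV j) m) (M.mem_of_ord_nonneg (hord j).ge)) (M.mem_of_mem r.2 j),
      M.red_mul (pow_mem (hgV j) m) (M.mem_of_ord_nonneg (hord j).ge), M.red_pow (hgV j), hginv,
      one_pow, one_mul, M.red_mul (M.const_mem j _) (M.mem_of_mem r.2 j), M.red_const, hκ]
  have hκeq : ∀ i j, M.ρ (κ i) = M.ρ (κ j) := fun i j => by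
    refine M.eq_of_ρ_eq hy.2.1 ?_
    refine mul_right_cancel₀ (b := Ideal.Quotient.mk y r)
      (by rwa [Ne, Ideal.Quotient.eq_zero_iff_mem]) ?_
    rw [← map_mul, ← map_mul, ← hva i, ← hva j]
  obtain ⟨n, rfl⟩ := Nat.exists_eq_succ_of_ne_zero hm0.ne'
  have hu : r ^ n * a ∉ y := fun h => (hy.1.isPrime.mem_or_mem h).elim
    (fun h' => hr (hy.1.isPrime.mem_of_pow_mem n h')) ha
  set t : W := τ (M.ρ (κ 0)) with ht
  obtain ⟨t', ht'⟩ := (hτ _ (hκ0 0)).1.exists_right_inv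
  refine ⟨fun _ => Ideal.Quotient.mk y (r * algebraMap W (M.R 0) t'),
    ⟨g⁻¹ * (r : F), r ^ n * a, hu, ?_, fun i => mul_mem (hgV i) (M.mem_of_mem r.2 i),
      fun i _ => ⟨r * algebraMap W (M.R 0) t', 1,
        fun h => hy.1.ne_top ((Ideal.eq_top_iff_one _).mpr h), ?_, by rw [map_one, mul_one]⟩⟩,
    fun _ _ => rfl⟩
  · rw [MulMemClass.coe_mul, SubmonoidClass.coe_pow, ← he, mul_pow, pow_succ (r : F) n]
    ring
  · have hsi : s i = algebraMap k C (M.ρ t) := by
      show algebraMap k C (M.ρ (τ (M.ρ (κ i)))) = _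
      rw [hκeq i 0]
    rw [show ((1 : M.R 0) : F) = 1 from rfl, M.red_one, mul_one,
      M.red_mul (hgV i) (M.mem_of_mem r.2 i), hginv, one_mul, hsi, MulMemClass.coe_mul,
      show ((algebraMap W (M.R 0) t' : M.R 0) : F) = algebraMap W F t' from rfl,
      M.red_mul (M.mem_of_mem r.2 i) (M.const_mem i t'), M.red_const,
      div_eq_mul_inv, ← map_inv₀,
      ← eq_inv_of_mul_eq_one_right (a := M.ρ t) (b := M.ρ t') (by rw [← map_mul, ht', map_one])]

end Fermat.Agent.LowerSq.Null
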