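/-
Classes of null divisors: stable under the Hecke operators; a fixed torsion class of a null divisor
is killed by `T_l - l - 1`.
-/
import Fermat.Agent.LowerSq.Null.Residual
import Fermat.Agent.Carayol.HeckeOrders
import Fermat.Agent.LL.Mazur.HeckeNorm
import Fermat.Agent.TraceFn.JZero
import Fermat.Agent.LowerSq.Defs

set_option autoImplicit false
set_option linter.unusedSectionVars false
set_option linter.style.haveILetI false

noncomputable section

open AlgebraicCurve ModularCurve

namespace Fermat.Agent.LowerSq.Null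

open Carayol
open Fermat.Agent.HK.Corr

local notation "Qb" => AlgebraicClosure ℚ

section Level

variable {N : ℕ} [NeZero N]

/-- The class map. -/
def mkHom : Divisor.degZero (K := Qb) (F := modularFunctionFieldBar N) →+ JZero N where
  toFun := Pic0.mk
  map_zero' := Pic0.mk_zero
  map_add' := Pic0.mk_add

theorem mkHom_apply (D : Divisor.degZero (K := Qb) (F := modularFunctionFieldBar N)) :
    mkHom D = Pic0.mk D := rfl

/-- The divisor `(T_l - l - 1) D`. -/
def eisDiv (l : ℕ) [NeZero l] :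
    Divisor Qb (modularFunctionFieldBar N) →+ Divisor Qb (modularFunctionFieldBar N) :=
  LL.Mazur.heckeDiv N l - (l + 1) • AddMonoidHom.id _

theorem eisDiv_apply (l : ℕ) [NeZero l] (D : Divisor Qb (modularFunctionFieldBar N)) :
    eisDiv l D = LL.Mazur.heckeDiv N l D - (l + 1) • D := rfl

theorem eisDiv_mem_degZero (l : ℕ) [NeZero l]
    {D : Divisor Qb (modularFunctionFieldBar N)}
    (hD : D ∈ Divisor.degZero (K := Qb) (F := modularFunctionFieldBar N)) :
    eisDiv l D ∈ Divisor.degZero (K := Qb) (F := modularFunctionFieldBar N) :=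
  sub_mem (LL.Mazur.heckeDiv_mem_degZero N l hD) (nsmul_mem hD _)

theorem jHecke_heckeGen (ℓ : Nat.Primes) (x : JZero N) :
    TraceFn.jHecke N (heckeGen ℓ) x = heckeOperatorBar N ℓ x := by
  have h := HK.Corr.heckeOperatorsCommuteBar N
  rw [TraceFn.jHecke_apply, heckeModuleBar_smul_def h, heckeEvalBar_heckeGen]

theorem jHecke_eisOp {S : Finset ℕ} {l : ℕ} [NeZero l] (hl : l.Prime) (hlS : l ∉ S)
    (D : Divisor.degZero (K := Qb) (F := modularFunctionFieldBar N)) :
    TraceFn.jHecke N (TraceFn.awayIncl S (eisOp S l)) (Pic0.mk D) =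
      Pic0.mk ⟨eisDiv l D, eisDiv_mem_degZero l D.2⟩ := by
  rw [eisOp, map_sub, TraceFn.awayIncl_awayGen hl hlS, map_sub]
  show TraceFn.jHecke N (heckeGen ⟨l, hl⟩) (Pic0.mk D) -
    TraceFn.jHecke N (TraceFn.awayIncl S (MvPolynomial.C ((l : ℤ) + 1))) (Pic0.mk D) = _
  rw [jHecke_heckeGen, LL.Mazur.heckeOperatorBar_mk N l ⟨l, hl⟩ rfl,
    show (MvPolynomial.C ((l : ℤ) + 1) : TraceFn.AwayHecke S) =
      ((l + 1 : ℕ) : TraceFn.AwayHecke S) by rw [← map_natCast MvPolynomial.C]; push_cast; rfl,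
    map_natCast, map_natCast, AddMonoid.End.natCast_apply]
  rw [← mkHom_apply D, ← map_nsmul, ← mkHom_apply, ← map_sub]
  exact congrArg Pic0.mk (Subtype.ext rfl)

/-- The norm defining `T_l` on divisors is the Hecke operator on functions. -/
theorem heckeNorm_eq (l : ℕ) [NeZero l] (x : modField Qb N) :
    LL.Mazur.heckeNorm N l x = heckeFn Qb N l x := by
  have ha : heckeAlphaBar Qb N l = HK.Corr.degenMap Qb 1 (heckeDvdOne N l) :=
    AlgHom.ext fun y => Subtype.ext
      ((coe_heckeAlphaBar N _ y).trans (qExpand_one_apply _).symm)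
  have hb : heckeBetaBar Qb N l x = HK.Corr.degenMap Qb l (dvd_refl _) x :=
    Subtype.ext (coe_heckeBetaBar (L := Qb) N _ _)
  show (letI := algebraAlong (heckeAlphaBar Qb N l);
    Algebra.norm (modularFunctionFieldBar N) (heckeBetaBar Qb N l x)) = _
  rw [ha, hb]
  rfl

end Level

section Classes

variable {N : ℕ} [NeZero N] {K : Type} [Field K] [Algebra ℚ K] {κ : K →+* Qb} {W k C : Type}
  [CommRing W] [IsDomain W] [IsDiscreteValuationRing W] [Algebra W (modField K N)] [Field k]
  [Field C] [Algebra k C] {M : Model W (modField K N) k C}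
  {X : Pts M Qb (fieldExt κ N : modField K N →+* modularFunctionFieldBar N)}

variable (X) in
/-- The class of a null divisor. -/
def IsNullClass (z : JZero N) : Prop :=
  ∃ D : Divisor.degZero (K := Qb) (F := modularFunctionFieldBar N),
    Pic0.mk D = z ∧ IsNull X (D : Divisor Qb (modularFunctionFieldBar N))

theorem IsNullClass.add {z w : JZero N} (hz : IsNullClass X z) (hw : IsNullClass X w) :
    IsNullClass X (z + w) := by
  haveI := hasPrincipalDivisors_level Qb N
  obtain ⟨D, rfl, hD⟩ := hz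
  obtain ⟨E, rfl, hE⟩ := hw
  exact ⟨D + E, Pic0.mk_add D E, hD.add hE⟩

theorem isNullClass_zero : IsNullClass X (0 : JZero N) := by
  haveI := hasPrincipalDivisors_level Qb N
  exact ⟨0, Pic0.mk_zero, isNull_zero⟩

theorem IsNullClass.neg {z : JZero N} (hz : IsNullClass X z) : IsNullClass X (-z) := by
  haveI := hasPrincipalDivisors_level Qb N
  obtain ⟨D, rfl, hD⟩ := hz
  exact ⟨-D, map_neg mkHom D, hD.neg⟩

variable {S : Finset ℕ} (hx : ∀ i, M.ord i M.x = 0)
  (hT : ∀ l : ℕ, l.Prime → l ∉ S → ∀ [NeZero l], ∃ T : Op X, T.div = LL.Mazur.heckeDiv N l)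

include hx hT in
/-- The Hecke operators preserve the classes of null divisors. -/
theorem IsNullClass.jHecke (t : TraceFn.AwayHecke S) {z : JZero N} (hz : IsNullClass X z) :
    IsNullClass X (TraceFn.jHecke N (TraceFn.awayIncl S t) z) := by
  induction t using MvPolynomial.induction_on generalizing z with
  | C a =>
    rw [eq_intCast MvPolynomial.C a, map_intCast, map_intCast, AddMonoid.End.intCast_apply]
    induction a using Int.induction_on with
    | zero => rw [zero_zsmul]; exact isNullClass_zero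
    | succ a ih => rw [add_zsmul, one_zsmul]; exact ih.add hz
    | pred a ih => rw [sub_zsmul, one_zsmul]; exact ih.add hz.neg
  | add s t hs ht =>
    rw [map_add, map_add]
    exact (hs hz).add (ht hz)
  | mul_X s i hs =>
    rw [map_mul, map_mul]
    refine hs ?_
    haveI : NeZero ((i.1 : Nat.Primes) : ℕ) := ⟨i.1.2.ne_zero⟩
    haveI := hasPrincipalDivisors_level Qb N
    obtain ⟨D, rfl, hD⟩ := hz
    obtain ⟨T, hT'⟩ := hT i.1 i.1.2 i.2
    rw [show TraceFn.awayIncl S (MvPolynomial.X i) = heckeGen i.1 from MvPolynomial.rename_X _ _]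
    exact ⟨_, ((jHecke_heckeGen i.1 (Pic0.mk D)).trans
      (LL.Mazur.heckeOperatorBar_mk N _ i.1 rfl D)).symm,
      show IsNull X (LL.Mazur.heckeDiv N i.1 D) from DFunLike.congr_fun hT' _ ▸ hD.op hx T⟩

include hx hT in
theorem IsNull.eisDiv {l : ℕ} [NeZero l] (hl : l.Prime) (hlS : l ∉ S)
    {D : Divisor Qb (modularFunctionFieldBar N)} (hD : IsNull X D) :
    IsNull X (Null.eisDiv l D) := by
  haveI := hasPrincipalDivisors_level Qb N
  obtain ⟨T, hT'⟩ := hT l hl hlS
  have hn : ∀ n : ℕ, IsNull X (n • D) := fun n => by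
    induction n with
    | zero => rw [zero_nsmul]; exact isNull_zero
    | succ n ih => rw [succ_nsmul]; exact ih.add hD
  rw [eisDiv_apply, sub_eq_add_neg]
  exact IsNull.add (DFunLike.congr_fun hT' D ▸ hD.op hx T) (hn _).neg

variable [Algebra W K] [IsFractionRing W K] [IsScalarTower W K (modField K N)]
  [Fermat.Agent.FF.IsFunctionField k C] (G : Geom M) (H : Subgroup (Qb ≃ₐ[ℚ] Qb))
  (hK : ∀ x : Qb, x ∈ κ.range ↔ ∀ σ ∈ H, σ x = x)
  (hcen : ∀ σ ∈ H, ∀ (c : Fin 2) (y : Ideal (M.R c))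
    (P : Place Qb (modularFunctionFieldBar N)), Std M c y → X.Cen c y P →
      X.Cen c y (arithmeticGalois (modularFunctionFieldFull N) σ • P))

include hK in
theorem galFun_fieldExt {σ : Qb ≃ₐ[ℚ] Qb} (hσ : σ ∈ H) (f : modField K N) :
    galFun σ (fieldExt κ N f) = fieldExt κ N f := Subtype.ext (by
  rw [coe_galFun, coe_fieldExt, coeffMap_coeffMap]
  exact coeffMap_congr (RingHom.ext fun a => (hK (κ a)).mp ⟨a, rfl⟩ σ hσ) _)

include hK hcen in
/-- A null divisor is invariant under the group. -/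
theorem IsNull.apply_smul {D : Divisor Qb (modularFunctionFieldBar N)} (hD : IsNull X D)
    {σ : Qb ≃ₐ[ℚ] Qb} (hσ : σ ∈ H) (P : Place Qb (modularFunctionFieldBar N)) :
    D (arithmeticGalois (modularFunctionFieldFull N) σ • P) = D P := by
  obtain ⟨c, y, hy, hP⟩ := X.exists_cen P
  obtain ⟨g, hg, -⟩ := hD c y hy
  rw [hg.apply_eq _ (hcen σ hσ c y P hy hP), hg.apply_eq P hP]
  conv_lhs => rw [show (fieldExt κ N g : modularFunctionFieldBar N) =
    galFun σ (fieldExt κ N g) from (galFun_fieldExt H hK hσ g).symm]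
  exact SemilinearAut.ord_smul _ P _

variable {p : ℕ} [Fact p.Prime] (hpW : IsUnit (p : W))

include hK hcen in
/-- A torsion class of a null divisor comes from a function over the fixed field. -/
theorem exists_fixed_function_of_null {D : Divisor.degZero (K := Qb) (F := modularFunctionFieldBar N)}
    (hD : IsNull X (D : Divisor Qb (modularFunctionFieldBar N))) (hp : p • Pic0.mk D = 0) :
    ∃ f : modField K N, f ≠ 0 ∧
      ∀ v, (p : ℤ) * (D : Divisor Qb (modularFunctionFieldBar N)) v = v.ord (fieldExt κ N f) := by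
  have h0 : Pic0.mk (p • D) = 0 := (map_nsmul mkHom p D).trans hp
  rw [Pic0.mk, QuotientAddGroup.eq_zero_iff, AddSubgroup.mem_addSubgroupOf,
    AddSubgroup.coe_nsmul, Divisor.mem_principal] at h0
  obtain ⟨f₀, hf₀, hf₀D⟩ := h0
  obtain ⟨g, hg, hglc, -, hgord⟩ := exists_normalized_function hf₀
  have hgD : ∀ v, v.ord g = (p : ℤ) * (D : Divisor Qb (modularFunctionFieldBar N)) v := fun v => by
    rw [hgord, ← hf₀D v, Finsupp.smul_apply, nsmul_eq_mul]
  have hfix : ∀ σ ∈ H, coeffMap ((σ : Qb ≃ₐ[ℚ] Qb) : Qb →+* Qb) (g : LaurentSeries Qb) = g := by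
    intro σ hσ
    have hσg : galFun σ g ≠ 0 := (map_ne_zero _).mpr hg
    obtain ⟨c, -, hc⟩ := exists_const_mul_of_ord_eq hσg hg fun v => by
      set A := arithmeticGalois (modularFunctionFieldFull N) σ
      have e1 : v.ord (galFun σ g) = (A⁻¹ • v).ord g := by
        have h := SemilinearAut.ord_smul A (A⁻¹ • v) g
        rw [smul_inv_smul] at h
        exact h
      have e2 := hD.apply_smul H hK hcen hσ (A⁻¹ • v)
      rw [smul_inv_smul] at e2
      rw [e1, hgD, hgD, e2]
    have hlc := congrArg (fun x : modField Qb N => (x : LaurentSeries Qb).leadingCoeff) hc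
    simp only [coe_galFun, IntermediateField.coe_mul, HahnSeries.leadingCoeff_mul,
      leadingCoeff_coeffMap, hglc, map_one, mul_one] at hlc
    rw [show ((algebraMap Qb (modField Qb N) c : modField Qb N) : LaurentSeries Qb) =
      algebraMap Qb (LaurentSeries Qb) c from rfl, leadingCoeff_algebraMap] at hlc
    have h1 : galFun σ g = g := by rw [hc, ← hlc, map_one, one_mul]
    exact congrArg (Subtype.val : modField Qb N → LaurentSeries Qb) h1
  obtain ⟨f, hf⟩ := exists_fieldExt_eq κ hK g hfix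
  exact ⟨f, fun e => hg (by rw [← hf, e, map_zero]), fun v => by rw [hf, hgD]⟩

variable (heis : ∀ l : ℕ, l.Prime → l ∉ S → ∀ [NeZero l] (f : modField K N), f ≠ 0 →
  ∀ i, M.ord i (eisFn K N l f) = 0)
  (hNS : ∀ r : ℕ, r.Prime → r ∣ N → r ∈ S)

include hNS heis in
/-- The function of `(T_l - l - 1) D`. -/
theorem exists_eisFn {l : ℕ} [NeZero l] (hl : l.Prime) (hlS : l ∉ S)
    {D : Divisor Qb (modularFunctionFieldBar N)} {f : modField K N} (hf : f ≠ 0)
    (hfD : ∀ v, (p : ℤ) * D v = v.ord (fieldExt κ N f)) :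
    eisFn K N l f ≠ 0 ∧ (∀ i, M.ord i (eisFn K N l f) = 0) ∧
      ∀ v, (p : ℤ) * Null.eisDiv l D v = v.ord (fieldExt κ N (eisFn K N l f)) := by
  have hlN : ¬ l ∣ N := fun h => hlS (hNS l hl h)
  have hf' : fieldExt κ N f ≠ 0 := (map_ne_zero _).mpr hf
  refine ⟨eisFn_ne_zero hf, heis l hl hlS f hf, fun v => ?_⟩
  have h := LL.Mazur.isDivisorOf_heckeNorm N l (f := fieldExt κ N f) hf' (E := p • D)
    (fun w => by rw [Finsupp.smul_apply, nsmul_eq_mul, hfD]) v
  rw [map_nsmul, Finsupp.smul_apply, nsmul_eq_mul, heckeNorm_eq] at h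
  rw [eisDiv_apply, Finsupp.sub_apply, mul_sub, h, Finsupp.smul_apply, nsmul_eq_mul,
    mul_left_comm, hfD, eisFn, map_mul, map_inv₀, map_pow, ← heckeFn_fieldExt κ hl hlN,
    v.ord_mul (heckeFn_ne_zero hf') (inv_ne_zero (pow_ne_zero _ hf')), v.ord_inv, FF.ord_pow]
  ring

include hx hT G hK hcen hpW heis hNS in
/-- A torsion class of a null divisor is killed by `T_l - l - 1`. -/
theorem IsNullClass.eisOp_eq_zero {l : ℕ} (hl : l.Prime) (hlS : l ∉ S) {z : JZero N}
    (hz : IsNullClass X z) (hp : p • z = 0) :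
    TraceFn.jHecke N (TraceFn.awayIncl S (eisOp S l)) z = 0 := by
  haveI : NeZero l := ⟨hl.ne_zero⟩
  haveI := hasPrincipalDivisors_level Qb N
  obtain ⟨D, rfl, hD⟩ := hz
  obtain ⟨f, hf, hfD⟩ := exists_fixed_function_of_null H hK hcen hD hp
  obtain ⟨hg0, hgo, hgD⟩ := exists_eisFn heis hNS hl hlS hf hfD
  have hp0 : p ≠ 0 := (Fact.out : p.Prime).ne_zero
  have hor : HorizDvd W p (eisFn K N l f) :=
    horizDvd_of_fieldExt κ p hg0 fun v => ⟨_, (hgD v).symm⟩
  obtain ⟨h, w, hh, hw, he⟩ := eq_const_mul_pow_of_null G hpW (Nat.pos_of_ne_zero hp0) hg0 hgo hor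
    hgD (hD.eisDiv hx hT hl hlS)
  rw [jHecke_eisOp hl hlS, Pic0.mk, QuotientAddGroup.eq_zero_iff, AddSubgroup.mem_addSubgroupOf,
    Divisor.mem_principal]
  refine ⟨(fieldExt κ N h)⁻¹, inv_ne_zero ((map_ne_zero _).mpr hh), fun v => ?_⟩
  have h1 := congrArg (fun a => v.ord (fieldExt κ N a)) he
  simp only [map_mul, map_pow] at h1
  rw [v.ord_mul (pow_ne_zero _ ((map_ne_zero _).mpr hh)) ((map_ne_zero _).mpr hg0), FF.ord_pow,
    ← hgD, IsScalarTower.algebraMap_apply W K (modField K N), fieldExt_algebraMap,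
    FF.ord_algebraMap, ← mul_add] at h1
  have h2 := (mul_eq_zero.mp h1).resolve_left (by exact_mod_cast hp0)
  rw [v.ord_inv]
  linarith

end Classes

end Fermat.Agent.LowerSq.Null
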