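/-
Level lowering from `q² L` to `q L` from the geometry at `q`: operators killing the old classes act
nilpotently, after multiplication by `T_l - l - 1`, on the fixed torsion.
-/
import Fermat.Agent.LowerSq.Null.Classes

set_option autoImplicit false
set_option linter.unusedSectionVars false
set_option linter.style.haveILetI false

noncomputable section

open AlgebraicCurve ModularCurve

namespace Fermat.Agent.LowerSq.Null

open Carayol
open Fermat.Agent.HK.Corr

local notation "Qb" => AlgebraicClosure ℚ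

variable {N : ℕ} [NeZero N] {K : Type} [Field K] [Algebra ℚ K] {κ : K →+* Qb} {W k C : Type}
  [CommRing W] [IsDomain W] [IsDiscreteValuationRing W] [Algebra W (modField K N)] [Field k]
  [Field C] [Algebra k C] {M : Model W (modField K N) k C}
  {X : Pts M Qb (fieldExt κ N : modField K N →+* modularFunctionFieldBar N)}
  [Algebra W K] [IsFractionRing W K] [IsScalarTower W K (modField K N)]
  [Fermat.Agent.FF.IsFunctionField k C]

/-- **Lowering from the data at `q`.** -/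
theorem exists_pow_kills_of_null (hx : ∀ i, M.ord i M.x = 0) (G : Geom M) {S : Finset ℕ}
    (hT : ∀ l : ℕ, l.Prime → l ∉ S → ∀ [NeZero l], ∃ T : Op X, T.div = LL.Mazur.heckeDiv N l)
    (heis : ∀ l : ℕ, l.Prime → l ∉ S → ∀ [NeZero l] (f : modField K N), f ≠ 0 →
      ∀ i, M.ord i (eisFn K N l f) = 0)
    (hNS : ∀ r : ℕ, r.Prime → r ∣ N → r ∈ S) (H : Subgroup (Qb ≃ₐ[ℚ] Qb))
    (hK : ∀ x : Qb, x ∈ κ.range ↔ ∀ σ ∈ H, σ x = x)
    (hcen : ∀ σ ∈ H, ∀ (c : Fin 2) (y : Ideal (M.R c))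
      (P : Place Qb (modularFunctionFieldBar N)), Std M c y → X.Cen c y P →
        X.Cen c y (arithmeticGalois (modularFunctionFieldFull N) σ • P))
    (α : OldOp X 0 2) (β : OldOp X 2 0) {p : ℕ} [Fact p.Prime] (hpW : IsUnit (p : W))
    (hqp : M.q.Coprime p) {l : ℕ} [NeZero l] (hl : l.Prime) (hlS : l ∉ S)
    (t : TraceFn.AwayHecke S)
    (hα : ∀ Y, ∃ Z : Divisor.degZero (K := Qb) (F := modularFunctionFieldBar N),
      (Z : Divisor Qb (modularFunctionFieldBar N)) = eisDiv l (α.div Y) ∧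
        TraceFn.jHecke N (TraceFn.awayIncl S t) (Pic0.mk Z) = 0)
    (hβ : ∀ Y, ∃ Z : Divisor.degZero (K := Qb) (F := modularFunctionFieldBar N),
      (Z : Divisor Qb (modularFunctionFieldBar N)) = eisDiv l (β.div Y) ∧
        TraceFn.jHecke N (TraceFn.awayIncl S t) (Pic0.mk Z) = 0)
    (P : JZero N) (hP : p • P = 0) (hfix : ∀ σ ∈ H, σ • P = P) :
    ∃ n : ℕ, TraceFn.jHecke N (TraceFn.awayIncl S ((t * eisOp S l) ^ n)) P = 0 := by
  haveI := hasPrincipalDivisors_level Qb N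
  have hp : p.Prime := Fact.out
  set e := TraceFn.jHecke N (TraceFn.awayIncl S (eisOp S l))
  set T := TraceFn.jHecke N (TraceFn.awayIncl S t)
  -- the function of the class
  obtain ⟨D, g, rfl, hg, hgD, hgfix⟩ := exists_fixed_function H hp.ne_zero P hP hfix
  obtain ⟨f₀, rfl⟩ := exists_fieldExt_eq κ hK g fun σ hσ =>
    congrArg (Subtype.val : modField Qb N → LaurentSeries Qb) (hgfix σ hσ)
  have hf₀ : f₀ ≠ 0 := fun h => hg (by rw [h, map_zero])
  obtain ⟨hf, hfo, hfD⟩ := exists_eisFn heis hNS hl hlS hf₀ hgD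
  have hor : HorizDvd W p (eisFn K N l f₀) :=
    horizDvd_of_fieldExt κ p hf fun v => ⟨_, (hfD v).symm⟩
  set D1 : Divisor.degZero (K := Qb) (F := modularFunctionFieldBar N) :=
    ⟨eisDiv l D, eisDiv_mem_degZero l D.2⟩
  have hD1 : e (Pic0.mk D) = Pic0.mk D1 := jHecke_eisOp hl hlS D
  -- its old and null parts
  obtain ⟨h, D', Y, Z, hh, hD', hnull⟩ :=
    exists_old_null hx G α β (hasEqs_of_torsion (X := X) hp.pos hf hfo hor hfD)
  have hh' : fieldExt κ N h ≠ 0 := (map_ne_zero _).mpr hh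
  obtain ⟨E, hE, hE0⟩ := HasPrincipalDivisors.exists_divisor (K := Qb) (fieldExt κ N h) hh'
  obtain rfl : D' = E := Finsupp.ext fun v => by rw [hD', hE]
  set Dh : Divisor.degZero (K := Qb) (F := modularFunctionFieldBar N) :=
    ⟨D', Divisor.mem_degZero.mpr hE0⟩
  have hDh : Pic0.mk Dh = 0 := by
    rw [Pic0.mk, QuotientAddGroup.eq_zero_iff, AddSubgroup.mem_addSubgroupOf]
    exact Divisor.mem_principal.mpr ⟨_, hh', hD'⟩
  obtain ⟨Za, hZa, hka⟩ := hα Y
  obtain ⟨Zb, hZb, hkb⟩ := hβ Z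
  set N0 : Divisor.degZero (K := Qb) (F := modularFunctionFieldBar N) :=
    M.q • ⟨eisDiv l D1, eisDiv_mem_degZero l D1.2⟩ - M.q • ⟨eisDiv l Dh, eisDiv_mem_degZero l Dh.2⟩
      - Za - Zb
  have hN0 : IsNullClass X (Pic0.mk N0) := by
    refine ⟨N0, rfl, ?_⟩
    have h1 := hnull.eisDiv hx hT hl hlS
    rw [map_sub, map_sub, map_sub, map_nsmul, map_nsmul, ← hZa, ← hZb] at h1
    exact h1
  have hkey : T (Pic0.mk N0) = M.q • T (e (e (Pic0.mk D))) := by
    rw [← mkHom_apply N0, map_sub mkHom, map_sub mkHom, map_sub mkHom, map_nsmul mkHom, map_nsmul mkHom]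
    simp only [mkHom_apply]
    rw [map_sub, map_sub, map_sub, map_nsmul, map_nsmul, hka, hkb, sub_zero, sub_zero,
      ← jHecke_eisOp hl hlS Dh, hDh, map_zero, map_zero, smul_zero, sub_zero,
      ← jHecke_eisOp hl hlS D1, ← hD1]
  have hnull' : IsNullClass X (M.q • T (e (e (Pic0.mk D)))) := hkey ▸ hN0.jHecke hx hT t
  have hz : e (M.q • T (e (e (Pic0.mk D)))) = 0 :=
    hnull'.eisOp_eq_zero hx hT G H hK hcen hpW heis hNS hl hlS (by
      rw [nsmul_left_comm, ← map_nsmul T, ← map_nsmul e, ← map_nsmul e, hP, map_zero, map_zero,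
        map_zero, smul_zero])
  refine ⟨3, ?_⟩
  set Q := TraceFn.jHecke N (TraceFn.awayIncl S (t * eisOp S l ^ 3)) (Pic0.mk D) with hQ
  have hQq : M.q • Q = 0 := by
    rw [← hz, map_nsmul, hQ]
    congr 1
    show _ = e (T (e (e (Pic0.mk D))))
    rw [show t * eisOp S l ^ 3 = eisOp S l * (t * (eisOp S l * eisOp S l)) by ring]
    simp only [map_mul]
    rfl
  have hQp : p • Q = 0 := by rw [hQ, ← map_nsmul, hP, map_zero]
  have hQ0 : Q = 0 := AddMonoid.addOrderOf_eq_one_iff.mp (Nat.eq_one_of_dvd_coprimes hqp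
    (addOrderOf_dvd_of_nsmul_eq_zero hQq) (addOrderOf_dvd_of_nsmul_eq_zero hQp))
  rw [show (t * eisOp S l) ^ 3 = t ^ 2 * (t * eisOp S l ^ 3) by ring, map_mul, map_mul]
  show TraceFn.jHecke N (TraceFn.awayIncl S (t ^ 2)) Q = 0
  rw [hQ0, map_zero]

end Fermat.Agent.LowerSq.Null
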