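import Fermat.Agent.BAD.Modular.PushHecke
import Fermat.Agent.Carayol.Degen
import Fermat.Agent.LL.Mazur.KillsPoints

/-!
# The old part is killed

Pullbacks along the degeneracy maps from level `M` to level `M q` commute with the good Hecke
operators, on divisors and on classes.  So, for every divisor `Y` of level `M q`, the class of
`(T_ℓ - (ℓ + 1))(π* π_* Y)` comes from level `M`, and is killed by every good Hecke polynomial
vanishing on the cusp forms of level `M`.
-/

set_option autoImplicit false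
set_option linter.style.haveILetI false

noncomputable section

open AlgebraicCurve ModularCurve IntermediateField
open Fermat.Agent.HK.Corr

namespace Fermat.Agent.LowerSq.Null

section Field

variable (L : Type*) [Field L] [Algebra ℚ L]

/-- `L(j, j_{ab}) ⊆ L(j_a, j_b)`, by the degrees. -/
theorem modField_le_adjoin_pair {a b : ℕ} [NeZero a] [NeZero b] (hab : a.Coprime b) :
    modField L (a * b) ≤
      adjoin L ({qExpand L a (jSer L), qExpand L b (jSer L)} : Set (LaurentSeries L)) := by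
  have : CharZero L := charZero_of_injective_algebraMap (algebraMap ℚ L).injective
  obtain ⟨σ, hσ₁, hσ₂⟩ := BAD.Modular.exists_atkinEmbedding L a b hab
  have hD : DegreeInput L := degreeInput L
  let F := adjoin L ({qExpand L 1 (jSer L), qExpand L (a * b) (jSer L)} : Set (LaurentSeries L))
  let E := adjoin L ({qExpand L a (jSer L), qExpand L b (jSer L)} : Set (LaurentSeries L))
  have hF : modField L (a * b) = F := by
    rw [modField_eq_pair (functionFieldGeneration_all (a * b))]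
    show _ = adjoin L ({qExpand L 1 (jSer L), qExpand L (a * b) (jSer L)} : Set (LaurentSeries L))
    rw [BAD.Modular.qExpand_one_jSer]
  have hEF : E ≤ modField L (a * b) := adjoin_le_iff.mpr (by
    rintro z (rfl | rfl)
    · exact qExpand_jSer_mem (dvd_mul_right a b)
    · exact qExpand_jSer_mem (dvd_mul_left b a))
  let y : F := ⟨qExpand L 1 (jSer L), subset_adjoin L _ (Set.mem_insert _ _)⟩
  let z : F := ⟨qExpand L (a * b) (jSer L), subset_adjoin L _ (Set.mem_insert_of_mem _ rfl)⟩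
  have htop : (⊤ : IntermediateField L F) = adjoin L {y, z} := by
    refine IntermediateField.map_injective F.val ?_
    rw [adjoin_map, Set.image_pair, ← AlgHom.fieldRange_eq_map, fieldRange_val]
    rfl
  have h₁ : (jLine L).relfinrank F = (adjoin L {y}).relfinrank ⊤ := by
    rw [← relfinrank_map_map (adjoin L {y}) ⊤ F.val, adjoin_map, Set.image_singleton,
      ← AlgHom.fieldRange_eq_map, fieldRange_val]
    show _ = (adjoin L {qExpand L 1 (jSer L)}).relfinrank F
    rw [BAD.Modular.qExpand_one_jSer, jLine]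
  have h₂ : (adjoin L {qExpand L a (jSer L)}).relfinrank E = (adjoin L {y}).relfinrank ⊤ := by
    rw [← relfinrank_map_map (adjoin L {y}) ⊤ σ, htop, adjoin_map, adjoin_map, Set.image_singleton,
      Set.image_pair, hσ₁, hσ₂]
  have hAE : adjoin L {qExpand L a (jSer L)} ≤ E :=
    adjoin.mono _ _ _ (Set.singleton_subset_iff.mpr (Set.mem_insert _ _))
  have h3 := relfinrank_mul_relfinrank hAE hEF
  have h4 := relfinrank_qExpand_jSer hD (M := a * b) (dvd_mul_right a b)
    (functionFieldGeneration_all a)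
  rw [h4, h₂, ← h₁, ← hF, hD.relfinrank_eq] at h3
  exact relfinrank_eq_one_iff.mp
    (Nat.eq_of_mul_eq_mul_left (psi_pos (a * b)) (h3.trans (mul_one _).symm))

variable {L}

/-- Level `M q ℓ` is generated by levels `M q` and `M ℓ`. -/
theorem modField_le_sup_levels {M q ℓ : ℕ} [NeZero q] [NeZero ℓ] (hq : q.Prime) (hℓ : ℓ.Prime)
    (hne : q ≠ ℓ) :
    modField L (M * q * ℓ) ≤ modField L (M * q) ⊔ modField L (M * ℓ) := by
  rw [modField_le_iff]
  intro D hD hD0
  by_cases h1 : D ∣ M * q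
  · exact SetLike.le_def.mp le_sup_left (qExpand_jSer_mem h1)
  by_cases h2 : D ∣ M * ℓ
  · exact SetLike.le_def.mp le_sup_right (qExpand_jSer_mem h2)
  have hℓD : ℓ ∣ D := by
    by_contra h
    exact h1 ((hℓ.coprime_iff_not_dvd.mpr h).symm.dvd_of_dvd_mul_right hD)
  have hqD : q ∣ D := by
    by_contra h
    exact h2 ((hq.coprime_iff_not_dvd.mpr h).symm.dvd_of_dvd_mul_right
      (by rwa [mul_right_comm] at hD))
  have hqℓ : q.Coprime ℓ := (Nat.coprime_primes hq hℓ).mpr hne
  obtain ⟨e, rfl⟩ := hqℓ.mul_dvd_of_dvd_of_dvd hqD hℓD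
  haveI : NeZero e := ⟨right_ne_zero_of_mul hD0.ne⟩
  haveI : NeZero (q * ℓ) := ⟨left_ne_zero_of_mul hD0.ne⟩
  have he : e ∣ M := by
    rw [show M * q * ℓ = q * ℓ * M by ring] at hD
    exact Nat.dvd_of_mul_dvd_mul_left (Nat.mul_pos hq.pos hℓ.pos) hD
  haveI : NeZero (q * e) := ⟨mul_ne_zero hq.ne_zero (NeZero.ne e)⟩
  haveI : NeZero (ℓ * e) := ⟨mul_ne_zero hℓ.ne_zero (NeZero.ne e)⟩
  have hle : (adjoin L ({qExpand L q (jSer L), qExpand L ℓ (jSer L)} : Set (LaurentSeries L))).map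
      (qExpandAlg L e) ≤ modField L (M * q) ⊔ modField L (M * ℓ) := by
    rw [map_le_iff_le_comap, adjoin_le_iff]
    rintro x (rfl | rfl)
    · show qExpand L e (qExpand L q (jSer L)) ∈ modField L (M * q) ⊔ modField L (M * ℓ)
      rw [qExpand_qExpand, qExpand_congr (show e * q = q * e from mul_comm e q) _]
      exact SetLike.le_def.mp le_sup_left
        (qExpand_jSer_mem (by rw [mul_comm q e]; exact mul_dvd_mul_right he q))
    · show qExpand L e (qExpand L ℓ (jSer L)) ∈ modField L (M * q) ⊔ modField L (M * ℓ)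
      rw [qExpand_qExpand, qExpand_congr (show e * ℓ = ℓ * e from mul_comm e ℓ) _]
      exact SetLike.le_def.mp le_sup_right
        (qExpand_jSer_mem (by rw [mul_comm ℓ e]; exact mul_dvd_mul_right he ℓ))
  have hmem : qExpand L (q * ℓ) (jSer L) ∈
      adjoin L ({qExpand L q (jSer L), qExpand L ℓ (jSer L)} : Set (LaurentSeries L)) :=
    modField_le_adjoin_pair L hqℓ (qExpand_jSer_mem dvd_rfl)
  have h := hle ⟨_, hmem, rfl⟩
  have e' : qExpand L e (qExpand L (q * ℓ) (jSer L)) = qExpand L (q * ℓ * e) (jSer L) :=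
    (qExpand_qExpand (q * ℓ) e _).trans (qExpand_congr (mul_comm e (q * ℓ)) _)
  rw [← e']
  exact h

theorem fieldRange_sup_eq_top_pull {M q ℓ d : ℕ} [NeZero q] [NeZero ℓ] [NeZero d]
    (hq : q.Prime) (hℓ : ℓ.Prime) (hne : q ≠ ℓ) (hd : d ∣ q)
    (h₁ : M * q * 1 ∣ M * q * ℓ) (h₂ : M * ℓ * d ∣ M * q * ℓ) :
    (degenMap L 1 h₁).fieldRange ⊔ (degenMap L d h₂).fieldRange = ⊤ := by
  rw [eq_top_iff]
  intro x _
  have hmap : (x : LaurentSeries L) ∈
      ((degenMap L 1 h₁).fieldRange ⊔ (degenMap L d h₂).fieldRange).map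
        (modField L (M * q * ℓ)).val := by
    rw [IntermediateField.map_sup, fieldRange_degenMap, fieldRange_degenMap]
    rcases (Nat.dvd_prime hq).mp hd with rfl | rfl
    · rw [map_qExpandAlg_one, map_qExpandAlg_one]
      exact modField_le_sup_levels hq hℓ hne x.2
    · haveI : NeZero (d * ℓ) := ⟨Nat.mul_ne_zero (NeZero.ne d) (NeZero.ne ℓ)⟩
      exact modField_le_map_sup hq hℓ hne (functionFieldGeneration_all (d * ℓ)) x.2
  obtain ⟨y, hy, hyx⟩ := hmap
  rwa [← Subtype.ext hyx]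

end Field

section Abstract

variable {K F F' Z Z' : Type*} [Field K] [Field F] [Field F'] [Field Z] [Field Z']
  [Algebra K F] [Algebra K F'] [Algebra K Z] [Algebra K Z']

theorem pullbackAlong_congr [HasPrincipalDivisors K F'] {φ φ' : F →ₐ[K] F'} (e : φ = φ')
    (hφ : φ.toRingHom.IsIntegral) (hφ' : φ'.toRingHom.IsIntegral) :
    Divisor.pullbackAlong φ hφ = Divisor.pullbackAlong φ' hφ' := by
  subst e
  rfl

/-- A pullback intertwines two correspondences fitting in a cartesian square. -/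
theorem pullback_correspondence [HasPrincipalDivisors K F'] [HasPrincipalDivisors K Z]
    [HasPrincipalDivisors K Z'] (φ : F →ₐ[K] F') (φ' : Z →ₐ[K] Z')
    (b a : F →ₐ[K] Z) (b' a' : F' →ₐ[K] Z')
    (hsqb : φ'.comp b = b'.comp φ) (hsqa : φ'.comp a = a'.comp φ)
    (hφ : φ.toRingHom.IsIntegral) (hφ' : φ'.toRingHom.IsIntegral)
    (hb : b.toRingHom.IsIntegral) (ha : a.toRingHom.IsIntegral)
    (hb' : b'.toRingHom.IsIntegral) (ha' : a'.toRingHom.IsIntegral)
    (hcomp : (φ'.comp b).toRingHom.IsIntegral)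
    (hfin : FiniteAlong K a) (hfin' : FiniteAlong K a')
    (hsep : SeparableAlong K a) (hsep' : SeparableAlong K a')
    (hgen : a'.fieldRange ⊔ φ'.fieldRange = ⊤) (hdeg : finrankAlong K a' = finrankAlong K a)
    (D : Divisor K F) :
    Divisor.pullbackAlong φ hφ (Divisor.correspondence b a hb ha D)
      = Divisor.correspondence b' a' hb' ha' (Divisor.pullbackAlong φ hφ D) := by
  rw [Divisor.correspondence_apply, Divisor.correspondence_apply,
    FF.pullbackAlong_pushforwardAlong_of_cartesian φ a a' φ' hsqa.symm hφ ha ha' hφ' hfin hfin'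
      hsep hsep' hgen hdeg,
    ← AddMonoidHom.comp_apply (Divisor.pullbackAlong φ' hφ'),
    ← FF.pullbackAlong_comp b φ' hb hφ' hcomp,
    ← AddMonoidHom.comp_apply (Divisor.pullbackAlong b' hb'),
    ← FF.pullbackAlong_comp φ b' hφ hb' (hsqb ▸ hcomp)]
  exact congrArg _ (DFunLike.congr_fun (pullbackAlong_congr hsqb _ _) _)

end Abstract

section Main

variable {M q : ℕ} [NeZero M] [NeZero q] {ℓ : ℕ} [NeZero ℓ]
variable (d : ℕ) [NeZero d]

/-- Pullback commutes with `T_ℓ` on divisors. -/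
theorem pullbackAlong_heckeDivBar {L : Type*} [Field L] [Algebra ℚ L] (hq : q.Prime)
    (hℓ : ℓ.Prime) (hMq : ¬ℓ ∣ M * q) (hd : d ∣ q) (h : M * d ∣ M * q)
    [HasPrincipalDivisors L (modField L (M * q * ℓ))]
    [HasPrincipalDivisors L (modField L (M * ℓ))]
    [HasPrincipalDivisors L (modField L (M * q))]
    {hα : HeckeAlphaBarIntegral L (M * q) ℓ} {hβ : HeckeBetaBarIntegral L (M * q) ℓ}
    {hα' : HeckeAlphaBarIntegral L M ℓ} {hβ' : HeckeBetaBarIntegral L M ℓ}
    (hh : (degenMap L d h).toRingHom.IsIntegral) (D : Divisor L (modField L M)) :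
    Divisor.pullbackAlong (degenMap L d h) hh (heckeDivBar hα' hβ' D) =
      heckeDivBar hα hβ (Divisor.pullbackAlong (degenMap L d h) hh D) := by
  have hne : q ≠ ℓ := fun e => hMq (e ▸ dvd_mul_left q M)
  have hD := degreeInput L
  have ha : M * q * 1 ∣ M * q * ℓ := mul_dvd_mul_left _ (one_dvd ℓ)
  have ha' : M * 1 ∣ M * ℓ := mul_dvd_mul_left _ (one_dvd ℓ)
  have hu : M * ℓ * d ∣ M * q * ℓ := by
    rw [mul_right_comm M ℓ d]; exact mul_dvd_mul_right h ℓ
  haveI : NeZero (ℓ * d) := ⟨Nat.mul_ne_zero (NeZero.ne ℓ) (NeZero.ne d)⟩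
  have hld : M * (ℓ * d) ∣ M * q * ℓ := by rw [← mul_assoc]; exact hu
  have hd1 : M * d ∣ M * q * ℓ := h.trans (dvd_mul_right _ ℓ)
  rw [heckeDivBar_eq_degenMap hD ha, heckeDivBar_eq_degenMap hD ha']
  refine pullback_correspondence (degenMap L d h) (degenMap L d hu) _ _ _ _ ?_ ?_ _
    (isIntegral_degenMap hD d hu) _ _ _ _ ?_ (finiteAlong_degenMap hD 1 ha')
    (finiteAlong_degenMap hD 1 ha) (separableAlong_degenMap hD 1 ha')
    (separableAlong_degenMap hD 1 ha) (fieldRange_sup_eq_top_pull hq hℓ hne hd ha hu)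
    (finrankAlong_degenMap_eq hD hq hℓ hne ha ha') D
  · rw [degenMap_comp ℓ d (ℓ * d) (dvd_refl (M * ℓ)) hu (mul_comm ℓ d) hld,
      degenMap_comp d ℓ (ℓ * d) h dvd_rfl rfl hld]
  · rw [degenMap_comp 1 d d ha' hu (mul_one d).symm hd1,
      degenMap_comp d 1 d h ha (one_mul d).symm hd1]
  · rw [degenMap_comp ℓ d (ℓ * d) (dvd_refl (M * ℓ)) hu (mul_comm ℓ d) hld]
    exact isIntegral_degenMap hD _ hld

variable {d}

local notation "Qb" => AlgebraicClosure ℚ

/-- Pullback commutes with `T_ℓ` on classes. -/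
theorem pullJ_heckeOperatorBar (hq : q.Prime) (hℓ : ℓ.Prime) (hMq : ¬ℓ ∣ M * q) (hd : d ∣ q)
    (h : M * d ∣ M * q) (x : JZero M) :
    Carayol.pullJ d h (heckeOperatorBar M (⟨ℓ, hℓ⟩ : Nat.Primes) x) =
      heckeOperatorBar (M * q) (⟨ℓ, hℓ⟩ : Nat.Primes) (Carayol.pullJ d h x) := by
  have hD := degreeInput Qb
  haveI := hasPrincipalDivisors_level Qb (M * q * ℓ)
  haveI := hasPrincipalDivisors_level Qb (M * ℓ)
  haveI := hasPrincipalDivisors_level Qb (M * q)
  show Carayol.pullJ d h (heckeOperatorAlong Qb M ℓ x) =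
    heckeOperatorAlong Qb (M * q) ℓ (Carayol.pullJ d h x)
  rw [heckeOperatorAlong_eq (heckeAlphaBarIntegral_of (M * q) ℓ hD)
      (heckeBetaBarIntegral_of (M * q) ℓ hD) (fundamentalIdentityAlong_heckeBetaBar (M * q) ℓ hD)
      (finiteAlong_heckeAlphaBar (M * q) ℓ hD) (normFormulaAlong_heckeAlphaBar (M * q) ℓ hD),
    heckeOperatorAlong_eq (heckeAlphaBarIntegral_of M ℓ hD) (heckeBetaBarIntegral_of M ℓ hD)
      (fundamentalIdentityAlong_heckeBetaBar M ℓ hD) (finiteAlong_heckeAlphaBar M ℓ hD)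
      (normFormulaAlong_heckeAlphaBar M ℓ hD)]
  obtain ⟨D, rfl⟩ := Pic0.mk_surjective x
  rw [heckePic0Bar_mk, Carayol.pullJ_mk, Carayol.pullJ_mk, heckePic0Bar_mk]
  refine congrArg Pic0.mk (Subtype.ext ?_)
  exact pullbackAlong_heckeDivBar
    (hα := heckeAlphaBarIntegral_of (M * q) ℓ hD) (hβ := heckeBetaBarIntegral_of (M * q) ℓ hD)
    (hα' := heckeAlphaBarIntegral_of M ℓ hD) (hβ' := heckeBetaBarIntegral_of M ℓ hD)
    d hq hℓ hMq hd h (isIntegral_degenMap hD d h) D

omit [NeZero ℓ] in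
/-- Pullback commutes with the good Hecke polynomials. -/
theorem pullJ_jHecke (hq : q.Prime) (hd : d ∣ q) (h : M * d ∣ M * q) {S : Finset ℕ}
    (hS : ∀ r : ℕ, r.Prime → r ∣ M * q → r ∈ S) (t : TraceFn.AwayHecke S) (x : JZero M) :
    Carayol.pullJ d h (TraceFn.jHecke M (TraceFn.awayIncl S t) x) =
      TraceFn.jHecke (M * q) (TraceFn.awayIncl S t) (Carayol.pullJ d h x) := by
  have hc := heckeOperatorsCommuteBar M
  have hc' := heckeOperatorsCommuteBar (M * q)
  simp only [TraceFn.jHecke_apply, heckeModuleBar_smul_def hc, heckeModuleBar_smul_def hc']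
  induction t using MvPolynomial.induction_on generalizing x with
  | C a =>
    rw [show TraceFn.awayIncl S (MvPolynomial.C a) = MvPolynomial.C a from
      MvPolynomial.rename_C _ _, HK.heckeEvalBar_C_apply, HK.heckeEvalBar_C_apply, map_zsmul]
  | add s t hs ht =>
    rw [map_add, HK.heckeEvalBar_add_apply, HK.heckeEvalBar_add_apply, map_add, hs x, ht x]
  | mul_X s i hs =>
    haveI : NeZero (i.1 : ℕ) := ⟨i.1.2.ne_zero⟩
    rw [map_mul, show TraceFn.awayIncl S (MvPolynomial.X i) = heckeGen i.1 from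
      MvPolynomial.rename_X _ _, HK.heckeEvalBar_mul_X_apply, HK.heckeEvalBar_mul_X_apply, hs]
    exact congrArg _ (pullJ_heckeOperatorBar (ℓ := (i.1 : ℕ)) hq i.1.2
      (fun hi => i.2 (hS _ i.1.2 hi)) hd h x)

omit [NeZero ℓ] in
/-- A class from level `M` is killed by the polynomials vanishing at level `M`. -/
theorem jHecke_pullJ_eq_zero (hq : q.Prime) (hd : d ∣ q) (h : M * d ∣ M * q) {S : Finset ℕ}
    (hS : ∀ r : ℕ, r.Prime → r ∣ M * q → r ∈ S) (hlow : ∀ r : ℕ, r.Prime → r ∣ M → r ∈ S)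
    {t : TraceFn.AwayHecke S} (ht : TraceFn.awayEval M S hlow t = 0) (x : JZero M) :
    TraceFn.jHecke (M * q) (TraceFn.awayIncl S t) (Carayol.pullJ d h x) = 0 := by
  rw [← pullJ_jHecke hq hd h hS t x, LL.Mazur.jHecke_eq_zero_of_awayEval hlow ht, map_zero]

/-- The degree of `T_ℓ` on divisors. -/
theorem degree_heckeDivBar_sub {N : ℕ} [NeZero N] (hℓ : ℓ.Prime) (hℓN : ¬ℓ ∣ N)
    [HasPrincipalDivisors Qb (modField Qb (N * ℓ))]
    {hα : HeckeAlphaBarIntegral Qb N ℓ} {hβ : HeckeBetaBarIntegral Qb N ℓ}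
    (D : Divisor Qb (modularFunctionFieldBar N)) :
    (heckeDivBar hα hβ D - (ℓ + 1) • D :) ∈
      Divisor.degZero (K := Qb) (F := modularFunctionFieldBar N) := by
  have h := Divisor.degree_correspondence (heckeBetaBar Qb N ℓ) (heckeAlphaBar Qb N ℓ) hβ hα
    (fundamentalIdentityAlong_heckeBetaBar N ℓ (degreeInput Qb)) D
  rw [finrankAlong_heckeBetaBar_eq_succ Qb N ℓ hℓ hℓN] at h
  rw [Divisor.mem_degZero, map_sub, map_nsmul, sub_eq_zero]
  refine h.trans ?_
  rw [nsmul_eq_mul]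

/-- **The old part is killed.** For every divisor `Y` of level `M q`, the class of
`(T_ℓ - (ℓ + 1))(π* π_* Y)` comes from level `M`, so a polynomial vanishing on the cusp forms of
level `M` kills it. -/
theorem jHecke_eis_old_eq_zero (hq : q.Prime) (hd : d ∣ q) (h : M * d ∣ M * q) {S : Finset ℕ}
    (hS : ∀ r : ℕ, r.Prime → r ∣ M * q → r ∈ S) (hlow : ∀ r : ℕ, r.Prime → r ∣ M → r ∈ S)
    {t : TraceFn.AwayHecke S} (ht : TraceFn.awayEval M S hlow t = 0) (hℓ : ℓ.Prime)
    (hMq : ¬ℓ ∣ M * q)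
    [HasPrincipalDivisors Qb (modField Qb (M * q * ℓ))]
    [HasPrincipalDivisors Qb (modField Qb (M * q))]
    {hα : HeckeAlphaBarIntegral Qb (M * q) ℓ} {hβ : HeckeBetaBarIntegral Qb (M * q) ℓ}
    (hh : (degenMap Qb d h).toRingHom.IsIntegral)
    (Y : Divisor Qb (modularFunctionFieldBar (M * q)))
    (D : Divisor.degZero (K := Qb) (F := modularFunctionFieldBar (M * q)))
    (hDY : (D : Divisor Qb (modularFunctionFieldBar (M * q))) =
      heckeDivBar hα hβ (Divisor.pullbackAlong (degenMap Qb d h) hh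
          (Divisor.pushforwardAlong (degenMap Qb d h) hh Y)) -
        (ℓ + 1) • Divisor.pullbackAlong (degenMap Qb d h) hh
          (Divisor.pushforwardAlong (degenMap Qb d h) hh Y)) :
    TraceFn.jHecke (M * q) (TraceFn.awayIncl S t) (Pic0.mk D) = 0 := by
  have hD' := degreeInput Qb
  haveI := hasPrincipalDivisors_level Qb (M * ℓ)
  have hℓM : ¬ℓ ∣ M := fun e => hMq (e.trans (dvd_mul_right M q))
  let Z := Divisor.pushforwardAlong (degenMap Qb d h) hh Y
  let E : Divisor.degZero (K := Qb) (F := modularFunctionFieldBar M) :=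
    ⟨heckeDivBar (heckeAlphaBarIntegral_of M ℓ hD') (heckeBetaBarIntegral_of M ℓ hD') Z -
      (ℓ + 1) • Z, degree_heckeDivBar_sub hℓ hℓM Z⟩
  have e : Pic0.mk D = Carayol.pullJ d h (Pic0.mk E) := by
    rw [Carayol.pullJ_mk]
    refine congrArg Pic0.mk (Subtype.ext (hDY.trans ?_))
    show _ = Divisor.pullbackAlong (degenMap Qb d h) hh
      (heckeDivBar (heckeAlphaBarIntegral_of M ℓ hD') (heckeBetaBarIntegral_of M ℓ hD') Z -
        (ℓ + 1) • Z)
    rw [map_sub, map_nsmul, pullbackAlong_heckeDivBar (hα := hα) (hβ := hβ) d hq hℓ hMq hd h hh]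
  rw [e]
  exact jHecke_pullJ_eq_zero hq hd h hS hlow ht _

omit [NeZero M] [NeZero q] in
/-- The same with the level written as `N = M q`. -/
theorem jHecke_eis_old_eq_zero_of_eq [NeZero M] {N : ℕ} [NeZero N] (hN : N = M * q) (hq : q.Prime)
    (hd : d ∣ q) (h : M * d ∣ N) {S : Finset ℕ}
    (hS : ∀ r : ℕ, r.Prime → r ∣ N → r ∈ S) (hlow : ∀ r : ℕ, r.Prime → r ∣ M → r ∈ S)
    {t : TraceFn.AwayHecke S} (ht : TraceFn.awayEval M S hlow t = 0) (hℓ : ℓ.Prime)
    (hℓN : ¬ℓ ∣ N)
    [HasPrincipalDivisors Qb (modField Qb (N * ℓ))]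
    [HasPrincipalDivisors Qb (modField Qb N)]
    {hα : HeckeAlphaBarIntegral Qb N ℓ} {hβ : HeckeBetaBarIntegral Qb N ℓ}
    (hh : (degenMap Qb d h).toRingHom.IsIntegral)
    (Y : Divisor Qb (modularFunctionFieldBar N))
    (D : Divisor.degZero (K := Qb) (F := modularFunctionFieldBar N))
    (hDY : (D : Divisor Qb (modularFunctionFieldBar N)) =
      heckeDivBar hα hβ (Divisor.pullbackAlong (degenMap Qb d h) hh
          (Divisor.pushforwardAlong (degenMap Qb d h) hh Y)) -
        (ℓ + 1) • Divisor.pullbackAlong (degenMap Qb d h) hh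
          (Divisor.pushforwardAlong (degenMap Qb d h) hh Y)) :
    TraceFn.jHecke N (TraceFn.awayIncl S t) (Pic0.mk D) = 0 := by
  haveI : NeZero q := ⟨hq.ne_zero⟩
  subst hN
  exact jHecke_eis_old_eq_zero hq hd h hS hlow ht hℓ hℓN hh Y D hDY

end Main

end Fermat.Agent.LowerSq.Null
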