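/-
Locality of `π* π_*` for a degeneracy map `π` to lower level: the places in the fibre of a place over
`x` specialise to finitely many points of the same chart.

Two places of the fibre have the same value at a function `v` of the lower level; the coordinate and
`v` are integral over each other over `ℤ`, so the coordinate of the second centre is a root of the
relation at a root of the relation at the coordinate of the first.
-/
import Fermat.Agent.LowerSq.Null.HeckeLocal
import Fermat.Agent.RED.CoordData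

set_option autoImplicit false
set_option linter.unusedSectionVars false
set_option linter.style.haveILetI false
set_option synthInstance.maxHeartbeats 100000

noncomputable section

open AlgebraicCurve Polynomial Fermat.Agent.RED

namespace Fermat.Agent.LowerSq.Null

open Carayol

section Values

variable {L E E₀ : Type} [Field L] [Field E] [Algebra L E] [Field E₀] [Algebra L E₀]

/-- A relation between functions is a relation between their values. -/
theorem eval_placeVal_eq_zero (P : Place L E) (hP : P.deg = 1) {Q : ℤ[X][X]} {t u : E}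
    (hQ : Q.eval₂ (eval₂RingHom (Int.castRingHom E) t) u = 0) (ht : t ∈ P.toValuationSubring)
    (hu : u ∈ P.toValuationSubring) :
    Q.eval₂ (eval₂RingHom (Int.castRingHom L) (placeVal P hP ⟨t, ht⟩))
      (placeVal P hP ⟨u, hu⟩) = 0 := by
  have h0 : Q.eval₂ (eval₂RingHom (Int.castRingHom P.toValuationSubring) ⟨t, ht⟩)
      (⟨u, hu⟩ : P.toValuationSubring) = 0 := by
    refine Subtype.val_injective ?_
    show P.toValuationSubring.subtype _ = (0 : E)
    rw [map_eval₂_int]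
    exact hQ
  have := congrArg (placeVal P hP) h0
  rwa [map_eval₂_int, map_zero] at this

theorem IntOver.placeVal {t u : E} (h : IntOver t u) (P : Place L E) (hP : P.deg = 1)
    (ht : t ∈ P.toValuationSubring) (hu : u ∈ P.toValuationSubring) :
    IntOver (RED.placeVal P hP ⟨t, ht⟩) (RED.placeVal P hP ⟨u, hu⟩) := by
  obtain ⟨Q, hQ, h0⟩ := h
  exact ⟨Q, hQ, eval_placeVal_eq_zero P hP h0 ht hu⟩

variable {φ : E₀ →ₐ[L] E} (hφ : φ.toRingHom.IsIntegral)

include hφ in
/-- Places with the same restriction have the same values at functions of the lower level. -/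
theorem placeVal_eq_of_restrictAlong (P Q : Place L E) (hP : P.deg = 1) (hQ : Q.deg = 1)
    (hPQ : P.restrictAlong φ hφ = Q.restrictAlong φ hφ) {v : E₀}
    (hv : φ v ∈ P.toValuationSubring) :
    ∃ hv' : φ v ∈ Q.toValuationSubring, placeVal Q hQ ⟨φ v, hv'⟩ = placeVal P hP ⟨φ v, hv⟩ := by
  set b := placeVal P hP ⟨φ v, hv⟩ with hb
  have hv1 : φ v - algebraMap L E b ∈ P.toValuationSubring := sub_mem hv (P.algebraMap_mem' b)
  have h0 : placeVal P hP ⟨φ v - algebraMap L E b, hv1⟩ = 0 := by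
    rw [show (⟨φ v - algebraMap L E b, hv1⟩ : P.toValuationSubring) =
      ⟨φ v, hv⟩ - algebraMap L P.toValuationSubring b from rfl, map_sub, placeVal_algebraMap,
      ← hb, sub_self]
  rcases (placeVal_eq_zero_iff P hP _).mp h0 with h | h
  · have he : φ v = algebraMap L E b := sub_eq_zero.mp h
    have hv' : φ v ∈ Q.toValuationSubring := he ▸ Q.algebraMap_mem' b
    refine ⟨hv', ?_⟩
    rw [show (⟨φ v, hv'⟩ : Q.toValuationSubring) = algebraMap L Q.toValuationSubring b from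
      Subtype.ext he, placeVal_algebraMap]
  · change 0 < P.ord (φ v - algebraMap L E b) at h
    rw [← φ.commutes, ← map_sub, Place.ord_restrictAlong φ hφ, hPQ] at h
    have h1 : 0 < Q.ord (φ v - algebraMap L E b) := by
      rw [← φ.commutes, ← map_sub, Place.ord_restrictAlong φ hφ]
      refine mul_pos ?_ (pos_of_mul_pos_right h (Int.natCast_nonneg _))
      letI := algebraAlong φ
      haveI := isIntegral_along φ hφ
      exact_mod_cast Q.ramificationIndex_pos (F := E₀)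
    have hv2 : φ v - algebraMap L E b ∈ Q.toValuationSubring := mem_of_ord_nonneg Q h1.le
    have hv' : φ v ∈ Q.toValuationSubring := by
      simpa using add_mem hv2 (Q.algebraMap_mem' b)
    refine ⟨hv', ?_⟩
    have h2 := (placeVal_eq_zero_iff Q hQ ⟨_, hv2⟩).mpr (Or.inr h1)
    rwa [show (⟨φ v - algebraMap L E b, hv2⟩ : Q.toValuationSubring) =
      ⟨φ v, hv'⟩ - algebraMap L Q.toValuationSubring b from rfl, map_sub, placeVal_algebraMap,
      sub_eq_zero] at h2

end Values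

/-- A zero of a relation over a point of an algebraically closed field comes from that field. -/
theorem exists_root_of_eval {k₁ K₁ : Type*} [Field k₁] [IsAlgClosed k₁] [Field K₁]
    (g : k₁ →+* K₁) {Q : ℤ[X][X]} (hQ : Q.Monic) (α : k₁) {t : K₁}
    (h : Q.eval₂ (eval₂RingHom (Int.castRingHom K₁) (g α)) t = 0) :
    ∃ β ∈ (Q.map (eval₂RingHom (Int.castRingHom k₁) α)).roots, g β = t := by
  have hne := (hQ.map (eval₂RingHom (Int.castRingHom k₁) α)).ne_zero
  have hroot : ((Q.map (eval₂RingHom (Int.castRingHom k₁) α)).map g).IsRoot t := by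
    rw [IsRoot, map_map, eval_map, show g.comp (eval₂RingHom (Int.castRingHom k₁) α) =
      eval₂RingHom (Int.castRingHom K₁) (g α) from ringHom_ext (by simp) (by simp)]
    exact h
  obtain ⟨β, hβ⟩ := (IsAlgClosed.splits _).mem_range_of_isRoot hne hroot
  exact ⟨β, (mem_roots hne).mpr ((hβ ▸ hroot : IsRoot _ (g β)).of_map g.injective), hβ⟩

section Locality

variable {W F k C : Type} [CommRing W] [IsDomain W] [IsDiscreteValuationRing W] [Field F]
  [Algebra W F] [Field k] [Field C] [Algebra k C] {M : Model W F k C}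
  {L E E₀ : Type} [Field L] [Field E] [Algebra L E] [Field E₀] [Algebra L E₀] {ι : F →+* E}
  (X : Pts M L ι) (hdeg : ∀ P : Place L E, P.deg = 1) {φ : E₀ →ₐ[L] E}
  (hφ : φ.toRingHom.IsIntegral) (hW : ∀ w : W, ∃ a : L, ι (algebraMap W F w) = algebraMap L E a)
  {v : E₀}

include hdeg hW in
/-- The coordinate of the second point of a fibre is found from that of the first. -/
theorem exists_root_fibre {Q₁ Q₂ : ℤ[X][X]} (hQ₁ : Q₁.Monic) (hQ₂ : Q₂.Monic)
    (h₁ : Q₁.eval₂ (eval₂RingHom (Int.castRingHom E) (ι M.x)) (φ v) = 0)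
    (h₂ : Q₂.eval₂ (eval₂RingHom (Int.castRingHom E) (φ v)) (ι M.x) = 0)
    {x y : Ideal (M.R 0)} (hx : Std M 0 x) (hy : Std M 0 y) {P Q : Place L E}
    (hPQ : P.restrictAlong φ hφ = Q.restrictAlong φ hφ) (hPx : X.Cen 0 x P) (hQy : X.Cen 0 y Q)
    {a : W} (ha : (⟨M.x, M.x_mem⟩ - algebraMap W (M.R 0) a : M.R 0) ∈ x) :
    ∃ β ∈ (Q₁.map (eval₂RingHom (Int.castRingHom k) (M.ρ a))).roots,
      ∃ γ ∈ (Q₂.map (eval₂RingHom (Int.castRingHom k) β)).roots,
        (⟨M.x, M.x_mem⟩ - algebraMap W (M.R 0) (Function.surjInv M.ρ_surjective γ) : M.R 0) ∈ y := by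
  classical
  haveI := M.algClosed
  let xR : M.R 0 := ⟨M.x, M.x_mem⟩
  let f₁ : M.R 0 →+* P.toValuationSubring :=
    (ι.comp (M.R 0).val.toRingHom).codRestrict _ fun r => (X.mem 0 x P hx hPx r).1
  let f₂ : M.R 0 →+* Q.toValuationSubring :=
    (ι.comp (M.R 0).val.toRingHom).codRestrict _ fun r => (X.mem 0 y Q hy hQy r).1
  let θ₁ : M.R 0 →+* L := (placeVal P (hdeg P)).comp f₁
  let θ₂ : M.R 0 →+* L := (placeVal Q (hdeg Q)).comp f₂
  have hsame : ∀ w : W, θ₁ (algebraMap W (M.R 0) w) = θ₂ (algebraMap W (M.R 0) w) := by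
    intro w
    obtain ⟨b, hb⟩ := hW w
    show placeVal P (hdeg P) (f₁ _) = placeVal Q (hdeg Q) (f₂ _)
    rw [show f₁ (algebraMap W (M.R 0) w) = algebraMap L P.toValuationSubring b from
        Subtype.ext hb, show f₂ (algebraMap W (M.R 0) w) = algebraMap L Q.toValuationSubring b from
        Subtype.ext hb, placeVal_algebraMap, placeVal_algebraMap]
  have hker : ∀ r, θ₁ r = 0 → r ∈ x := fun r h0 => by
    by_contra hr
    rcases (placeVal_eq_zero_iff P (hdeg P) _).mp h0 with h | h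
    · exact hr ((show r = 0 from Subtype.ext ((map_eq_zero ι).mp h)) ▸ x.zero_mem)
    · exact h.ne' ((X.mem 0 x P hx hPx r).2 hr)
  -- a valuation centred at the first point
  have hI : x.map θ₁.rangeRestrict ≠ ⊤ := by
    rw [Ne, Ideal.eq_top_iff_one, Ideal.mem_map_iff_of_surjective _ θ₁.rangeRestrict_surjective]
    rintro ⟨r, hr, h1⟩
    have h2 : (1 : M.R 0) - r ∈ x :=
      hker _ (by rw [map_sub, map_one, show θ₁ r = 1 from congrArg Subtype.val h1, sub_self])
    exact hx.1.ne_top ((Ideal.eq_top_iff_one _).mpr (by simpa using add_mem h2 hr))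
  obtain ⟨V, hV, hVI⟩ := Ideal.image_subset_nonunits_valuationSubring _ hI
  have n₁ : ∀ r, θ₁ r ∈ V := fun r => hV ⟨r, rfl⟩
  let τ₁ : M.R 0 →+* IsLocalRing.ResidueField V :=
    (IsLocalRing.residue V).comp (θ₁.codRestrict V n₁)
  have hτ₁ : ∀ r ∈ x, τ₁ r = 0 := by
    intro r hr
    have hn : θ₁ r ∈ V.nonunits := hVI ⟨θ₁.rangeRestrict r, Ideal.mem_map_of_mem _ hr, rfl⟩
    rw [ValuationSubring.mem_nonunits_iff_exists_mem_maximalIdeal] at hn
    exact (IsLocalRing.residue_eq_zero_iff _).mpr hn.2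
  -- the values of `v` and of the coordinate
  have hvP : φ v ∈ P.toValuationSubring :=
    (show IntOver (ι M.x) (φ v) from ⟨Q₁, hQ₁, h₁⟩).mem _ (f₁ xR).2
  obtain ⟨hvQ, hval⟩ := placeVal_eq_of_restrictAlong hφ P Q (hdeg P) (hdeg Q) hPQ hvP
  set b := placeVal P (hdeg P) ⟨φ v, hvP⟩
  have e₁ : Q₁.eval₂ (eval₂RingHom (Int.castRingHom L) (θ₁ xR)) b = 0 :=
    eval_placeVal_eq_zero P (hdeg P) h₁ (f₁ xR).2 hvP
  have e₂ : Q₂.eval₂ (eval₂RingHom (Int.castRingHom L) b) (θ₂ xR) = 0 := by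
    rw [← hval]
    exact eval_placeVal_eq_zero Q (hdeg Q) h₂ hvQ (f₂ xR).2
  have hbV : b ∈ V := (show IntOver (θ₁ xR) b from ⟨Q₁, hQ₁, e₁⟩).mem V (n₁ xR)
  have hx₂ : θ₂ xR ∈ V := (show IntOver b (θ₂ xR) from ⟨Q₂, hQ₂, e₂⟩).mem V hbV
  have n₂ : ∀ r, θ₂ r ∈ V := fun r =>
    mem_of_isIntegral_adjoin θ₂ (z := xR) hx₂ (fun w => hsame w ▸ n₁ _)
      (M.isIntegral_chart_zero r.2)
  let τ₂ : M.R 0 →+* IsLocalRing.ResidueField V :=
    (IsLocalRing.residue V).comp (θ₂.codRestrict V n₂)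
  have hsame' : ∀ w : W, τ₁ (algebraMap W (M.R 0) w) = τ₂ (algebraMap W (M.R 0) w) :=
    fun w => congrArg (IsLocalRing.residue V) (Subtype.ext (hsame w))
  obtain ⟨g, hg⟩ := exists_lift_ρ M τ₁ (hτ₁ _ hx.2.1)
  have ht : τ₁ xR = g (M.ρ a) := by
    rw [hg, ← sub_eq_zero, ← map_sub]
    exact hτ₁ _ ha
  have hres : ∀ {Q' : ℤ[X][X]} {s t : L} (hs : s ∈ V) (ht : t ∈ V),
      Q'.eval₂ (eval₂RingHom (Int.castRingHom L) s) t = 0 →
      Q'.eval₂ (eval₂RingHom (Int.castRingHom (IsLocalRing.ResidueField V))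
        (IsLocalRing.residue V ⟨s, hs⟩)) (IsLocalRing.residue V ⟨t, ht⟩) = 0 := by
    intro Q' s t hs ht h
    have h0 : Q'.eval₂ (eval₂RingHom (Int.castRingHom V) ⟨s, hs⟩) (⟨t, ht⟩ : V) = 0 := by
      refine Subtype.val_injective ?_
      show V.subtype _ = (0 : L)
      rw [map_eval₂_int]
      exact h
    have := congrArg (IsLocalRing.residue V) h0
    rwa [map_eval₂_int, map_zero] at this
  have r₁ := hres (n₁ xR) hbV e₁
  rw [show IsLocalRing.residue V ⟨θ₁ xR, n₁ xR⟩ = g (M.ρ a) from ht] at r₁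
  obtain ⟨β, hβ, hgβ⟩ := exists_root_of_eval g hQ₁ (M.ρ a) r₁
  have r₂ := hres hbV (n₂ xR) e₂
  rw [← hgβ] at r₂
  obtain ⟨γ, hγ, hgγ⟩ := exists_root_of_eval g hQ₂ β r₂
  refine ⟨β, hβ, γ, hγ, ?_⟩
  have hmem : xR - algebraMap W (M.R 0) (Function.surjInv M.ρ_surjective γ) ∈
      RingHom.ker τ₂ := by
    rw [RingHom.mem_ker, map_sub, ← hsame', ← hg, Function.surjInv_eq M.ρ_surjective, hgγ]
    exact sub_self _
  have hq : M.qR 0 ∈ RingHom.ker τ₂ := (hsame' (M.q : W)).symm.trans (hτ₁ _ hx.2.1)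
  have hmax := FiniteOver.isMaximal (z := xR) M.finite₀ (RingHom.ker_isPrime τ₂) hq hmem
  by_contra hmy
  obtain ⟨s, hs, hord⟩ := X.sep 0 (RingHom.ker τ₂) y Q
    ⟨hmax, hq, fun h => absurd h (by decide)⟩ hy (fun e => hmy (e ▸ hmem)) hQy
  refine hs ?_
  rw [RingHom.mem_ker]
  show IsLocalRing.residue V (⟨θ₂ s, n₂ s⟩ : V) = 0
  rw [show (⟨θ₂ s, n₂ s⟩ : V) = 0 from
    Subtype.ext ((placeVal_eq_zero_iff Q (hdeg Q) _).mpr (Or.inr hord)), map_zero]

variable (A : ValuationSubring L) (hchart : ChartByValue X A)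
  (htr : ∀ a : L, ι M.x ≠ algebraMap L E a)

include htr in
/-- A value of the coordinate as an order. -/
theorem ord_pos_iff_value (P : Place L E) (a : L) :
    0 < P.ord (ι M.x - algebraMap L E a) ↔
      ∃ h : ι M.x ∈ P.toValuationSubring, placeVal P (hdeg P) ⟨_, h⟩ = a := by
  constructor
  · intro h
    have hm : ι M.x - algebraMap L E a ∈ P.toValuationSubring := mem_of_ord_nonneg P h.le
    have hx : ι M.x ∈ P.toValuationSubring := by simpa using add_mem hm (P.algebraMap_mem' a)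
    refine ⟨hx, ?_⟩
    have h0 := (placeVal_eq_zero_iff P (hdeg P) ⟨_, hm⟩).mpr (Or.inr h)
    rwa [show (⟨ι M.x - algebraMap L E a, hm⟩ : P.toValuationSubring) =
      ⟨ι M.x, hx⟩ - algebraMap L P.toValuationSubring a from rfl, map_sub, placeVal_algebraMap,
      sub_eq_zero] at h0
  · rintro ⟨hx, rfl⟩
    set b : L := placeVal P (hdeg P) ⟨ι M.x, hx⟩ with hb
    have hm : ι M.x - algebraMap L E b ∈ P.toValuationSubring :=
      sub_mem hx (P.algebraMap_mem' b)
    have h0 : placeVal P (hdeg P) ⟨ι M.x - algebraMap L E b, hm⟩ = 0 := by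
      rw [show (⟨ι M.x - algebraMap L E b, hm⟩ : P.toValuationSubring) =
        ⟨ι M.x, hx⟩ - algebraMap L P.toValuationSubring b from rfl, map_sub, placeVal_algebraMap,
        ← hb, sub_self]
    exact ((placeVal_eq_zero_iff P (hdeg P) _).mp h0).resolve_left
      fun h1 => htr b (sub_eq_zero.mp h1)

variable (hfin₁ : FiniteOver M 1 M.x⁻¹)

include hdeg hW hchart htr hfin₁ in
/-- **Locality of `π* π_*`.** -/
theorem exists_locality_fibre [HasPrincipalDivisors L E] (hxv : IntOver (ι M.x) (φ v))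
    (hvx : IntOver (φ v) (ι M.x)) (c : Fin 2) (x : Ideal (M.R c)) (hx : Std M c x) :
    ∃ S : Finset (Ideal (M.R c)), (∀ y ∈ S, Std M c y) ∧
      ∀ D : Divisor L E, VanishesOn X c (S : Set (Ideal (M.R c))) D → ∀ P, X.Cen c x P →
        Divisor.pullbackAlong φ hφ (Divisor.pushforwardAlong φ hφ D) P = 0 := by
  classical
  -- the two centres are in the same chart
  have hval : ∀ P Q : Place L E, P.restrictAlong φ hφ = Q.restrictAlong φ hφ →
      (∃ a ∈ A, 0 < P.ord (ι M.x - algebraMap L E a)) →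
      ∃ a ∈ A, 0 < Q.ord (ι M.x - algebraMap L E a) := by
    rintro P Q hPQ ⟨a, ha, hpos⟩
    obtain ⟨hxP, hPa⟩ := (ord_pos_iff_value hdeg htr P a).mp hpos
    have hvP := hxv.mem _ hxP
    obtain ⟨hvQ, hv⟩ := placeVal_eq_of_restrictAlong hφ P Q (hdeg P) (hdeg Q) hPQ hvP
    have hxQ := hvx.mem _ hvQ
    have hb : placeVal P (hdeg P) ⟨φ v, hvP⟩ ∈ A :=
      (hxv.placeVal P (hdeg P) hxP hvP).mem A (by rw [hPa]; exact ha)
    have hc : placeVal Q (hdeg Q) ⟨ι M.x, hxQ⟩ ∈ A :=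
      (hvx.placeVal Q (hdeg Q) hvQ hxQ).mem A (by rw [hv]; exact hb)
    exact ⟨_, hc, (ord_pos_iff_value hdeg htr Q _).mpr ⟨hxQ, rfl⟩⟩
  -- it is enough to know the possible centres
  suffices h : ∃ S : Set (Ideal (M.R c)), S.Finite ∧ (∀ y ∈ S, Std M c y) ∧
      ∀ (P Q : Place L E) (y : Ideal (M.R c)), P.restrictAlong φ hφ = Q.restrictAlong φ hφ →
        X.Cen c x P → Std M c y → X.Cen c y Q → y ∈ S by
    obtain ⟨S, hS, hStd, hcen⟩ := h
    refine ⟨hS.toFinset, fun y hy => hStd y (hS.mem_toFinset.mp hy), fun D hD P hP => ?_⟩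
    have hzero : ∀ Q : Place L E, P.restrictAlong φ hφ = Q.restrictAlong φ hφ → D Q = 0 := by
      intro Q hPQ
      obtain ⟨c', y, hy, hQy⟩ := X.exists_cen Q
      obtain rfl : c' = c := by
        have h₁ := hchart c x P hx hP
        have h₂ := hchart c' y Q hy hQy
        rcases Fin.exists_fin_two.mp ⟨c, rfl⟩ with hc | hc <;>
          rcases Fin.exists_fin_two.mp ⟨c', rfl⟩ with hc' | hc' <;> subst hc <;> subst hc'
        · rfl
        · exact absurd (h₂.mpr (hval P Q hPQ (h₁.mp rfl))) (by decide)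
        · exact absurd (h₁.mpr (hval Q P hPQ.symm (h₂.mp rfl))) (by decide)
        · rfl
      exact hD y (hS.mem_toFinset.mpr (hcen P Q y hPQ hP hy hQy)) Q hQy
    rw [Divisor.pullbackAlong_apply]
    refine mul_eq_zero_of_right _ ?_
    letI := algebraAlong φ
    haveI := isScalarTower_along φ
    haveI := isIntegral_along φ hφ
    show Divisor.pushforward E₀ D (P.restrictAlong φ hφ) = 0
    rw [Divisor.pushforward_apply]
    exact Finset.sum_eq_zero fun Q _ => ite_eq_right_iff.mpr fun hQ => by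
      rw [hzero Q hQ.symm, zero_mul]
  rcases Fin.exists_fin_two.mp ⟨c, rfl⟩ with hc | hc <;> subst hc
  · obtain ⟨Q₁, hQ₁, h₁⟩ := id hxv
    obtain ⟨Q₂, hQ₂, h₂⟩ := id hvx
    obtain ⟨a, ha⟩ := exists_sub_const_mem M hx.1 hx.2.1
    refine ⟨⋃ β ∈ (Q₁.map (eval₂RingHom (Int.castRingHom k) (M.ρ a))).roots.toFinset,
      ⋃ γ ∈ (Q₂.map (eval₂RingHom (Int.castRingHom k) β)).roots.toFinset,
      {y : Ideal (M.R 0) | y.IsMaximal ∧ M.qR 0 ∈ y ∧
        (⟨M.x, M.x_mem⟩ : M.R 0) - algebraMap W (M.R 0) (Function.surjInv M.ρ_surjective γ) ∈ y},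
      Set.Finite.biUnion (Finset.finite_toSet _) fun β _ =>
        Set.Finite.biUnion (Finset.finite_toSet _) fun γ _ =>
          FiniteOver.finite (z := (⟨M.x, M.x_mem⟩ : M.R 0)) M.finite₀ _, ?_, ?_⟩
    · intro y hy
      simp only [Set.mem_iUnion] at hy
      obtain ⟨β, -, γ, -, hy⟩ := hy
      exact ⟨hy.1, hy.2.1, fun h => absurd h (by decide)⟩
    · intro P Q y hPQ hP hy hQy
      obtain ⟨β, hβ, γ, hγ, hm⟩ :=
        exists_root_fibre X hdeg hφ hW hQ₁ hQ₂ h₁ h₂ hx hy hPQ hP hQy ha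
      simp only [Set.mem_iUnion]
      exact ⟨β, Multiset.mem_toFinset.mpr hβ, γ, Multiset.mem_toFinset.mpr hγ, hy.1, hy.2.1, hm⟩
  · have key : ∀ y, Std M 1 y ↔ y ∈ {y : Ideal (M.R 1) | y.IsMaximal ∧ M.qR 1 ∈ y ∧
        (⟨M.x⁻¹, M.x_inv_mem⟩ : M.R 1) - algebraMap W (M.R 1) 0 ∈ y} := fun y => by
      simp only [Std, Set.mem_ofPred_eq, map_zero, sub_zero, forall_const]
      exact ⟨fun h => ⟨h.1, h.2.1, h.2.2 _ rfl⟩, fun h => ⟨h.1, h.2.1, fun r hr => by
        rw [show r = (⟨M.x⁻¹, M.x_inv_mem⟩ : M.R 1) from Subtype.ext hr]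
        exact h.2.2⟩⟩
    exact ⟨_, FiniteOver.finite (z := (⟨M.x⁻¹, M.x_inv_mem⟩ : M.R 1)) hfin₁ 0,
      fun y hy => (key y).mpr hy, fun _ _ y _ _ hy _ => (key y).mp hy⟩

end Locality

end Fermat.Agent.LowerSq.Null
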