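import Fermat.Agent.LowerSq.Null.Specialise
import Fermat.Agent.Carayol.Descent
import Fermat.Agent.Carayol.ConstUnramified
import Fermat.Agent.Carayol.Setting
import Fermat.Agent.Galois.Decomposition
import Fermat.Agent.Galois.Places
import Fermat.Agent.MF.Coeff.FieldK
import Fermat.Agent.FF.Curve

/-!
# Specialisation of the points of `X₀(N)` over the inertia field
-/

set_option autoImplicit false
set_option linter.unusedSectionVars false
set_option linter.style.haveILetI false

noncomputable section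

open AlgebraicCurve ModularCurve Polynomial IsLocalRing
open Fermat.Agent.HK.Corr

namespace Fermat.Agent.LowerSq.Null

open Carayol

local notation "Qb" => AlgebraicClosure ℚ

variable {N : ℕ} [NeZero N]

theorem modField_place_deg (P : Place Qb (modField Qb N)) : P.deg = 1 := by
  haveI : FF.IsFunctionField Qb (modField Qb N) :=
    MF.Coeff.isFunctionField_laurentBaseChange Qb N
  haveI : IsCurveOver Qb (modField Qb N) := inferInstance
  exact IsCurveOver.deg_eq_one_of_isAlgClosed P

/-- An element is a root of a monic polynomial whose roots are its conjugates under a group of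
automorphisms; the polynomial is invariant. -/
theorem exists_invariant_poly (G : Subgroup (Qb ≃ₐ[ℚ] Qb)) (a : Qb) :
    ∃ P : Qb[X], P.Monic ∧ P.eval a = 0 ∧ (∀ σ ∈ G, ∀ i, σ (P.coeff i) = P.coeff i) ∧
      ∃ O : Finset Qb, (∀ b ∈ O, ∃ σ ∈ G, σ a = b) ∧ P = ∏ b ∈ O, (X - C b) := by
  classical
  have hfin : ((fun σ : Qb ≃ₐ[ℚ] Qb => σ a) '' (G : Set (Qb ≃ₐ[ℚ] Qb))).Finite := by
    refine ((minpoly ℚ a).aroots Qb).toFinset.finite_toSet.subset ?_
    rintro _ ⟨σ, -, rfl⟩
    have hi : IsIntegral ℚ a := isIntegral_rat a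
    simp only [Finset.mem_coe, Multiset.mem_toFinset, Polynomial.mem_aroots]
    exact ⟨minpoly.ne_zero hi, by
      show aeval ((σ : Qb →ₐ[ℚ] Qb) a) (minpoly ℚ a) = 0
      rw [aeval_algHom_apply, minpoly.aeval, map_zero]⟩
  have hmem : ∀ b, b ∈ hfin.toFinset ↔ ∃ σ ∈ G, σ a = b := fun b => by
    rw [Set.Finite.mem_toFinset]; rfl
  refine ⟨∏ b ∈ hfin.toFinset, (X - C b), monic_prod_X_sub_C _ _, ?_, fun σ hσ i => ?_,
    hfin.toFinset, fun b hb => (hmem b).mp hb, rfl⟩
  · rw [eval_prod]
    exact Finset.prod_eq_zero ((hmem a).mpr ⟨1, G.one_mem, rfl⟩) (by simp)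
  · have h : (∏ b ∈ hfin.toFinset, (X - C b)).map (σ : Qb →+* Qb) =
        ∏ b ∈ hfin.toFinset, (X - C b) := by
      rw [Polynomial.map_prod]
      refine Finset.prod_bij (fun b _ => σ b) (fun b hb => ?_) (fun b _ b' _ h => σ.injective h)
        (fun b hb => ?_) fun b _ => by simp
      · obtain ⟨τ, hτ, rfl⟩ := (hmem b).mp hb
        exact (hmem _).mpr ⟨σ * τ, G.mul_mem hσ hτ, rfl⟩
      · obtain ⟨τ, hτ, rfl⟩ := (hmem b).mp hb
        refine ⟨σ⁻¹ (τ a), (hmem _).mpr ⟨σ⁻¹ * τ, G.mul_mem (G.inv_mem hσ) hτ, rfl⟩, ?_⟩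
        exact σ.apply_symm_apply _
    conv_rhs => rw [← h]
    rw [coeff_map]
    rfl

theorem smul_mem_iff_of_inertia {A : ValuationSubring Qb} {σ : Qb ≃ₐ[ℚ] Qb}
    (hσ : σ ∈ A.inertiaSubgroupIn ℚ) (a : Qb) : σ a ∈ A ↔ a ∈ A := by
  have h : ∀ τ ∈ A.inertiaSubgroupIn ℚ, ∀ x ∈ A, τ x ∈ A := fun τ hτ x hx => by
    simpa using add_mem (A.nonunits_subset (Galois.inertia_sub_mem_nonunits hτ hx)) hx
  refine ⟨fun ha => ?_, h σ hσ a⟩
  simpa using h σ⁻¹ (Subgroup.inv_mem _ hσ) _ ha

theorem smul_mem_nonunits_of_inertia {A : ValuationSubring Qb} {σ : Qb ≃ₐ[ℚ] Qb}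
    (hσ : σ ∈ A.inertiaSubgroupIn ℚ) {a : Qb} (ha : a ∈ A.nonunits) : σ a ∈ A.nonunits := by
  simpa using add_mem (Galois.inertia_sub_mem_nonunits hσ (A.nonunits_subset ha)) ha

variable {K K' k : Type} [Field K] [Algebra ℚ K] [Algebra K Qb] [Field K'] [Field k]
  {A₀ : ValuationSubring Qb} {q : ℕ} {π₀ : A₀ →+* k} {κ : K →+* K'} {ι : K' →+* Qb} {η : K'ˣ}

/-- The constants over the inertia field. -/
def constMap (A₀ : ValuationSubring Qb) (K : Type) [Field K] [Algebra K Qb] :
    constA A₀ K →+* Qb :=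
  (algebraMap K Qb).comp (constA A₀ K).subtype

theorem intClosureData_of_consts (hC : Consts A₀ q π₀ κ ι η) :
    IntClosureData A₀ (constMap A₀ K) (q : constA A₀ K) := by
  haveI := hC.dvrA
  refine ⟨fun w => w.2, ?_, fun a ha => ?_, fun a ha => ?_⟩
  · rw [map_natCast]
    exact hC.liesOver
  · obtain ⟨w, hw⟩ := hC.surj (π₀ ⟨a, ha⟩)
    refine ⟨w, ?_⟩
    have h1 : π₀ (⟨a, ha⟩ - ⟨constMap A₀ K w, w.2⟩) = 0 := by
      rw [map_sub, sub_eq_zero]
      exact hw.symm
    exact A₀.coe_mem_nonunits_iff.mpr ((mem_maximalIdeal _).mpr ((hC.π₀_eq_zero_iff _).mp h1))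
  · obtain ⟨P, hP, hPa, hinv, O, hO, hPO⟩ := exists_invariant_poly (A₀.inertiaSubgroupIn ℚ) a
    have hOA : ∀ b ∈ O, b ∈ A₀.nonunits := fun b hb => by
      obtain ⟨σ, hσ, rfl⟩ := hO b hb
      exact smul_mem_nonunits_of_inertia hσ ha
    let Q : A₀[X] := ∏ b ∈ O.attach, (X - C (⟨b.1, A₀.nonunits_subset (hOA b.1 b.2)⟩ : A₀))
    have hQP : Q.map A₀.subtype = P := by
      rw [hPO, Polynomial.map_prod, ← Finset.prod_attach O (fun b => X - C b)]
      exact Finset.prod_congr rfl fun b _ => by simp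
    have hQm : Q.map (residue A₀) = X ^ O.card := by
      rw [Polynomial.map_prod]
      refine (Finset.prod_congr rfl fun b _ => ?_).trans ((Finset.prod_const (X : (ResidueField A₀)[X])).trans (by rw [Finset.card_attach]))
      rw [Polynomial.map_sub, map_X, map_C,
        (residue_eq_zero_iff _).mpr (A₀.coe_mem_nonunits_iff.mp (hOA b.1 b.2)), map_zero, sub_zero]
    have hdeg : P.natDegree = O.card := by
      rw [hPO, natDegree_finsetProd_X_sub_C_eq_card]
    have hco : ∀ i, ∃ c : constA A₀ K, constMap A₀ K c = P.coeff i := fun i => by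
      obtain ⟨c, hc⟩ := (hC.fixed _).mpr fun σ hσ => hinv σ hσ i
      refine ⟨⟨c, ?_⟩, hc⟩
      show algebraMap K Qb c ∈ A₀
      rw [hc, ← hQP, coeff_map]
      exact (Q.coeff i).2
    choose c hc using hco
    let p : (constA A₀ K)[X] :=
      X ^ O.card + ∑ i ∈ Finset.range O.card, C (c i) * X ^ i
    have hlt : (∑ i ∈ Finset.range O.card, C (c i) * X ^ i).degree < (O.card : WithBot ℕ) := by
      refine lt_of_le_of_lt (degree_sum_le _ _) ((Finset.sup_lt_iff (WithBot.bot_lt_coe _)).mpr
        fun i hi => lt_of_le_of_lt (degree_C_mul_X_pow_le _ _) ?_)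
      exact WithBot.coe_lt_coe.mpr (Finset.mem_range.mp hi)
    have hpm : p.Monic := monic_X_pow_add (by exact hlt)
    have hpd : p.natDegree = O.card := by
      refine natDegree_eq_of_degree_eq_some ?_
      rw [degree_add_eq_left_of_degree_lt (by rwa [degree_X_pow]), degree_X_pow]
    refine ⟨p, hpm, ?_, fun i hi => ?_⟩
    · rw [eval₂_add, eval₂_X_pow, eval₂_finsetSum]
      refine Eq.trans ?_ hPa
      rw [eval_eq_sum_range, hdeg, Finset.sum_range_succ, add_comm]
      congr 1
      · exact Finset.sum_congr rfl fun i _ => by rw [eval₂_mul, eval₂_C, eval₂_X_pow, hc]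
      · rw [← hdeg, hP.coeff_natDegree, one_mul]
    · rw [hpd] at hi
      have hci : p.coeff i = c i := by
        simp only [p, coeff_add, coeff_X_pow, finsetSum_coeff, coeff_C_mul]
        rw [if_neg hi.ne, Finset.sum_eq_single i (fun j _ hj => by simp [Ne.symm hj])
          (fun h => absurd (Finset.mem_range.mpr hi) h)]
        simp
      rw [hci, ← Ideal.mem_span_singleton, ← hC.irreducible_q.maximalIdeal_eq, mem_maximalIdeal]
      intro hu
      have hu' : IsUnit (Q.coeff i) := by
        have hu2 := hu.map ((constMap A₀ K).codRestrict A₀ fun w => w.2)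
        convert hu2 using 1
        exact Subtype.ext (((coeff_map (p := Q) A₀.subtype i).symm.trans (by rw [hQP])).trans
          (hc i).symm)
      have h0 : residue A₀ (Q.coeff i) = 0 := by
        rw [← coeff_map, hQm, coeff_X_pow, if_neg hi.ne]
      exact (mem_maximalIdeal _).mp ((residue_eq_zero_iff _).mp h0) hu'

variable {C : Type} [Field C] [Algebra k C] [IsDiscreteValuationRing (constA A₀ K)]
  [Algebra (constA A₀ K) (modField K N)] [IsScalarTower (constA A₀ K) K (modField K N)]

theorem fieldExt_const (w : constA A₀ K) :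
    fieldExt (algebraMap K Qb) N (algebraMap (constA A₀ K) (modField K N) w) =
      algebraMap Qb (modField Qb N) (constMap A₀ K w) := by
  rw [IsScalarTower.algebraMap_apply (constA A₀ K) K (modField K N), fieldExt_algebraMap]
  rfl

/-- Every place of `K(X₀(N))` trivial on the constants lies below a place over `ℚ̄`. -/
theorem placesLift_fieldExt [IsFractionRing (constA A₀ K) K] :
    PlacesLift (constA A₀ K) Qb (fieldExt (algebraMap K Qb) N) := by
  intro O hO hW
  haveI : CharZero K := charZero_of_injective_algebraMap (algebraMap ℚ K).injective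
  letI : Algebra (modField K N) (modField Qb N) := (fieldExt (algebraMap K Qb) N).toAlgebra
  letI : Algebra K (modField Qb N) :=
    ((algebraMap Qb (modField Qb N)).comp (algebraMap K Qb)).toAlgebra
  haveI : IsScalarTower K Qb (modField Qb N) := IsScalarTower.of_algebraMap_eq fun _ => rfl
  haveI : IsScalarTower K (modField K N) (modField Qb N) :=
    IsScalarTower.of_algebraMap_eq fun c => (fieldExt_algebraMap (algebraMap K Qb) N c).symm
  haveI : Algebra.IsAlgebraic K Qb := ⟨fun x =>
    ((isIntegral_rat x).isAlgebraic).ringHom_of_comp_eq (algebraMap ℚ K) (RingHom.id Qb)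
      (algebraMap ℚ K).injective (Subsingleton.elim _ _)⟩
  have hK : ∀ a : K, algebraMap K (modField K N) a ∈ O := by
    intro a
    obtain ⟨x, y, hy, rfl⟩ := IsFractionRing.div_surjective (constA A₀ K) a
    rw [map_div₀, ← IsScalarTower.algebraMap_apply, ← IsScalarTower.algebraMap_apply,
      div_eq_mul_inv]
    rcases eq_or_ne x 0 with rfl | hx
    · simp
    · exact O.mul_mem _ _ (hW x hx).1 (hW y (nonZeroDivisors.ne_zero hy)).2
  have hne : O ≠ ⊤ := fun htop => by
    obtain ⟨ϖ, hϖ⟩ := IsDiscreteValuationRing.exists_irreducible O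
    have hall : ∀ z : modField K N, z ∈ O := fun z => by
      rw [htop]; exact ValuationSubring.mem_top z
    exact hϖ.not_isUnit (isUnit_iff_exists_inv.mpr
      ⟨⟨(ϖ : modField K N)⁻¹, hall _⟩,
        Subtype.ext (mul_inv_cancel₀ fun h0 => hϖ.ne_zero (Subtype.ext h0))⟩)
  let v : Place K (modField K N) :=
    { toValuationSubring := O
      algebraMap_mem' := hK
      ne_top' := hne
      isPrincipalIdealRing' := inferInstance }
  obtain ⟨P, hP⟩ := exists_place_ord_eq (adjoin_constants_eq_top (algebraMap K Qb) N) v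
  refine ⟨P, fun g => ?_⟩
  rcases eq_or_ne g 0 with rfl | hg
  · simp
  have h := hP g hg
  rw [RED.mem_iff_ord_nonneg P,
    show (fieldExt (algebraMap K Qb) N g) = algebraMap (modField K N) (modField Qb N) g from rfl, h]
  exact RED.mem_iff_ord_nonneg v

/-- **The specialisation of `X₀(N)(ℚ̄)` for a `Model` over the inertia field.** -/
def modularPts (M : Model (constA A₀ K) (modField K N) k C) (hMq : M.q = q)
    (hC : Consts A₀ q π₀ κ ι η) (hint : ChartIntegral M) :
    Pts M Qb (fieldExt (algebraMap K Qb) N) :=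
  ptsOfPlace M modField_place_deg (hMq ▸ intClosureData_of_consts hC) fieldExt_const hint
    placesLift_fieldExt

/-- The point in chart `0` is told by the value of `x`. -/
theorem modularPts_chart_zero_iff (M : Model (constA A₀ K) (modField K N) k C) (hMq : M.q = q)
    (hC : Consts A₀ q π₀ κ ι η) (hint : ChartIntegral M)
    (hx : ∀ a : Qb, fieldExt (algebraMap K Qb) N M.x ≠ algebraMap Qb _ a)
    {c : Fin 2} {y : Ideal (M.R c)} {P : Place Qb (modField Qb N)} (hy : Std M c y)
    (h : (modularPts M hMq hC hint).Cen c y P) :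
    c = 0 ↔ ∃ a : Qb, a ∈ A₀ ∧
      0 < P.ord (fieldExt (algebraMap K Qb) N M.x - algebraMap Qb _ a) :=
  CompCen.chart_zero_iff_exists h hy hx

/-- Inertia preserves the centres. -/
theorem modularPts_cen_smul (M : Model (constA A₀ K) (modField K N) k C) (hMq : M.q = q)
    (hC : Consts A₀ q π₀ κ ι η) (hint : ChartIntegral M) {σ : Qb ≃ₐ[ℚ] Qb}
    (hσ : σ ∈ A₀.inertiaSubgroupIn ℚ) {c : Fin 2} {y : Ideal (M.R c)}
    {P : Place Qb (modField Qb N)} :
    (modularPts M hMq hC hint).Cen c y (arithmeticGalois (modularFunctionFieldFull N) σ • P) ↔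
      (modularPts M hMq hC hint).Cen c y P := by
  refine CompCen.smul_iff (fun a => ?_) fun f => ?_
  · rw [baseAut_arithmeticGalois]
    exact smul_mem_iff_of_inertia hσ a
  · refine Subtype.ext ?_
    rw [coe_arithmeticGalois_smul]
    ext n
    simp only [coe_fieldExt, coeffMap_coeff]
    exact (hC.fixed _).mp ⟨_, rfl⟩ σ hσ

end Fermat.Agent.LowerSq.Null
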