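/-
The operators `π* π_*` of the two degeneracy maps from level `L₀ q²` to level `L₀ q`, on divisors and
functions of a `Model`.
-/
import Fermat.Agent.LowerSq.Null.OldLocal
import Fermat.Agent.Carayol.Descent
import Fermat.Agent.Carayol.OldSide
import Fermat.Agent.Carayol.Norms
import Fermat.Agent.LowerSq.Null.PtsExists
import Fermat.Agent.LowerSq.Null.HeckeOp

set_option autoImplicit false
set_option linter.unusedSectionVars false
set_option linter.style.haveILetI false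
set_option synthInstance.maxHeartbeats 100000

noncomputable section

open ModularCurve AlgebraicCurve
open Fermat.Agent.Igusa Fermat.Agent.RED.Spec Fermat.Agent.HK.Corr

namespace Fermat.Agent.LowerSq.Null

open Carayol

local notation "Qb" => AlgebraicClosure ℚ

variable {L₀ q : ℕ} [NeZero L₀] [NeZero q] [NeZero (L₀ * q)] [NeZero (L₀ * q ^ 2)]
  {K : Type} [Field K] [Algebra ℚ K] {κ₀ : K →+* Qb}

/-- `π* π_*` on divisors. -/
def oldDiv (L₀ q d : ℕ) [NeZero L₀] [NeZero q] [NeZero (L₀ * q)] [NeZero (L₀ * q ^ 2)] [NeZero d]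
    (h : L₀ * q * d ∣ L₀ * q ^ 2) :
    Divisor Qb (modField Qb (L₀ * q ^ 2)) →+ Divisor Qb (modField Qb (L₀ * q ^ 2)) :=
  haveI := hasPrincipalDivisors_level Qb (L₀ * q ^ 2)
  (Divisor.pullbackAlong (degenMap Qb d h) (isIntegral_degenMap (degreeInput Qb) d h)).comp
    (Divisor.pushforwardAlong (degenMap Qb d h) (isIntegral_degenMap (degreeInput Qb) d h))

theorem oldDiv_apply (d : ℕ) [NeZero d] (h : L₀ * q * d ∣ L₀ * q ^ 2)
    [HasPrincipalDivisors Qb (modField Qb (L₀ * q ^ 2))]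
    (Y : Divisor Qb (modField Qb (L₀ * q ^ 2))) :
    oldDiv L₀ q d h Y = Divisor.pullbackAlong (degenMap Qb d h)
      (isIntegral_degenMap (degreeInput Qb) d h)
      (Divisor.pushforwardAlong (degenMap Qb d h) (isIntegral_degenMap (degreeInput Qb) d h) Y) :=
  rfl

theorem fieldExt_degenMap' (d : ℕ) [NeZero d] (h : L₀ * q * d ∣ L₀ * q ^ 2)
    (x : modField K (L₀ * q)) :
    fieldExt κ₀ (L₀ * q ^ 2) (degenMap K d h x) = degenMap Qb d h (fieldExt κ₀ (L₀ * q) x) :=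
  Subtype.ext (ModularCurve.coeffMap_qExpand κ₀ d (x : LaurentSeries K))

/-- `π* π_*` of the divisor of a function is the divisor of its norm. -/
theorem oldDiv_ord (d : ℕ) [NeZero d] (h : L₀ * q * d ∣ L₀ * q ^ 2)
    (hnorm : ∀ x : modField K (L₀ * q ^ 2),
      (letI := algebraAlong (degenMap Qb d h);
        Algebra.norm (modField Qb (L₀ * q)) (fieldExt κ₀ (L₀ * q ^ 2) x)) =
        fieldExt κ₀ (L₀ * q)
          (letI := algebraAlong (degenMap K d h); Algebra.norm (modField K (L₀ * q)) x))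
    {D : Divisor Qb (modField Qb (L₀ * q ^ 2))} {g : modField K (L₀ * q ^ 2)} (hg : g ≠ 0)
    (hD : ∀ P, D P = P.ord (fieldExt κ₀ (L₀ * q ^ 2) g)) (P : Place Qb (modField Qb (L₀ * q ^ 2))) :
    oldDiv L₀ q d h D P = P.ord (fieldExt κ₀ (L₀ * q ^ 2) (degenNorm d h g)) := by
  haveI := hasPrincipalDivisors_level Qb (L₀ * q ^ 2)
  have hf : fieldExt κ₀ (L₀ * q ^ 2) g ≠ 0 := (_root_.map_ne_zero _).mpr hg
  rw [oldDiv_apply, Divisor.pullbackAlong_apply,
    pushforwardAlong_eq_ord_norm (degenMap Qb d h) (isIntegral_degenMap (degreeInput Qb) d h)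
      (finiteAlong_degenMap (degreeInput Qb) d h)
      (FF.normFormulaAlong _ _ (separableAlong_degenMap (degreeInput Qb) d h)) hf hD, hnorm,
    ← Place.ord_restrictAlong, ← fieldExt_degenMap']
  rfl

theorem degenNorm_pow_of_mem (hq : q.Prime) (hqL : ¬ q ∣ L₀) (d : ℕ) [NeZero d]
    (h : L₀ * q * d ∣ L₀ * q ^ 2) {a : modField K (L₀ * q ^ 2)}
    (ha : a ∈ (degenMap K d h : modField K (L₀ * q) →+* modField K (L₀ * q ^ 2)).fieldRange) :
    degenNorm d h a = a ^ q := by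
  obtain ⟨x, rfl⟩ := ha
  letI := algebraAlong (degenMap K d h)
  show degenMap K d h (Algebra.norm (modField K (L₀ * q))
    (algebraMap (modField K (L₀ * q)) (modField K (L₀ * q ^ 2)) x)) = _
  rw [Algebra.norm_algebraMap, map_pow]
  exact congrArg _ (finrank_degen_prime hq hqL d h)

variable {W k C : Type} [CommRing W] [IsDomain W] [IsDiscreteValuationRing W]
  [Algebra W (modField K (L₀ * q ^ 2))] [Field k] [Field C] [Algebra k C]
  {M : Model W (modField K (L₀ * q ^ 2)) k C}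
  (X : Pts M Qb (fieldExt κ₀ (L₀ * q ^ 2)))

/-- `j` and `j(d τ)` are integral over each other over `ℤ`. -/
theorem intOver_fibre (hq : q.Prime) (hx : (M.x : LaurentSeries K) = jSer K) (d : ℕ) [NeZero d]
    (hd : d = 1 ∨ d = q) (h : L₀ * q * d ∣ L₀ * q ^ 2) :
    IntOver (fieldExt κ₀ (L₀ * q ^ 2) M.x) (degenMap Qb d h (MF.Coeff.jElem Qb (L₀ * q))) ∧
    IntOver (degenMap Qb d h (MF.Coeff.jElem Qb (L₀ * q))) (fieldExt κ₀ (L₀ * q ^ 2) M.x) := by
  let v : modField Qb (L₀ * q ^ 2) →+* LaurentSeries Qb := (modField Qb (L₀ * q ^ 2)).val.toRingHom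
  have hj : ((MF.Coeff.jElem Qb (L₀ * q) : modField Qb (L₀ * q)) : LaurentSeries Qb) = jSer Qb :=
    (MF.Coeff.coe_jElem (K := Qb) (N := L₀ * q)).trans (jSer_eq_jqModC (L := Qb)).symm
  have h2 : v (degenMap Qb d h (MF.Coeff.jElem Qb (L₀ * q))) = qExpand Qb d (jSer Qb) :=
    congrArg (qExpand Qb d) hj
  have h1 : v (fieldExt κ₀ (L₀ * q ^ 2) M.x) = jSer Qb := fieldExt_x hx
  refine ⟨IntOver.of_map (f := v) v.injective ?_, IntOver.of_map (f := v) v.injective ?_⟩ <;>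
    rw [h1, h2]
  · exact isIntegralElem_qExpand_jSer d
  · rcases hd with rfl | rfl
    · rw [qExpand_one_apply]
      have h0 := RingHom.isIntegralElem_map (x := (Polynomial.X : Polynomial ℤ))
        (f := Polynomial.eval₂RingHom (Int.castRingHom (LaurentSeries Qb)) (jSer Qb))
      unfold IntOver; simpa using h0
    · exact isIntegralElem_jSer_qExpand exists_qbToC.some d hq

variable (hq : q.Prime) (hqL : ¬ q ∣ L₀) (hMq : M.q = q) {A : ValuationSubring Qb}
  (hW : ∀ w : W, ∃ c : K, algebraMap W (modField K (L₀ * q ^ 2)) w = algebraMap K _ c)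
  (hx : (M.x : LaurentSeries K) = jSer K) (hfin₁ : FiniteOver M 1 M.x⁻¹)
  (hchart : ChartByValue X A)

include hq hW hx hfin₁ hchart in
theorem oldDiv_locality (d : ℕ) [NeZero d] (hd : d = 1 ∨ d = q) (h : L₀ * q * d ∣ L₀ * q ^ 2)
    (c : Fin 2) (x : Ideal (M.R c)) (hxs : Std M c x) :
    ∃ S : Finset (Ideal (M.R c)), (∀ y ∈ S, Std M c y) ∧
      ∀ D, VanishesOn X c (S : Set (Ideal (M.R c))) D → ∀ P, X.Cen c x P →
        oldDiv L₀ q d h D P = 0 := by
  haveI := hasPrincipalDivisors_level Qb (L₀ * q ^ 2)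
  exact exists_locality_fibre X modField_place_deg (isIntegral_degenMap (degreeInput Qb) d h)
    (fun w => by
      obtain ⟨c, hc⟩ := hW w
      exact ⟨κ₀ c, by rw [hc]; exact fieldExt_algebraMap κ₀ _ c⟩)
    A hchart (fieldExt_x_ne_const hx) hfin₁ (intOver_fibre hq hx d hd h).1
    (intOver_fibre hq hx d hd h).2 c x hxs

include hMq in
theorem oldSide_red_mid {o : Fin 3} (S : M.OldSide o) {a : modField K (L₀ * q ^ 2)}
    (ha : S.N a ∈ M.Br.V o) : M.red 1 (S.N a) = M.red o (S.N a) :=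
  S.red_eq (S.N_mem a) ha

/-- **`α* α_*`.** -/
def oldOpAlpha (h : L₀ * q * 1 ∣ L₀ * q ^ 2) (hα : ∀ a, M.normα a = degenNorm 1 h a) :
    OldOp X 0 2 :=
  let S : M.OldSide 0 := M.oldSideα
    (degenMap K 1 h : modField K (L₀ * q) →+* modField K (L₀ * q ^ 2)).fieldRange
    (fun a => by rw [hα]; exact ⟨_, rfl⟩)
    (fun a ha => by rw [hα, hMq]; exact degenNorm_pow_of_mem hq hqL 1 h ha)
  have hord : ∀ g : modField K (L₀ * q ^ 2), g ≠ 0 → (∀ i, M.ord i g = 0) →
      ∀ i, M.ord i (M.normα g) = 0 := fun g hg hg0 i => by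
    obtain ⟨e0, e2⟩ := M.ord_normα g hg
    rw [hg0, hg0, add_zero] at e0
    rw [hg0, mul_zero] at e2
    fin_cases i
    · exact e0
    · show M.ord 1 (M.normα g) = 0
      have h1 : M.ord 1 (M.normα g) = ((M.q : ℤ) - 1) * M.ord 0 (M.normα g) :=
        S.ord_one_eq (S.N_mem g) (M.normα_ne_zero g hg)
      rw [h1]
      show ((M.q : ℤ) - 1) * M.ord 0 (M.normα g) = 0
      rw [e0, mul_zero]
    · exact e2
  have hmem : ∀ g : modField K (L₀ * q ^ 2), g ≠ 0 → (∀ i, M.ord i g = 0) →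
      ∀ i, g ∈ M.Br.V i ∧ M.normα g ∈ M.Br.V i := fun g hg hg0 i =>
    ⟨M.mem_of_ord_nonneg (hg0 i).ge, M.mem_of_ord_nonneg (hord g hg hg0 i).ge⟩
  have h0 : ∀ g, g ≠ 0 → (∀ i, M.ord i g = 0) →
      M.red 0 (M.normα g) = M.red 0 g * M.red 1 g ^ (M.q - 1) := fun g hg hg0 => by
    rw [Model.red_of_mem M (hmem g hg hg0 0).2, Model.red_of_mem M (hmem g hg hg0 0).1,
      Model.red_of_mem M (hmem g hg hg0 1).1]
    exact M.res_normα₀ g _ _ _
  have h1 : ∀ g, g ≠ 0 → (∀ i, M.ord i g = 0) →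
      M.red 1 (M.normα g) = M.red 0 (M.normα g) := fun g hg hg0 =>
    oldSide_red_mid hMq S (hmem g hg hg0 0).2
  have h2 : ∀ g, g ≠ 0 → (∀ i, M.ord i g = 0) → M.red 2 (M.normα g) = M.red 2 g ^ M.q :=
    fun g hg hg0 => by
    rw [Model.red_of_mem M (hmem g hg hg0 2).2, Model.red_of_mem M (hmem g hg hg0 2).1]
    exact M.res_normα₂ g _ _
  { fn := M.normα
    div := oldDiv L₀ q 1 h
    fn_ne_zero := M.normα_ne_zero
    ord_eq := fun D g hg hD P => by
      obtain ⟨ζ, hζ⟩ := HasEnoughRootsOfUnity.exists_primitiveRoot Qb q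
      rw [hα]
      exact oldDiv_ord 1 h (norm_fieldExt_alpha hq hqL κ₀ exists_qbToC.some
        (hζ.isUnit_unit hq.ne_zero) h) hg hD P
    locality := oldDiv_locality X hq hW hx hfin₁ hchart 1 (Or.inl rfl) h
    ord_fn := hord
    red_one := fun g hg hg0 hg1 i => by
      fin_cases i
      · show M.red 0 (M.normα g) = 1
        rw [h0 g hg hg0, hg1, hg1, one_pow, mul_one]
      · show M.red 1 (M.normα g) = 1
        rw [h1 g hg hg0, h0 g hg hg0, hg1, hg1, one_pow, mul_one]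
      · show M.red 2 (M.normα g) = 1
        rw [h2 g hg hg0, hg1, one_pow]
    red_o := h0
    red_mid := h1
    red_p := h2
    regular := fun c y hy _ a ha => ⟨1, fun h1 => hy.1.ne_top ((Ideal.eq_top_iff_one _).mpr h1),
      by simpa using M.normα_mem c a ha⟩ }

/-- **`β* β_*`.** -/
def oldOpBeta (h : L₀ * q * q ∣ L₀ * q ^ 2) (hβ : ∀ a, M.normβ a = degenNorm q h a) :
    OldOp X 2 0 :=
  let S : M.OldSide 2 := M.oldSideβ
    (degenMap K q h : modField K (L₀ * q) →+* modField K (L₀ * q ^ 2)).fieldRange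
    (fun a => by rw [hβ]; exact ⟨_, rfl⟩)
    (fun a ha => by rw [hβ, hMq]; exact degenNorm_pow_of_mem hq hqL q h ha)
  have hord : ∀ g : modField K (L₀ * q ^ 2), g ≠ 0 → (∀ i, M.ord i g = 0) →
      ∀ i, M.ord i (M.normβ g) = 0 := fun g hg hg0 i => by
    obtain ⟨e2, e0⟩ := M.ord_normβ g hg
    rw [hg0, hg0, add_zero] at e2
    rw [hg0, mul_zero] at e0
    fin_cases i
    · exact e0
    · show M.ord 1 (M.normβ g) = 0
      have h1 : M.ord 1 (M.normβ g) = ((M.q : ℤ) - 1) * M.ord 2 (M.normβ g) :=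
        S.ord_one_eq (S.N_mem g) (M.normβ_ne_zero g hg)
      rw [h1]
      show ((M.q : ℤ) - 1) * M.ord 2 (M.normβ g) = 0
      rw [e2, mul_zero]
    · exact e2
  have hmem : ∀ g : modField K (L₀ * q ^ 2), g ≠ 0 → (∀ i, M.ord i g = 0) →
      ∀ i, g ∈ M.Br.V i ∧ M.normβ g ∈ M.Br.V i := fun g hg hg0 i =>
    ⟨M.mem_of_ord_nonneg (hg0 i).ge, M.mem_of_ord_nonneg (hord g hg hg0 i).ge⟩
  have h2 : ∀ g, g ≠ 0 → (∀ i, M.ord i g = 0) →
      M.red 2 (M.normβ g) = M.red 2 g * M.red 1 g ^ (M.q - 1) := fun g hg hg0 => by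
    rw [Model.red_of_mem M (hmem g hg hg0 2).2, Model.red_of_mem M (hmem g hg hg0 2).1,
      Model.red_of_mem M (hmem g hg hg0 1).1]
    exact M.res_normβ₂ g _ _ _
  have h1 : ∀ g, g ≠ 0 → (∀ i, M.ord i g = 0) →
      M.red 1 (M.normβ g) = M.red 2 (M.normβ g) := fun g hg hg0 =>
    oldSide_red_mid hMq S (hmem g hg hg0 2).2
  have h0 : ∀ g, g ≠ 0 → (∀ i, M.ord i g = 0) → M.red 0 (M.normβ g) = M.red 0 g ^ M.q :=
    fun g hg hg0 => by
    rw [Model.red_of_mem M (hmem g hg hg0 0).2, Model.red_of_mem M (hmem g hg hg0 0).1]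
    exact M.res_normβ₀ g _ _
  { fn := M.normβ
    div := oldDiv L₀ q q h
    fn_ne_zero := M.normβ_ne_zero
    ord_eq := fun D g hg hD P => by
      obtain ⟨ζ, hζ⟩ := HasEnoughRootsOfUnity.exists_primitiveRoot Qb q
      rw [hβ]
      exact oldDiv_ord q h (norm_fieldExt_beta hq hqL κ₀ exists_qbToC.some
        (hζ.isUnit_unit hq.ne_zero) h) hg hD P
    locality := oldDiv_locality X hq hW hx hfin₁ hchart q (Or.inr rfl) h
    ord_fn := hord
    red_one := fun g hg hg0 hg1 i => by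
      fin_cases i
      · show M.red 0 (M.normβ g) = 1
        rw [h0 g hg hg0, hg1, one_pow]
      · show M.red 1 (M.normβ g) = 1
        rw [h1 g hg hg0, h2 g hg hg0, hg1, hg1, one_pow, mul_one]
      · show M.red 2 (M.normβ g) = 1
        rw [h2 g hg hg0, hg1, hg1, one_pow, mul_one]
    red_o := h2
    red_mid := h1
    red_p := h0
    regular := fun c y hy hall a ha => by
      haveI := hy.1
      exact M.normβ_mem c y hy.2.1 hall a ha }

theorem oldOpAlpha_div (h : L₀ * q * 1 ∣ L₀ * q ^ 2) (hα : ∀ a, M.normα a = degenNorm 1 h a) :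
    (oldOpAlpha X hq hqL hMq hW hx hfin₁ hchart h hα).div = oldDiv L₀ q 1 h := rfl

theorem oldOpBeta_div (h : L₀ * q * q ∣ L₀ * q ^ 2) (hβ : ∀ a, M.normβ a = degenNorm q h a) :
    (oldOpBeta X hq hqL hMq hW hx hfin₁ hchart h hβ).div = oldDiv L₀ q q h := rfl

end Fermat.Agent.LowerSq.Null
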