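/-
Lowering from `q² L` to `q L` for `4 ∣ L`: the null-divisor argument on the model of `X₀(q² L)` at
a place over `q`.
-/
import Fermat.Agent.Carayol.ModelExists
import Fermat.Agent.LowerSq.Null.GeomInst
import Fermat.Agent.LowerSq.Null.PtsExists
import Fermat.Agent.LowerSq.Null.HeckeOp
import Fermat.Agent.LowerSq.Null.OldKill
import Fermat.Agent.LowerSq.Null.OldOps
import Fermat.Agent.LowerSq.Null.Lower
import Fermat.Agent.LowerSq.Defs

set_option autoImplicit false
set_option linter.unusedSectionVars false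
set_option linter.style.haveILetI false

noncomputable section

open AlgebraicCurve ModularCurve IsLocalRing
open Fermat.Agent.HK.Corr

namespace Fermat.Agent.LowerSq.Null

open Carayol

local notation "Qb" => AlgebraicClosure ℚ

section Kill

/-- The image of `T_l - l - 1` on an old divisor gives a class killed by the polynomials vanishing at
the lower level. -/
theorem exists_eisDiv_old_killed {N M q d : ℕ} [NeZero N] [NeZero M] [NeZero d] (hN : N = M * q)
    (hq : q.Prime) (hd : d ∣ q) (h : M * d ∣ N) {S : Finset ℕ}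
    (hS : ∀ r : ℕ, r.Prime → r ∣ N → r ∈ S) (hlow : ∀ r : ℕ, r.Prime → r ∣ M → r ∈ S)
    {t : TraceFn.AwayHecke S} (ht : TraceFn.awayEval M S hlow t = 0) {l : ℕ} [NeZero l]
    (hl : l.Prime) (hlS : l ∉ S) [HasPrincipalDivisors Qb (modField Qb N)]
    (hh : (degenMap Qb d h).toRingHom.IsIntegral) (Y : Divisor Qb (modularFunctionFieldBar N)) :
    ∃ Z : Divisor.degZero (K := Qb) (F := modularFunctionFieldBar N),
      (Z : Divisor Qb (modularFunctionFieldBar N)) = eisDiv l
          (Divisor.pullbackAlong (degenMap Qb d h) hh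
            (Divisor.pushforwardAlong (degenMap Qb d h) hh Y)) ∧
        TraceFn.jHecke N (TraceFn.awayIncl S t) (Pic0.mk Z) = 0 := by
  haveI := hasPrincipalDivisors_level Qb (N * l)
  have hlN : ¬ l ∣ N := fun e => hlS (hS l hl e)
  exact ⟨⟨eisDiv l (Divisor.pullbackAlong (degenMap Qb d h) hh
      (Divisor.pushforwardAlong (degenMap Qb d h) hh Y)), degree_heckeDivBar_sub hl hlN _⟩, rfl,
    jHecke_eis_old_eq_zero_of_eq hN hq hd h hS hlow ht hl hlN hh Y _ rfl⟩

end Kill

variable {A₀ : ValuationSubring Qb} {K K' k : Type} [Field K] [Algebra ℚ K] [Algebra K Qb]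
  [Field K'] [Algebra ℚ K'] [Field k] {q L : ℕ} [NeZero q] [NeZero L]
  [IsDiscreteValuationRing (constA A₀ K)] {hq : q.Prime} {hqL : ¬ q ∣ L}
  {π₀ : A₀ →+* k} {κ : K →+* K'} {ι : K' →+* Qb} {η : K'ˣ}
  {e0 e02 : modField K (L * q ^ 2) →+* LaurentSeries K'}
  {ez : Fin (q - 1) → modField K (L * q ^ 2) →+* LaurentSeries K'} {k₀ : Fin (q - 1)}
  {Br : Branches (modField K (L * q ^ 2)) (Fin 3) (fun _ => modularFunctionFieldFullC k L)}
  {ord : Fin 3 → modField K (L * q ^ 2) → ℤ}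
  (D : ModelData A₀ hq hqL π₀ κ ι η e0 e02 ez k₀ Br ord)

include D in
/-- `(T_l - l - 1) f` is a unit along the three branches. -/
theorem ord_eisFn_eq_zero {l : ℕ} [NeZero l] (hl : l.Prime) (hlN : ¬ l ∣ L * q ^ 2)
    {f : modField K (L * q ^ 2)} (hf : f ≠ 0) (i : Fin 3) :
    D.model.ord i (eisFn K (L * q ^ 2) l f) = 0 := by
  have hC := D.consts
  have B := D.branchData.chartData
  haveI := hC.dvr
  haveI := hC.charP
  haveI := Fact.mk hq
  have hql : ¬ q ∣ l := fun h => hlN (dvd_mul_of_dvd_right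
    (((Nat.prime_dvd_prime_iff_eq hq hl).mp h).symm ▸ dvd_pow_self q two_ne_zero) _)
  obtain ⟨ω, hω⟩ := exists_primitiveRoot_consts hC hl hql
  obtain ⟨-, ⟨ιC⟩⟩ := hC.exists_ιC
  obtain ⟨ϖ, hϖ⟩ := IsDiscreteValuationRing.exists_irreducible (constO A₀ ι)
  have hp : (ϖ : K') ≠ 0 := by simpa [ZeroMemClass.coe_eq_zero] using hϖ.ne_zero
  have hp0 : constRes π₀ ι ϖ = 0 := (hC.hπ ϖ).mpr hϖ.not_isUnit
  obtain ⟨E, hE0, hE⟩ := hC.exists_E hϖ
  have hmid : ∀ (j j' : Fin (q - 1)) (a : modField K (L * q ^ 2)) (n : ℤ),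
      HasGaussOrd (constRes π₀ ι) (ϖ : K') (ez j a) n →
        HasGaussOrd (constRes π₀ ι) (ϖ : K') (ez j' a) n := by
    intro j j' a n h
    obtain ⟨m, hm⟩ := hC.exists_ord_mid B.branches hϖ hE0 hE (a := a)
      fun ha => h.ne_zero (by rw [ha, map_zero])
    rw [h.unique hp hp0 (hm j)]
    exact hm j'
  have key : HasGaussOrd (constRes π₀ ι) (ϖ : K')
      (branchTriple e0 e02 ez k₀ i (eisFn K (L * q ^ 2) l f)) 0 := by
    have hh := fun n => B.branches.hasGaussOrd_eisFn ιC hl hlN hC.hπ hp hω hmid f n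
    obtain ⟨⟨m₀, h₀⟩, ⟨m₂, h₂⟩⟩ := hC.exists_ord_outer B.branches hϖ hE hf
    obtain ⟨m₁, h₁⟩ := hC.exists_ord_mid B.branches hϖ hE0 hE hf
    fin_cases i
    · exact (hh _).1 h₀
    · exact (hh _).2.2 k₀ (h₁ k₀)
    · exact (hh _).2.1 h₂
  obtain ⟨r, hr, hg⟩ := key
  rw [neg_zero, zpow_zero, map_one, one_mul] at hg
  obtain ⟨hm, hres⟩ := (B.isGauss_iff i _ r).mp hg
  refine (D.model.ord_eq_zero_of_red hm ?_).2
  rw [Model.red_of_mem D.model hm]
  intro h0
  exact hr (hres.symm.trans ((congrArg _ h0).trans (map_zero _)))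

include D in
/-- The second chart is finite over `W[1/j]`. -/
theorem finiteOver_one : FiniteOver D.model 1 D.model.x⁻¹ := by
  haveI := isScalarTower_valuationSubring (E := modField K (L * q ^ 2)) (constA A₀ K)
  haveI : CharZero K := charZero_of_injective_algebraMap (algebraMap ℚ K).injective
  haveI : CharZero (modField K (L * q ^ 2)) := charZero_of_injective_algebraMap
    (algebraMap K (modField K (L * q ^ 2))).injective
  haveI := MF.Coeff.isFunctionField_laurentBaseChange K (L * q ^ 2)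
  have ht : Transcendental K (jTop K L q)⁻¹ := fun h =>
    MF.Coeff.transcendental_jElem K (L * q ^ 2) (by simpa using h.inv)
  exact (chartRing_finite (W := constA A₀ K) (jTop K L q)⁻¹ (injective_aeval_of_transcendental ht)
    (exists_span_closure_of_finiteDimensional (FF.finiteDimensional_adjoin ht))).2.1

include D in
theorem chartIntegral_model : ChartIntegral D.model := fun _ ha => ha

include D in
theorem modelData_geom : Geom D.model ∧ ∀ i, D.model.ord i D.model.x = 0 :=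
  geom_of_branchData _ D.branchData rfl rfl

include D in
/-- Lowering from the data of the model. -/
theorem lowers_of_modelData {p : ℕ} [Fact p.Prime] (hpq : p ≠ q) (S : Finset ℕ)
    (hS : ∀ r : ℕ, r.Prime → r ∣ L * q ^ 2 → r ∈ S)
    (hlow : ∀ r : ℕ, r.Prime → r ∣ L * q → r ∈ S) (t : TraceFn.AwayHecke S)
    (ht : TraceFn.awayEval (L * q) S hlow t = 0) {l : ℕ} [NeZero l] (hl : l.Prime) (hlS : l ∉ S)
    (P : JZero (L * q ^ 2)) (hP : p • P = 0)
    (hfix : ∀ σ ∈ A₀.inertiaSubgroupIn ℚ, σ • P = P) :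
    ∃ n : ℕ, TraceFn.jHecke (L * q ^ 2) (TraceFn.awayIncl S ((t * eisOp S l) ^ n)) P = 0 := by
  haveI := hasPrincipalDivisors_level Qb (L * q ^ 2)
  haveI := hasPrincipalDivisors_level Qb (L * q ^ 2 * l)
  haveI := isScalarTower_valuationSubring (E := modField K (L * q ^ 2)) (constA A₀ K)
  have hC := D.consts
  haveI := RED.isFunctionField_special (k := k) (N := L) D.branchData.chartData.hL
  obtain ⟨G, hx⟩ := modelData_geom D
  have hxj : (D.model.x : LaurentSeries K) = jSer K :=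
    (MF.Coeff.coe_jElem (K := K) (N := L * q ^ 2)).trans (Fermat.Agent.RED.Spec.jSer_eq_jqModC (L := K)).symm
  have hW : ∀ w : constA A₀ K, ∃ c : K,
      algebraMap (constA A₀ K) (modField K (L * q ^ 2)) w = algebraMap K _ c :=
    fun w => ⟨w, rfl⟩
  have hfin₁ := finiteOver_one D
  let X := modularPts D.model rfl hC (chartIntegral_model D)
  have hchart : ChartByValue X A₀ := fun c y P hy h =>
    modularPts_chart_zero_iff D.model rfl hC (chartIntegral_model D)
      (fieldExt_x_ne_const hxj) hy h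
  obtain ⟨-, ⟨ιC⟩⟩ := hC.exists_ιC
  have hlN : ∀ r : ℕ, r.Prime → r ∉ S → ¬ r ∣ L * q ^ 2 := fun r hr hrS h => hrS (hS r hr h)
  have hd1 : L * q * 1 ∣ L * q ^ 2 := ⟨q, by ring⟩
  have hdq : L * q * q ∣ L * q ^ 2 := ⟨1, by ring⟩
  have hmu : IsUnit ((p : ℕ) : constA A₀ K) := by
    by_contra hnu
    obtain ⟨d, hd⟩ : (q : constA A₀ K) ∣ (p : constA A₀ K) := by
      rw [← Ideal.mem_span_singleton, ← hC.irreducible_q.maximalIdeal_eq]
      exact hnu
    haveI := hC.charP
    have h := congrArg (constRes π₀ (algebraMap K Qb)) hd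
    rw [map_mul, map_natCast, map_natCast, CharP.cast_eq_zero k q, zero_mul,
      CharP.cast_eq_zero_iff k q] at h
    exact hpq ((Nat.prime_dvd_prime_iff_eq hq (Fact.out : p.Prime)).mp h).symm
  have hqp : D.model.q.Coprime p := (Nat.coprime_primes hq (Fact.out : p.Prime)).mpr hpq.symm
  haveI : NeZero (1:ℕ) := ⟨one_ne_zero⟩
  have hh1 := isIntegral_degenMap (degreeInput Qb) 1 hd1
  have hhq := isIntegral_degenMap (degreeInput Qb) q hdq
  refine exists_pow_kills_of_null (X := X) hx G (fun r hr hrS => ?_)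
    (fun r hr hrS _ f hf i => ord_eisFn_eq_zero D hr (hlN r hr hrS) hf i) hS
    (A₀.inertiaSubgroupIn ℚ) hC.fixed
    (fun σ hσ c y Q hy h => (modularPts_cen_smul D.model rfl hC _ hσ).mpr h)
    (oldOpAlpha X hq hqL rfl hW hxj hfin₁ hchart hd1 fun _ => rfl)
    (oldOpBeta X hq hqL rfl hW hxj hfin₁ hchart hdq fun _ => rfl)
    hmu hqp hl hlS t ?_ ?_ P hP hfix
  · intro _
    have hqr : ¬ q ∣ r := fun h => hlN r hr hrS (dvd_mul_of_dvd_right
      (((Nat.prime_dvd_prime_iff_eq hq hr).mp h).symm ▸ dvd_pow_self q two_ne_zero) _)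
    obtain ⟨ω, hω⟩ := exists_primitiveRoot_consts hC hr hqr
    exact ⟨heckeOp X D.branchData.chartData ιC hr (hlN r hr hrS) hω hW hxj hfin₁ hchart, rfl⟩
  · intro Y
    rw [oldOpAlpha_div, oldDiv_apply]
    exact exists_eisDiv_old_killed (by ring) hq (one_dvd q) hd1 hS hlow ht hl hlS hh1 Y
  · intro Y
    rw [oldOpBeta_div, oldDiv_apply]
    exact exists_eisDiv_old_killed (by ring) hq dvd_rfl hdq hS hlow ht hl hlS hhq Y


end Fermat.Agent.LowerSq.Null

namespace Fermat.Agent.LowerSq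

open Null Carayol

local notation "Qb" => AlgebraicClosure ℚ

/-- The levels in normal form. -/
theorem lowers_sq {N M q L p : ℕ} [NeZero N] [NeZero M] [Fact p.Prime] (hN : N = L * q ^ 2)
    (hM : M = L * q) (hq : q.Prime) (hq2 : q ≠ 2) (hpq : p ≠ q) (hqL : ¬ q ∣ L) (h4 : 4 ∣ L)
    (S : Finset ℕ) (hS : ∀ r : ℕ, r.Prime → r ∣ N → r ∈ S)
    (hlow : ∀ r : ℕ, r.Prime → r ∣ M → r ∈ S) (t : TraceFn.AwayHecke S)
    (ht : TraceFn.awayEval M S hlow t = 0) {l : ℕ} (hl : l.Prime) (hlS : l ∉ S)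
    (A : ValuationSubring Qb) (hA : A.LiesOverPrime q) (P : JZero N) (hP : p • P = 0)
    (hfix : ∀ σ ∈ A.inertiaSubgroupIn ℚ, σ • P = P) :
    ∃ n : ℕ, TraceFn.jHecke N (TraceFn.awayIncl S ((t * eisOp S l) ^ n)) P = 0 := by
  subst hN hM
  haveI : NeZero q := ⟨hq.ne_zero⟩
  haveI : NeZero L := ⟨left_ne_zero_of_mul (NeZero.ne (L * q))⟩
  haveI : NeZero l := ⟨hl.ne_zero⟩
  obtain ⟨K, _, _, _, _, K', _, _, κ, ι, η, e0, e02, ez, k₀, Br, ord, D⟩ :=
    exists_modelData (L₀ := L) hq hqL (Or.inl ⟨hq2, h4⟩) hA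
  exact lowers_of_modelData D hpq S hS hlow t ht hl hlS P hP hfix

/-- **Lowering from `q² L` to `q L` for `4 ∣ L`.** -/
theorem stmtKeyTwo : StmtKeyTwo := by
  intro q L p hq hq2 hp _ hpq hqL h4
  intro _ _ S _ hS hlow t ht l hl hlS A hA P hP hfix
  haveI := Fact.mk hp
  exact lowers_sq (by norm_num) (by rw [pow_one]) hq hq2 hpq hqL h4 S hS hlow t ht hl hlS A hA P hP hfix

end Fermat.Agent.LowerSq
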