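import Fermat.Agent.RED.CoordData

/-!
# Composites of a place with a place of the constants

`compV A P` is the valuation ring of the functions whose value at `P` lies in `A`. `IntClosureData`
records that `A` is the integral closure of the ring of constants `W`: then it is the only
valuation ring above `W`.
-/

set_option autoImplicit false

noncomputable section

open AlgebraicCurve Polynomial Fermat.Agent.RED

namespace Fermat.Agent.LowerSq.Null

section Valuation

variable {K : Type*} [Field K] (A : ValuationSubring K)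

theorem nonunits_mul_right {x y : K} (hx : x ∈ A.nonunits) (hy : y ∈ A) : x * y ∈ A.nonunits := by
  rw [A.mem_nonunits_iff] at hx ⊢
  rw [map_mul]
  exact mul_lt_one_of_lt_of_le hx ((A.valuation_le_one_iff _).mpr hy)

theorem one_notMem_nonunits : (1 : K) ∉ A.nonunits := by
  rw [A.mem_nonunits_iff, map_one]; exact lt_irrefl 1

theorem inv_mem_of_notMem_nonunits {x : K} (hx : x ∉ A.nonunits) : x⁻¹ ∈ A := by
  rw [A.mem_nonunits_iff_or] at hx
  push Not at hx
  exact hx.2

end Valuation

variable {W : Type*} [CommRing W] {L : Type*} [Field L]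

/-- The constants: `A` is the integral closure of `W` and has the same residue field. -/
structure IntClosureData (A : ValuationSubring L) (φ : W →+* L) (q : W) : Prop where
  map_mem : ∀ w, φ w ∈ A
  q_nonunit : φ q ∈ A.nonunits
  residue : ∀ a ∈ A, ∃ w, a - φ w ∈ A.nonunits
  poly : ∀ a ∈ A.nonunits, ∃ p : W[X], p.Monic ∧ p.eval₂ φ a = 0 ∧
    ∀ i < p.natDegree, q ∣ p.coeff i

namespace IntClosureData

variable {A : ValuationSubring L} {φ : W →+* L} {q : W} (hA : IntClosureData A φ q)
include hA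

/-- `A` is the only valuation ring above `W`. -/
theorem eq_of_le {V : ValuationSubring L} (hV : ∀ w, φ w ∈ V) (hq : φ q ∈ V.nonunits) : V = A := by
  have key : ∀ a ∈ A.nonunits, a ∈ V.nonunits := by
    intro a ha
    rcases eq_or_ne a 0 with rfl | ha0
    · exact zero_mem _
    by_contra hcon
    have hb : a⁻¹ ∈ V := inv_mem_of_notMem_nonunits V hcon
    obtain ⟨p, hp, hp0, hpq⟩ := hA.poly a ha
    rw [eval₂_eq_sum_range, Finset.sum_range_succ, hp.coeff_natDegree, map_one, one_mul] at hp0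
    have h1 : (1 : L) = -∑ i ∈ Finset.range p.natDegree,
        φ (p.coeff i) * a⁻¹ ^ (p.natDegree - i) := by
      have h2 := congrArg (fun z => z * a⁻¹ ^ p.natDegree) hp0
      simp only [add_mul, zero_mul, Finset.sum_mul] at h2
      rw [← mul_pow, mul_inv_cancel₀ ha0, one_pow] at h2
      rw [eq_neg_iff_add_eq_zero, add_comm]
      refine Eq.trans ?_ h2
      congr 1
      refine Finset.sum_congr rfl fun i hi => ?_
      have hi' := Finset.mem_range.mp hi
      obtain ⟨e, he⟩ := Nat.exists_eq_add_of_le hi'.le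
      rw [he, Nat.add_sub_cancel_left, mul_assoc, pow_add, ← mul_assoc (a ^ i), ← mul_pow,
        mul_inv_cancel₀ ha0, one_pow, one_mul]
    refine one_notMem_nonunits V (h1 ▸ neg_mem (sum_mem fun i hi => ?_))
    obtain ⟨c, hc⟩ := hpq i (Finset.mem_range.mp hi)
    rw [hc, map_mul]
    exact nonunits_mul_right V (nonunits_mul_right V hq (hV c)) (pow_mem hb _)
  refine le_antisymm (fun v hv => ?_) fun a ha => ?_
  · by_contra hvA
    have h := key v⁻¹ (A.inv_mem_nonunits_iff.mpr (Or.inr hvA))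
    rcases V.inv_mem_nonunits_iff.mp h with h0 | h0
    · exact hvA (h0 ▸ zero_mem A)
    · exact h0 hv
  · obtain ⟨w, hw⟩ := hA.residue a ha
    simpa using add_mem (V.nonunits_subset (key _ hw)) (hV w)

/-- A nonunit of `W` maps to a nonunit. -/
theorem nonunit_of_dvd {w : W} (h : q ∣ w) : φ w ∈ A.nonunits := by
  obtain ⟨c, rfl⟩ := h
  rw [map_mul]
  exact nonunits_mul_right A hA.q_nonunit (hA.map_mem c)

end IntClosureData

variable {E : Type*} [Field E] [Algebra L E] {P : Place L E} (hd : P.deg = 1)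

theorem placeVal_of_ord_pos {f : E} (hf : f ∈ P.toValuationSubring) (h : 0 < P.ord f) :
    placeVal P hd ⟨f, hf⟩ = 0 :=
  (placeVal_eq_zero_iff P hd _).mpr (Or.inr h)

theorem placeVal_mk_zero (hf : (0 : E) ∈ P.toValuationSubring) : placeVal P hd ⟨0, hf⟩ = 0 :=
  (placeVal_eq_zero_iff P hd _).mpr (Or.inl rfl)

theorem placeVal_mul_inv {f : E} (hf0 : f ≠ 0) (hf : f ∈ P.toValuationSubring)
    (hf' : f⁻¹ ∈ P.toValuationSubring) :
    placeVal P hd ⟨f⁻¹, hf'⟩ = (placeVal P hd ⟨f, hf⟩)⁻¹ := by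
  refine eq_inv_of_mul_eq_one_right ?_
  rw [← map_mul]
  refine (congrArg (placeVal P hd) (Subtype.ext ?_)).trans (map_one _)
  exact mul_inv_cancel₀ hf0

theorem compV_mem_or_inv_mem (A : ValuationSubring L) (f : E) :
    (∃ h : f ∈ P.toValuationSubring, placeVal P hd ⟨f, h⟩ ∈ A) ∨
      ∃ h : f⁻¹ ∈ P.toValuationSubring, placeVal P hd ⟨f⁻¹, h⟩ ∈ A := by
  rcases eq_or_ne f 0 with rfl | hf0
  · exact Or.inl ⟨zero_mem _, (placeVal_mk_zero hd (zero_mem _)).symm ▸ zero_mem A⟩
  rcases lt_trichotomy (P.ord f) 0 with h | h | h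
  · have h1 : 0 < P.ord f⁻¹ := by rw [P.ord_inv]; omega
    refine Or.inr ⟨mem_of_ord_nonneg P h1.le, ?_⟩
    rw [placeVal_of_ord_pos hd _ h1]
    exact zero_mem A
  · have hf : f ∈ P.toValuationSubring := mem_of_ord_nonneg P h.ge
    have hf' : f⁻¹ ∈ P.toValuationSubring := mem_of_ord_nonneg P (by rw [P.ord_inv]; omega)
    refine (A.mem_or_inv_mem (placeVal P hd ⟨f, hf⟩)).imp (fun h' => ⟨hf, h'⟩)
      fun h' => ⟨hf', ?_⟩
    rw [placeVal_mul_inv hd hf0 hf hf']
    exact h'
  · refine Or.inl ⟨mem_of_ord_nonneg P h.le, ?_⟩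
    rw [placeVal_of_ord_pos hd _ h]
    exact zero_mem A

variable (A : ValuationSubring L)

/-- The functions whose value at `P` lies in `A`. -/
def compV : ValuationSubring E where
  toSubring := (A.toSubring.comap (placeVal P hd)).map P.toValuationSubring.toSubring.subtype
  mem_or_inv_mem' f := by
    rcases compV_mem_or_inv_mem hd A f with ⟨h, h'⟩ | ⟨h, h'⟩
    · exact Or.inl ⟨⟨f, h⟩, h', rfl⟩
    · exact Or.inr ⟨⟨f⁻¹, h⟩, h', rfl⟩

variable {A}

theorem mem_compV {f : E} :
    f ∈ compV hd A ↔ ∃ h : f ∈ P.toValuationSubring, placeVal P hd ⟨f, h⟩ ∈ A :=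
  ⟨by rintro ⟨⟨g, hg⟩, hg', rfl⟩; exact ⟨hg, hg'⟩, fun ⟨h, h'⟩ => ⟨⟨f, h⟩, h', rfl⟩⟩

theorem mem_place_of_mem_compV {f : E} (hf : f ∈ compV hd A) : f ∈ P.toValuationSubring :=
  ((mem_compV hd).mp hf).1

theorem algebraMap_mem_compV {a : L} (ha : a ∈ A) : algebraMap L E a ∈ compV hd A := by
  refine (mem_compV hd).mpr ⟨P.algebraMap_mem' a, ?_⟩
  rw [show (⟨algebraMap L E a, P.algebraMap_mem' a⟩ : P.toValuationSubring) =
    algebraMap L P.toValuationSubring a from rfl, placeVal_algebraMap]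
  exact ha

theorem mem_nonunits_compV {f : E} :
    f ∈ (compV hd A).nonunits ↔
      ∃ h : f ∈ P.toValuationSubring, placeVal P hd ⟨f, h⟩ ∈ A.nonunits := by
  constructor
  · intro h
    obtain ⟨hf, hfA⟩ := (mem_compV hd).mp ((compV hd A).nonunits_subset h)
    refine ⟨hf, ?_⟩
    by_contra hcon
    rcases eq_or_ne f 0 with rfl | hf0
    · rw [show (⟨0, hf⟩ : P.toValuationSubring) = 0 from rfl, map_zero] at hcon
      exact hcon (zero_mem _)
    rcases (compV hd A).mem_nonunits_iff_or.mp h with h' | h'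
    · exact hf0 h'
    refine h' ((mem_compV hd).mpr ?_)
    have hord : P.ord f = 0 := by
      have := ord_nonneg_of_mem P hf
      by_contra hne
      exact hcon (by
        rw [(placeVal_eq_zero_iff P hd _).mpr (Or.inr (by show 0 < P.ord f; omega))]
        exact zero_mem _)
    have hf' : f⁻¹ ∈ P.toValuationSubring := mem_of_ord_nonneg P (by rw [P.ord_inv]; omega)
    refine ⟨hf', ?_⟩
    rw [placeVal_mul_inv hd hf0 hf hf']
    exact inv_mem_of_notMem_nonunits A hcon
  · rintro ⟨hf, hv⟩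
    by_contra hcon
    have h1 := inv_mem_of_notMem_nonunits _ hcon
    obtain ⟨hf', hv'⟩ := (mem_compV hd).mp h1
    rcases eq_or_ne f 0 with rfl | hf0
    · exact hcon (zero_mem _)
    rw [placeVal_mul_inv hd hf0 hf hf'] at hv'
    rcases eq_or_ne (placeVal P hd ⟨f, hf⟩) 0 with h0 | h0
    · rcases (placeVal_eq_zero_iff P hd _).mp h0 with h' | h'
      · exact hf0 h'
      · have := ord_nonneg_of_mem P hf'
        rw [P.ord_inv] at this
        change 0 < P.ord f at h'
        omega
    · exact one_notMem_nonunits A (mul_inv_cancel₀ h0 ▸ nonunits_mul_right A hv hv')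

theorem algebraMap_mem_nonunits_compV {a : L} (ha : a ∈ A.nonunits) :
    algebraMap L E a ∈ (compV hd A).nonunits := by
  refine (mem_nonunits_compV hd).mpr ⟨P.algebraMap_mem' a, ?_⟩
  rw [show (⟨algebraMap L E a, P.algebraMap_mem' a⟩ : P.toValuationSubring) =
    algebraMap L P.toValuationSubring a from rfl, placeVal_algebraMap]
  exact ha

/-- The residue field of the composite is that of `A`. -/
theorem exists_sub_mem_nonunits {f : E} (hf : f ∈ compV hd A) :
    ∃ a ∈ A, f - algebraMap L E a ∈ (compV hd A).nonunits := by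
  obtain ⟨h, hA⟩ := (mem_compV hd).mp hf
  refine ⟨_, hA, (mem_nonunits_compV hd).mpr ⟨sub_mem h (P.algebraMap_mem' _), ?_⟩⟩
  rw [show (⟨f - algebraMap L E (placeVal P hd ⟨f, h⟩), sub_mem h (P.algebraMap_mem' _)⟩ :
    P.toValuationSubring) = ⟨f, h⟩ - algebraMap L P.toValuationSubring (placeVal P hd ⟨f, h⟩)
    from rfl, map_sub, placeVal_algebraMap, sub_self]
  exact zero_mem _

theorem ord_eq_zero_of_unit {f : E} (hf : f ∈ compV hd A) (hn : f ∉ (compV hd A).nonunits) :
    P.ord f = 0 := by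
  have h0 := ord_nonneg_of_mem P (mem_place_of_mem_compV hd hf)
  by_contra hne
  refine hn ((mem_nonunits_compV hd).mpr ⟨mem_place_of_mem_compV hd hf, ?_⟩)
  rw [(placeVal_eq_zero_iff P hd _).mpr (Or.inr (by show 0 < P.ord f; omega))]
  exact zero_mem _

end Fermat.Agent.LowerSq.Null
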