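import Fermat.Agent.LowerSq.Null.Defs
import Fermat.Agent.LowerSq.Null.Centre
import Fermat.Agent.Carayol.OrdLocal
import Fermat.Agent.Carayol.ChartsCover
import Fermat.Prelude.Def_AlgebraicCurve_BaseChangeGalois

/-!
# Specialisation of the geometric points of a `Model`

The place `P` specialises to `y` when the composite of `P` with the place `A` of the constants is
centred at `y`. Functions without poles at a point are regular there, as every horizontal prime
of the local ring is a place specialising to the point.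
-/

set_option autoImplicit false
set_option linter.unusedSectionVars false

noncomputable section

open AlgebraicCurve Polynomial Fermat.Agent.RED

namespace Fermat.Agent.LowerSq.Null

open Carayol

variable {W F k C : Type} [CommRing W] [IsDomain W] [IsDiscreteValuationRing W] [Field F]
  [Algebra W F] [Field k] [Field C] [Algebra k C] (M : Model W F k C)
  {L E : Type} [Field L] [Field E] [Algebra L E] (hdeg : ∀ P : Place L E, P.deg = 1)
  (A : ValuationSubring L) (φ : W →+* L) (ι : F →+* E)

/-- The composite of `P` with `A` is centred at `y`. -/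
def CompCen (c : Fin 2) (y : Ideal (M.R c)) (P : Place L E) : Prop :=
  (∀ r : M.R c, ι (r : F) ∈ compV (hdeg P) A) ∧
    ∀ r : M.R c, r ∈ y ↔ ι (r : F) ∈ (compV (hdeg P) A).nonunits

variable (W) in
/-- Every place of `F` trivial on the constants is below a geometric place. -/
def PlacesLift (L : Type) [Field L] [Algebra L E] (ι : F →+* E) : Prop :=
  ∀ O : ValuationSubring F, IsDiscreteValuationRing O →
    (∀ w : W, w ≠ 0 → algebraMap W F w ∈ O ∧ (algebraMap W F w)⁻¹ ∈ O) →
      ∃ P : Place L E, ∀ g : F, g ∈ O ↔ ι g ∈ P.toValuationSubring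

/-- The second chart is integral over `W[1/x]`. -/
def ChartIntegral : Prop :=
  ∀ a ∈ M.R 1, IsIntegral (Algebra.adjoin W ({M.x⁻¹} : Set F)) a

variable {M hdeg A φ ι} (hA : IntClosureData A φ (M.q : W))
  (hι : ∀ w, ι (algebraMap W F w) = algebraMap L E (φ w))

include hA hι in
theorem algebraMap_mem_comap_compV (P : Place L E) (w : W) :
    algebraMap W F w ∈ (compV (hdeg P) A).comap ι := by
  show ι (algebraMap W F w) ∈ compV (hdeg P) A
  rw [hι]
  exact algebraMap_mem_compV _ (hA.map_mem w)

include hA hι in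
/-- Elements integral over `W[z]` follow `z`. -/
theorem map_mem_compV_of_isIntegral (P : Place L E) {z : F} (hz : ι z ∈ compV (hdeg P) A) {a : F}
    (ha : IsIntegral (Algebra.adjoin W ({z} : Set F)) a) : ι a ∈ compV (hdeg P) A := by
  set V := (compV (hdeg P) A).comap ι
  have hle : ∀ b : Algebra.adjoin W ({z} : Set F), (b : F) ∈ V := by
    rintro ⟨b, hb⟩
    induction hb using Algebra.adjoin_induction with
    | mem x hx =>
      obtain rfl : x = z := hx
      exact hz
    | algebraMap w => exact algebraMap_mem_comap_compV hA hι P w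
    | add x x' _ _ ihx ihx' => exact add_mem ihx ihx'
    | mul x x' _ _ ihx ihx' => exact mul_mem ihx ihx'
  exact mem_valuationSubring_of_isIntegralElem (φ := algebraMap _ F) V hle ha

include hA hι in
/-- The centre is a point of the special fibre. -/
theorem exists_compCen (c : Fin 2) (P : Place L E)
    (h : ∀ r : M.R c, ι (r : F) ∈ compV (hdeg P) A) :
    ∃ y : Ideal (M.R c), CompCen M hdeg A ι c y P ∧ y.IsMaximal ∧ M.qR c ∈ y := by
  let Φ : M.R c →+* compV (hdeg P) A :=
    (ι.comp (M.R c).val.toRingHom).codRestrict _ h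
  have hmem : ∀ r, r ∈ (IsLocalRing.maximalIdeal _).comap Φ ↔
      ι (r : F) ∈ (compV (hdeg P) A).nonunits :=
    fun r => ((compV (hdeg P) A).coe_mem_nonunits_iff (a := Φ r)).symm
  refine ⟨(IsLocalRing.maximalIdeal _).comap Φ, ⟨h, hmem⟩, ?_, ?_⟩
  · refine Ideal.isMaximal_iff.mpr ⟨fun h1 => ?_, fun J x hJ hx hxJ => ?_⟩
    · rw [hmem, OneMemClass.coe_one, map_one] at h1
      exact one_notMem_nonunits _ h1
    · obtain ⟨a, ha, hxa⟩ := exists_sub_mem_nonunits _ (h x)
      obtain ⟨w, hw⟩ := hA.residue a ha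
      have hxw : x - algebraMap W (M.R c) w ∈ (IsLocalRing.maximalIdeal _).comap Φ := by
        rw [hmem, AddSubgroupClass.coe_sub, map_sub, Subalgebra.coe_algebraMap, hι]
        convert add_mem hxa (algebraMap_mem_nonunits_compV (P := P) (hdeg P) hw) using 1
        rw [map_sub]
        ring
      have hwJ : algebraMap W (M.R c) w ∈ J := by
        have := J.sub_mem hxJ (hJ hxw)
        rwa [sub_sub_cancel] at this
      have hwu : IsUnit w := by
        by_contra hwu
        refine hx ((hmem x).mpr ?_)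
        have hdvd : (M.q : W) ∣ w := by
          rw [← Ideal.mem_span_singleton, ← M.irreducible_q.maximalIdeal_eq]
          exact hwu
        have h2 := algebraMap_mem_nonunits_compV (P := P) (hdeg P) (hA.nonunit_of_dvd hdvd)
        rw [← hι] at h2
        have h3 := add_mem ((hmem _).mp hxw) h2
        rwa [← map_add, ← Subalgebra.coe_algebraMap (S := M.R c), ← AddMemClass.coe_add,
          sub_add_cancel] at h3
      exact (Ideal.eq_top_of_isUnit_mem J hwJ (hwu.map _)) ▸ Submodule.mem_top
  · rw [hmem]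
    show ι (algebraMap W F (M.q : W)) ∈ _
    rw [hι]
    exact algebraMap_mem_nonunits_compV _ hA.q_nonunit

include hA hι in
/-- **Every place specialises to a point.** -/
theorem exists_std_compCen (hint : ChartIntegral M) (P : Place L E) :
    ∃ c y, Std M c y ∧ CompCen M hdeg A ι c y P := by
  by_cases hx : ι M.x ∈ compV (hdeg P) A
  · obtain ⟨y, hy, hmax, hq⟩ := exists_compCen hA hι 0 P fun r =>
      map_mem_compV_of_isIntegral hA hι P hx (M.isIntegral_chart_zero r.2)
    exact ⟨0, y, ⟨hmax, hq, fun h => absurd h (by decide)⟩, hy⟩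
  · have hn : ι M.x⁻¹ ∈ (compV (hdeg P) A).nonunits := by
      rw [map_inv₀]
      exact (compV (hdeg P) A).inv_mem_nonunits_iff.mpr (Or.inr hx)
    obtain ⟨y, hy, hmax, hq⟩ := exists_compCen hA hι 1 P fun r =>
      map_mem_compV_of_isIntegral hA hι P ((compV (hdeg P) A).nonunits_subset hn) (hint _ r.2)
    exact ⟨1, y, ⟨hmax, hq, fun _ r hr => (hy.2 r).mpr (by rw [hr]; exact hn)⟩, hy⟩

theorem CompCen.chart_zero_iff {c : Fin 2} {y : Ideal (M.R c)} {P : Place L E}
    (h : CompCen M hdeg A ι c y P) (hy : Std M c y) :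
    c = 0 ↔ ι M.x ∈ compV (hdeg P) A := by
  fin_cases c
  · exact iff_of_true rfl (h.1 ⟨M.x, M.x_mem⟩)
  · refine iff_of_false (by decide) fun hx => ?_
    have hn := (h.2 ⟨M.x⁻¹, M.x_inv_mem⟩).mp (hy.2.2 rfl _ rfl)
    have h1 := nonunits_mul_right _ hn hx
    rw [← map_mul, inv_mul_cancel₀ M.x_ne_zero, map_one] at h1
    exact one_notMem_nonunits _ h1

/-- The chart is told by the value of the coordinate. -/
theorem CompCen.chart_zero_iff_exists {c : Fin 2} {y : Ideal (M.R c)} {P : Place L E}
    (h : CompCen M hdeg A ι c y P) (hy : Std M c y)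
    (hx : ∀ a : L, ι M.x ≠ algebraMap L E a) :
    c = 0 ↔ ∃ a : L, a ∈ A ∧ 0 < P.ord (ι M.x - algebraMap L E a) := by
  rw [h.chart_zero_iff hy, mem_compV]
  constructor
  · rintro ⟨hm, ha⟩
    refine ⟨_, ha, ((placeVal_eq_zero_iff P (hdeg P) ⟨ι M.x - algebraMap L E
      (placeVal P (hdeg P) ⟨ι M.x, hm⟩), sub_mem hm (P.algebraMap_mem' _)⟩).mp ?_).resolve_left
      fun h0 => hx _ (sub_eq_zero.mp h0)⟩
    rw [show (⟨ι M.x - algebraMap L E (placeVal P (hdeg P) ⟨ι M.x, hm⟩),
        sub_mem hm (P.algebraMap_mem' _)⟩ : P.toValuationSubring) =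
        ⟨ι M.x, hm⟩ - algebraMap L P.toValuationSubring (placeVal P (hdeg P) ⟨ι M.x, hm⟩) from rfl,
      map_sub, placeVal_algebraMap, sub_self]
  · rintro ⟨a, ha, hpos⟩
    have hm : ι M.x ∈ P.toValuationSubring := by
      simpa using add_mem (mem_of_ord_nonneg P hpos.le) (P.algebraMap_mem' a)
    refine ⟨hm, ?_⟩
    have h0 := placeVal_of_ord_pos (hdeg P) (sub_mem hm (P.algebraMap_mem' a)) hpos
    rw [show (⟨ι M.x - algebraMap L E a, sub_mem hm (P.algebraMap_mem' a)⟩ :
        P.toValuationSubring) = ⟨ι M.x, hm⟩ - algebraMap L P.toValuationSubring a from rfl,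
      map_sub, placeVal_algebraMap, sub_eq_zero] at h0
    exact h0 ▸ ha

theorem CompCen.unique {c c' : Fin 2} {y : Ideal (M.R c)} {y' : Ideal (M.R c')} {P : Place L E}
    (hy : Std M c y) (hy' : Std M c' y') (h : CompCen M hdeg A ι c y P)
    (h' : CompCen M hdeg A ι c' y' P) :
    (⟨c, y⟩ : Σ c, Ideal (M.R c)) = ⟨c', y'⟩ := by
  have hcc : c = c' := by
    have h1 := h.chart_zero_iff hy
    have h2 := h'.chart_zero_iff hy'
    rw [← h2] at h1
    fin_cases c <;> fin_cases c' <;> simp_all
  subst hcc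
  rw [Ideal.ext fun r => (h.2 r).trans (h'.2 r).symm]

theorem CompCen.mem_and_ord {c : Fin 2} {y : Ideal (M.R c)} {P : Place L E}
    (h : CompCen M hdeg A ι c y P) (r : M.R c) :
    ι (r : F) ∈ P.toValuationSubring ∧ (r ∉ y → P.ord (ι (r : F)) = 0) :=
  ⟨mem_place_of_mem_compV _ (h.1 r),
    fun hr => ord_eq_zero_of_unit _ (h.1 r) fun hn => hr ((h.2 r).mpr hn)⟩

include hA hι in
/-- A function vanishing at `P` and not at another point. -/
theorem CompCen.exists_sep {c : Fin 2} {y z : Ideal (M.R c)} {P : Place L E} (hy : Std M c y)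
    (hz : Std M c z) (hne : y ≠ z) (h : CompCen M hdeg A ι c z P) :
    ∃ s : M.R c, s ∉ y ∧ 0 < P.ord (ι (s : F)) := by
  have := hy.1
  obtain ⟨s₀, hs₀z, hs₀y⟩ : ∃ s₀ ∈ z, s₀ ∉ y := by
    by_contra hcon
    push Not at hcon
    exact hne (hz.1.eq_of_le hy.1.ne_top hcon).symm
  obtain ⟨hm, hv⟩ := (mem_nonunits_compV (hdeg P)).mp ((h.2 s₀).mp hs₀z)
  obtain ⟨p, hp, hp0, hpq⟩ := hA.poly _ hv
  set s : M.R c := aeval s₀ p
  have hsy : s ∉ y := by
    intro hsy
    have h1 : s - s₀ ^ p.natDegree ∈ y := by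
      have e : s - s₀ ^ p.natDegree =
          ∑ i ∈ Finset.range p.natDegree, algebraMap W (M.R c) (p.coeff i) * s₀ ^ i := by
        simp only [s, aeval_def, eval₂_eq_sum_range, Finset.sum_range_succ, hp.coeff_natDegree,
          map_one, one_mul, add_sub_cancel_right]
      rw [e]
      refine y.sum_mem fun i hi => y.mul_mem_right _ ?_
      obtain ⟨w, hw⟩ := hpq i (Finset.mem_range.mp hi)
      rw [hw, map_mul]
      exact y.mul_mem_right _ hy.2.1
    exact hs₀y (hy.1.isPrime.mem_of_pow_mem _ ((y.sub_mem_iff_right hsy).mp h1))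
  refine ⟨s, hsy, ?_⟩
  let ψ : M.R c →+* P.toValuationSubring :=
    (ι.comp (M.R c).val.toRingHom).codRestrict _ fun r => (h.mem_and_ord r).1
  have hzero : placeVal P (hdeg P) (ψ s) = 0 := by
    show (placeVal P (hdeg P)).comp ψ (aeval s₀ p) = 0
    rw [aeval_def, hom_eval₂]
    refine Eq.trans ?_ hp0
    congr 1
    refine RingHom.ext fun w => ?_
    show placeVal P (hdeg P) ⟨ι (algebraMap W F w), _⟩ = φ w
    rw [show (⟨ι (algebraMap W F w), (h.mem_and_ord (algebraMap W (M.R c) w)).1⟩ :
      P.toValuationSubring) = algebraMap L P.toValuationSubring (φ w) from Subtype.ext (hι w),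
      placeVal_algebraMap]
  refine ((placeVal_eq_zero_iff P (hdeg P) _).mp hzero).resolve_left fun h0 => hsy ?_
  rw [show s = 0 from Subtype.ext ((map_eq_zero ι).mp h0)]
  exact zero_mem _

include hA hι in
/-- A place whose valuation ring contains the chart and whose centre is inside `y` specialises
to `y`. -/
theorem compCen_of_le {c : Fin 2} {y : Ideal (M.R c)} (hy : Std M c y) {P : Place L E}
    (hR : ∀ r : M.R c, ι (r : F) ∈ P.toValuationSubring)
    (hker : ∀ r : M.R c, r ∉ y → P.ord (ι (r : F)) = 0) :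
    CompCen M hdeg A ι c y P := by
  let ψ : M.R c →+* L := (placeVal P (hdeg P)).comp
    ((ι.comp (M.R c).val.toRingHom).codRestrict _ hR)
  have hψ : ∀ r, ψ r = placeVal P (hdeg P) ⟨ι (r : F), hR r⟩ := fun _ => rfl
  have hkey : ∀ r, ψ r = 0 → r ∈ y := fun r hr => by
    by_contra hry
    rcases (placeVal_eq_zero_iff P (hdeg P) _).mp hr with h0 | h0
    · exact hry (by rw [show r = 0 from Subtype.ext ((map_eq_zero ι).mp h0)]; exact zero_mem _)
    · exact (hker r hry ▸ h0 : (0 : ℤ) < 0).false
  have hψw : ∀ w, ψ (algebraMap W (M.R c) w) = φ w := fun w => by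
    rw [hψ, show (⟨ι ((algebraMap W (M.R c) w : M.R c) : F), hR _⟩ : P.toValuationSubring) =
      algebraMap L P.toValuationSubring (φ w) from Subtype.ext (hι w), placeVal_algebraMap]
  let I : Ideal ψ.range := y.map ψ.rangeRestrict
  have hI : I ≠ ⊤ := by
    rw [Ideal.ne_top_iff_one, Ideal.mem_map_iff_of_surjective _ ψ.rangeRestrict_surjective]
    rintro ⟨s, hs, hs1⟩
    have h1 : ψ s = 1 := congrArg Subtype.val hs1
    have h2 := y.add_mem hs (hkey (1 - s) (by rw [map_sub, map_one, h1, sub_self]))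
    rw [add_sub_cancel] at h2
    exact hy.1.ne_top ((Ideal.eq_top_iff_one _).mpr h2)
  obtain ⟨V, hle, hnon⟩ := Ideal.image_subset_nonunits_valuationSubring I hI
  have hy' : ∀ r ∈ y, ψ r ∈ V.nonunits := fun r hr =>
    hnon ⟨ψ.rangeRestrict r, Ideal.mem_map_of_mem _ hr, rfl⟩
  have hVA : V = A := by
    refine hA.eq_of_le (fun w => hψw w ▸ hle ⟨_, rfl⟩) ?_
    rw [← hψw]
    exact hy' _ hy.2.1
  subst hVA
  refine ⟨fun r => (mem_compV _).mpr ⟨hR r, hle ⟨r, rfl⟩⟩, fun r => ⟨fun hr =>
    (mem_nonunits_compV _).mpr ⟨hR r, hy' r hr⟩, fun hr => ?_⟩⟩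
  obtain ⟨_, hv⟩ := (mem_nonunits_compV _).mp hr
  by_contra hry
  obtain ⟨t, i, hi, hti⟩ := hy.1.exists_inv hry
  refine one_notMem_nonunits V ?_
  rw [← map_one ψ, ← hti, map_add, map_mul]
  exact add_mem (mul_comm (ψ t) (ψ r) ▸ nonunits_mul_right V hv (hle ⟨t, rfl⟩)) (hy' i hi)

include hA hι in
/-- **Functions without poles at a point are regular there.** -/
theorem regular_of_compCen (hlift : PlacesLift W L ι) {c : Fin 2} {y : Ideal (M.R c)} {f : F}
    (hy : Std M c y) (hf : f ≠ 0) (hord : ∀ i, M.OnBranch c y i → 0 ≤ M.ord i f)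
    (hP : ∀ P, CompCen M hdeg A ι c y P → 0 ≤ P.ord (ι f)) :
    ∃ r : M.R c, r ∉ y ∧ f * (r : F) ∈ M.R c := by
  classical
  have := hy.1
  have := M.ufm_locAt c y hy.2.1
  obtain ⟨a, b, hab, rfl⟩ := IsFractionRing.exists_reduced_fraction (A := M.locAt c y) f
  have hb0 : (b : M.locAt c y) ≠ 0 := nonZeroDivisors.ne_zero b.2
  by_cases hu : IsUnit (b : M.locAt c y)
  · obtain ⟨b', hb'⟩ := hu.exists_right_inv
    obtain ⟨r, s, hs, hrs⟩ := M.exists_rep_locAt c y (a * b')
    refine ⟨s, hs, ?_⟩
    have e : IsLocalization.mk' F a b = algebraMap (M.locAt c y) F (a * b') := by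
      rw [IsLocalization.mk'_eq_iff_eq_mul, ← map_mul, mul_assoc, mul_comm b' _, hb', mul_one]
    rw [e]
    show ((a * b' : M.locAt c y) : F) * (s : F) ∈ _
    rw [hrs]
    exact r.2
  exfalso
  obtain ⟨p, hp, hpb⟩ := WfDvdMonoid.exists_irreducible_factor hu hb0
  rw [UniqueFactorizationMonoid.irreducible_iff_prime] at hp
  have hpa : ¬ p ∣ a := fun h => hp.not_isUnit (hab h hpb)
  have hfb : IsLocalization.mk' F a b * ((b : M.locAt c y) : F) = ((a : M.locAt c y) : F) :=
    IsLocalization.mk'_spec F a b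
  set f := IsLocalization.mk' F a b
  by_cases hq : p ∣ algebraMap (M.R c) (M.locAt c y) (M.qR c)
  · obtain ⟨i, hi, -, hunit, hp1⟩ := M.exists_branch_of_prime c y hy.2.1 hp hq
    obtain ⟨n, b', hb', hbn⟩ := WfDvdMonoid.max_power_factor hb0 hp.irreducible
    have hn : 1 ≤ n := by
      by_contra hn
      obtain rfl : n = 0 := by omega
      rw [pow_zero, one_mul] at hbn
      exact hb' (hbn ▸ hpb)
    have hp0 : (p : F) ≠ 0 := fun e => hp.ne_zero (Subtype.ext e)
    have h1 := M.ord_mul i f ((b : M.locAt c y) : F) hf fun e => hb0 (Subtype.ext e)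
    rw [hfb, (hunit a hpa).2,
      show ((b : M.locAt c y) : F) = (p : F) ^ n * (b' : F) by rw [hbn]; simp,
      M.ord_mul i _ _ (pow_ne_zero _ hp0) (hunit b' hb').1, M.ord_pow hp0, hp1,
      (hunit b' hb').2] at h1
    have := hord i hi
    omega
  · obtain ⟨P, hPO⟩ := hlift (primeValSubring F hp) (isDVR_primeValSubring hp) fun w hw => by
      obtain ⟨n, e, he, rfl, -⟩ := M.exists_const_eq hw
      obtain ⟨e', he'⟩ := he.exists_right_inv
      refine ⟨algebraMap_mem_primeValSubring hp
          (algebraMap (M.R c) (M.locAt c y) ⟨_, (M.R c).algebraMap_mem _⟩), ?_⟩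
      rw [map_mul, map_pow, mul_inv, ← inv_pow]
      refine mul_mem (pow_mem ?_ _) ?_
      · exact inv_mem_primeValSubring hp hq
      · rw [inv_eq_of_mul_eq_one_right (by rw [← map_mul, he', map_one])]
        exact algebraMap_mem_primeValSubring hp
          (algebraMap (M.R c) (M.locAt c y) ⟨_, (M.R c).algebraMap_mem e'⟩)
    have hR : ∀ r : M.R c, ι (r : F) ∈ P.toValuationSubring := fun r =>
      (hPO _).mp (algebraMap_mem_primeValSubring hp (algebraMap (M.R c) (M.locAt c y) r))
    have hker : ∀ r : M.R c, r ∉ y → P.ord (ι (r : F)) = 0 := fun r hr => by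
      have h2 := (hPO _).mp (inv_mem_primeValSubring hp (M.not_dvd_of_notMem c y hp hr))
      rw [map_inv₀] at h2
      have h3 := ord_nonneg_of_mem P h2
      rw [P.ord_inv] at h3
      have h4 := ord_nonneg_of_mem P (hR r)
      change 0 ≤ -P.ord (ι (r : F)) at h3
      omega
    obtain ⟨u, v, hv, huv⟩ :=
      (hPO f).mpr (mem_of_ord_nonneg P (hP P (compCen_of_le hA hι hy hR hker)))
    have h3 : a * v = (b : M.locAt c y) * u := by
      apply IsFractionRing.injective (M.locAt c y) F
      rw [map_mul, map_mul, ← huv,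
        show algebraMap (M.locAt c y) F a = f * algebraMap (M.locAt c y) F b from hfb.symm]
      ring
    exact (hp.dvd_or_dvd (h3 ▸ dvd_mul_of_dvd_left hpb u)).elim hpa hv

variable (M hdeg) in
include hA hι in
/-- **Specialisation of the geometric points.** -/
def ptsOfPlace (hint : ChartIntegral M) (hlift : PlacesLift W L ι) : Pts M L ι where
  Cen := CompCen M hdeg A ι
  exists_cen P := exists_std_compCen hA hι hint P
  eq_of_cen _ _ _ _ _ hy hy' h h' := h.unique hy hy' h'
  mem _ _ _ _ h r := h.mem_and_ord r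
  sep _ _ _ _ hy hz hne h := h.exists_sep hA hι hy hz hne
  regular _ _ _ hy hf hord hP := regular_of_compCen hA hι hlift hy hf hord hP

section Galois

variable (g : SemilinearAut L E)

theorem placeVal_galois (P : Place L E) {f : E} (hf : f ∈ P.toValuationSubring)
    (hf' : g • f ∈ (g • P).toValuationSubring) :
    placeVal (g • P) (hdeg _) ⟨g • f, hf'⟩ =
      SemilinearAut.baseAut g (placeVal P (hdeg P) ⟨f, hf⟩) := by
  set a := placeVal P (hdeg P) ⟨f, hf⟩
  have h0 : placeVal P (hdeg P) (⟨f, hf⟩ - algebraMap L P.toValuationSubring a) = 0 := by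
    rw [map_sub, placeVal_algebraMap, sub_self]
  have hsub : g • f - algebraMap L E (SemilinearAut.baseAut g a) = g • (f - algebraMap L E a) := by
    rw [smul_sub, SemilinearAut.smul_algebraMap]
  have h1 : placeVal (g • P) (hdeg _)
      ⟨g • f - algebraMap L E (SemilinearAut.baseAut g a),
        sub_mem hf' ((g • P).algebraMap_mem' _)⟩ = 0 := by
    refine (placeVal_eq_zero_iff _ _ _).mpr ?_
    rcases (placeVal_eq_zero_iff _ _ _).mp h0 with h | h
    · left
      show g • f - algebraMap L E (SemilinearAut.baseAut g a) = 0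
      rw [hsub, show f - algebraMap L E a = 0 from h, smul_zero]
    · right
      show 0 < (g • P).ord (g • f - algebraMap L E (SemilinearAut.baseAut g a))
      rw [hsub, SemilinearAut.ord_smul]
      exact h
  rwa [show (⟨g • f - algebraMap L E (SemilinearAut.baseAut g a),
      sub_mem hf' ((g • P).algebraMap_mem' _)⟩ : (g • P).toValuationSubring) =
      ⟨g • f, hf'⟩ - algebraMap L (g • P).toValuationSubring (SemilinearAut.baseAut g a) from rfl,
    map_sub, placeVal_algebraMap, sub_eq_zero] at h1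

variable {g} in
/-- Automorphisms fixing `F` and preserving `A` preserve the centres. -/
theorem CompCen.smul_iff (hgA : ∀ a, SemilinearAut.baseAut g a ∈ A ↔ a ∈ A)
    (hgι : ∀ f : F, g • ι f = ι f) {c : Fin 2} {y : Ideal (M.R c)} {P : Place L E} :
    CompCen M hdeg A ι c y (g • P) ↔ CompCen M hdeg A ι c y P := by
  have hgn : ∀ a, SemilinearAut.baseAut g a ∈ A.nonunits ↔ a ∈ A.nonunits := fun a => by
    rw [A.mem_nonunits_iff_or, A.mem_nonunits_iff_or, ← map_inv₀ (SemilinearAut.baseAut g),
      hgA, map_eq_zero_iff _ (SemilinearAut.baseAut g).injective]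
  have hm : ∀ f : F, ι f ∈ (g • P).toValuationSubring ↔ ι f ∈ P.toValuationSubring := fun f => by
    conv_lhs => rw [← hgι f, SemilinearAut.smul_toValuationSubring,
      ValuationSubring.smul_mem_pointwise_smul_iff]
  have key : ∀ f : F, (ι f ∈ compV (hdeg (g • P)) A ↔ ι f ∈ compV (hdeg P) A) ∧
      (ι f ∈ (compV (hdeg (g • P)) A).nonunits ↔ ι f ∈ (compV (hdeg P) A).nonunits) := by
    intro f
    by_cases hf : ι f ∈ P.toValuationSubring
    · have hf' := (hm f).mpr hf
      have hf'' : g • ι f ∈ (g • P).toValuationSubring := by rw [hgι]; exact hf'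
      have e : placeVal (g • P) (hdeg _) ⟨ι f, hf'⟩ =
          SemilinearAut.baseAut g (placeVal P (hdeg P) ⟨ι f, hf⟩) := by
        rw [← placeVal_galois g P hf hf'']
        congr 1
        exact Subtype.ext (hgι f).symm
      rw [mem_compV, mem_compV, mem_nonunits_compV, mem_nonunits_compV]
      simp only [hf, hf', exists_true_left, e, hgA, hgn, and_self]
    · exact ⟨iff_of_false (fun h => hf ((hm f).mp (mem_place_of_mem_compV _ h)))
        fun h => hf (mem_place_of_mem_compV _ h),
        iff_of_false (fun h => hf ((hm f).mp (mem_place_of_mem_compV _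
          ((compV (hdeg (g • P)) A).nonunits_subset h))))
        fun h => hf (mem_place_of_mem_compV _ ((compV (hdeg P) A).nonunits_subset h))⟩
  simp only [CompCen, (key _).1, (key _).2]

end Galois

end Fermat.Agent.LowerSq.Null
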